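import Fermat.Agent.KadisonSinger.Stable
import Mathlib.Analysis.SpecialFunctions.Sqrt
import Mathlib.LinearAlgebra.Matrix.Trace

/-!
# The barrier argument

For positive semidefinite matrices of sum `1` and traces `≤ ε` the mixed characteristic polynomial
has no root above `(1 + √ε) ^ 2`. Each operator `1 - ∂` is paid by a shift `1 / (1 - φ)` in its
direction, which keeps every logarithmic derivative below `φ`.
-/

set_option autoImplicit false

noncomputable section

namespace FA.KadisonSinger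

open Polynomial Matrix
open scoped ComplexOrder

variable {n : Type} [Fintype n] [DecidableEq n]

/-- The logarithmic derivative. -/
def potential (l : List (Matrix n n ℂ)) (M A : Matrix n n ℂ) : ℝ :=
  (dirDeriv l M A).re / (mixedDet l ℂ M).re

/-- Its derivative in a second direction. -/
def potential₂ (l : List (Matrix n n ℂ)) (M A B : Matrix n n ℂ) : ℝ :=
  ((dirDeriv₂ l M A B).re * (mixedDet l ℂ M).re - (dirDeriv l M A).re * (dirDeriv l M B).re) /
    (mixedDet l ℂ M).re ^ 2

omit [Fintype n] [DecidableEq n] in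
theorem isHermitian_add_real_smul {M A : Matrix n n ℂ} (hM : M.IsHermitian) (hA : A.IsHermitian)
    (t : ℝ) : (M + (t : ℂ) • A).IsHermitian := by
  rw [Matrix.IsHermitian, conjTranspose_add, conjTranspose_smul, hM.eq, hA.eq, Complex.star_def,
    Complex.conj_ofReal]

omit [Fintype n] [DecidableEq n] in
theorem cst_self (A : Matrix n n ℂ) : cst ℂ A = A := Matrix.ext fun i j => by simp [cst]

/-- **Monotonicity and convexity.** -/
theorem potential_tangent {l : List (Matrix n n ℂ)} (hl : ∀ A ∈ l, Matrix.PosSemidef A)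
    {M A B : Matrix n n ℂ} (hM : M.IsHermitian) (hA : A.PosSemidef) (hB : B.PosSemidef)
    (hpos : ∀ t : ℝ, 0 ≤ t → 0 < (mixedDet l ℂ (M + (t : ℂ) • B)).re) {t : ℝ} (ht : 0 ≤ t) :
    potential₂ l (M + (t : ℂ) • B) A B ≤ 0 ∧
      potential l (M + (t : ℂ) • B) A - potential l M A ≤
        t * potential₂ l (M + (t : ℂ) • B) A B := by
  have hlh : ∀ C ∈ l, Matrix.IsHermitian C := fun C hC => (hl C hC).1
  obtain ⟨a, ha⟩ := exists_real_dirDeriv_line hlh hM hA.1 hB.1
  obtain ⟨b, hb⟩ := exists_real_linePoly hlh hM hB.1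
  have ea : ∀ x : ℝ, a.eval x = (dirDeriv l (M + (x : ℂ) • B) A).re := fun x => by
    have := congrArg (fun q => q.eval (x : ℂ)) ha
    simp only [eval_map_algebraMap, aeval_ofReal, eval_dirDeriv_line, cst_self] at this
    rw [← this, Complex.ofReal_re]
  have eb : ∀ x : ℝ, b.eval x = (mixedDet l ℂ (M + (x : ℂ) • B)).re := fun x => by
    have := congrArg (fun q => q.eval (x : ℂ)) hb
    simp only [eval_map_algebraMap, aeval_ofReal, eval_line] at this
    rw [← this, Complex.ofReal_re]
  have ea' : a.derivative.eval t = (dirDeriv₂ l (M + (t : ℂ) • B) A B).re := by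
    have := congrArg (fun q => q.derivative.eval (t : ℂ)) ha
    simp only [derivative_map, eval_map_algebraMap, aeval_ofReal, derivative_dirDeriv_line,
      cst_self] at this
    rw [dirDeriv₂_comm, ← this, Complex.ofReal_re]
  have eb' : b.derivative.eval t = (dirDeriv l (M + (t : ℂ) • B) B).re := by
    have := congrArg (fun q => q.derivative.eval (t : ℂ)) hb
    simp only [derivative_map, eval_map_algebraMap, aeval_ofReal, derivative_eval_linePoly,
      cst_self] at this
    rw [← this, Complex.ofReal_re]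
  obtain ⟨h1, h2⟩ := (herglotzPair_line hl hM hA hB ha hb).tangent
    (fun x hx => by rw [eb]; exact hpos x hx) ht
  have e0 : M + ((0 : ℝ) : ℂ) • B = M := by simp
  rw [ea, eb, ea', eb'] at h1 h2
  rw [ea, eb, e0] at h2
  refine ⟨div_nonpos_of_nonpos_of_nonneg h1 (sq_nonneg _), ?_⟩
  simpa only [potential, potential₂] using h2

variable {ι : Type} [Fintype ι] [DecidableEq ι]

/-- The combination of the directions. -/
def coneSum (A : ι → Matrix n n ℂ) (s : ι → ℝ) (T : Finset ι) : Matrix n n ℂ :=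
  ∑ i ∈ T, (s i : ℂ) • A i

/-- Above the roots, with all barriers at most `φ`. -/
structure BarrierState (A : ι → Matrix n n ℂ) (l : List (Matrix n n ℂ)) (φ : ℝ)
    (M : Matrix n n ℂ) : Prop where
  herm : M.IsHermitian
  above : ∀ s : ι → ℝ, (∀ i, 0 ≤ s i) → 0 < (mixedDet l ℂ (M + coneSum A s Finset.univ)).re
  le : ∀ i, potential l M (A i) ≤ φ

omit [Fintype n] [DecidableEq n] [Fintype ι] [DecidableEq ι] in
theorem isHermitian_coneSum {A : ι → Matrix n n ℂ} (hA : ∀ i, (A i).PosSemidef) (s : ι → ℝ)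
    (T : Finset ι) : (coneSum A s T).IsHermitian := by
  rw [coneSum, Matrix.IsHermitian, conjTranspose_sum]
  exact Finset.sum_congr rfl fun i _ => by
    rw [conjTranspose_smul, (hA i).1.eq, Complex.star_def, Complex.conj_ofReal]

theorem BarrierState.potential_le {A : ι → Matrix n n ℂ} (hA : ∀ i, (A i).PosSemidef)
    {l : List (Matrix n n ℂ)} (hl : ∀ B ∈ l, Matrix.PosSemidef B) {φ : ℝ} {M : Matrix n n ℂ}
    (h : BarrierState A l φ M) (s : ι → ℝ) (hs : ∀ i, 0 ≤ s i) (j : ι) (T : Finset ι) :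
    potential l (M + coneSum A s T) (A j) ≤ potential l M (A j) := by
  induction T using Finset.induction with
  | empty => simp [coneSum]
  | insert i T hi ih =>
    refine le_trans ?_ ih
    have e : ∀ x : ℝ, M + coneSum A s T + (x : ℂ) • A i = M + coneSum A
        (fun k => (if k ∈ T then s k else 0) + if k = i then x else 0) Finset.univ := fun x => by
      simp only [coneSum, Complex.ofReal_add, apply_ite Complex.ofReal, Complex.ofReal_zero,
        add_smul, ite_smul, zero_smul, Finset.sum_add_distrib, Finset.sum_ite_mem,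
        Finset.univ_inter, Finset.sum_ite_eq', Finset.mem_univ, if_true, add_assoc]
    obtain ⟨h1, h2⟩ := potential_tangent hl (h.herm.add (isHermitian_coneSum hA s T)) (hA j)
      (hA i) (fun x hx => by
        rw [e x]
        exact h.above _ fun k => add_nonneg (by split_ifs <;> [exact hs k; exact le_rfl])
          (by split_ifs <;> [exact hx; exact le_rfl])) (hs i)
    rw [show M + coneSum A s (insert i T) = M + coneSum A s T + (s i : ℂ) • A i by
      rw [coneSum, Finset.sum_insert hi, coneSum]; abel]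
    nlinarith [hs i]

/-- **One operator, one shift.** -/
theorem BarrierState.step {A : ι → Matrix n n ℂ} (hA : ∀ i, (A i).PosSemidef)
    {l : List (Matrix n n ℂ)} (hl : ∀ B ∈ l, Matrix.PosSemidef B) {φ : ℝ} (hφ : φ < 1)
    {M : Matrix n n ℂ} (h : BarrierState A l φ M) (j : ι) :
    BarrierState A (A j :: l) φ (M + ((1 / (1 - φ) : ℝ) : ℂ) • A j) := by
  obtain ⟨δ, hδ⟩ : ∃ δ, δ = 1 / (1 - φ) := ⟨_, rfl⟩
  have hδ0 : 0 < δ := hδ ▸ one_div_pos.2 (by linarith)
  rw [← hδ]
  obtain ⟨e, he⟩ : ∃ e : ι → ℝ, e = fun k => if k = j then δ else 0 := ⟨_, rfl⟩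
  have he0 : ∀ k, 0 ≤ e k := fun k => by
    rw [he]; simp only []; split_ifs <;> [exact hδ0.le; exact le_rfl]
  have hshift : ∀ x : ℝ, M + (x : ℂ) • A j =
      M + coneSum A (fun k => if k = j then x else 0) Finset.univ := fun x => by
    simp [coneSum, apply_ite Complex.ofReal, ite_smul]
  have hcons : ∀ (N : Matrix n n ℂ), (mixedDet (A j :: l) ℂ N).re =
      (mixedDet l ℂ N).re - (dirDeriv l N (A j)).re := fun N => by
    rw [mixedDet_cons, Complex.sub_re]
  refine ⟨isHermitian_add_real_smul h.herm (hA j).1 δ, fun s hs => ?_, fun i => ?_⟩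
  · have e1 : M + (δ : ℂ) • A j + coneSum A s Finset.univ =
        M + coneSum A (fun k => e k + s k) Finset.univ := by
      rw [hshift, he, add_assoc]
      simp only [coneSum, Complex.ofReal_add, add_smul, Finset.sum_add_distrib]
    rw [e1, hcons]
    have hpos := h.above _ fun k => add_nonneg (he0 k) (hs k)
    have hle := (h.potential_le hA hl _ (fun k => add_nonneg (he0 k) (hs k)) j
      Finset.univ).trans (h.le j)
    rw [potential, div_le_iff₀ hpos] at hle
    nlinarith
  · have hline : ∀ t : ℝ, 0 ≤ t → 0 < (mixedDet l ℂ (M + (t : ℂ) • A j)).re := fun t ht => by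
      rw [hshift]
      exact h.above _ fun k => by split_ifs <;> [exact ht; exact le_rfl]
    obtain ⟨h1, h2⟩ := potential_tangent hl h.herm (hA i) (hA j) hline hδ0.le
    obtain ⟨N, hN⟩ : ∃ N, N = M + (δ : ℂ) • A j := ⟨_, rfl⟩
    have hG : 0 < (mixedDet l ℂ N).re := hN ▸ hline δ hδ0.le
    have hj : potential l N (A j) ≤ φ := by
      have := h.potential_le hA hl e he0 j Finset.univ
      rw [he, ← hshift, ← hN] at this
      exact this.trans (h.le j)
    rw [← hN] at h1 h2 ⊢
    have hi := h.le i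
    simp only [potential, dirDeriv_cons, hcons, Complex.sub_re]
    simp only [potential, potential₂] at h1 h2 hi hj
    obtain ⟨G, hGd⟩ : ∃ G, G = (mixedDet l ℂ N).re := ⟨_, rfl⟩
    obtain ⟨di, hdi⟩ : ∃ d, d = (dirDeriv l N (A i)).re := ⟨_, rfl⟩
    obtain ⟨dj, hdj⟩ : ∃ d, d = (dirDeriv l N (A j)).re := ⟨_, rfl⟩
    obtain ⟨d2, hd2⟩ : ∃ d, d = (dirDeriv₂ l N (A i) (A j)).re := ⟨_, rfl⟩
    rw [← hGd] at hG hj h1 h2 ⊢
    rw [← hdj] at hj h1 h2 ⊢
    rw [← hdi] at h1 h2 ⊢
    rw [← hd2] at h1 h2 ⊢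
    have hp : dj / G ≤ φ := hj
    have hden : 0 < 1 - dj / G := by linarith
    have key : (di - d2) / (G - dj) = di / G - (d2 * G - di * dj) / G ^ 2 / (1 - dj / G) := by
      have h3 : G - dj ≠ 0 := by
        have : 0 < G * (1 - dj / G) := mul_pos hG hden
        rw [mul_sub, mul_one, mul_div_cancel₀ _ hG.ne'] at this
        exact this.ne'
      field_simp
      ring
    rw [key]
    have hinv : 1 / (1 - dj / G) ≤ δ :=
      hδ ▸ one_div_le_one_div_of_le (by linarith) (by linarith)
    have := mul_le_mul_of_nonpos_left hinv h1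
    rw [mul_one_div] at this
    linarith

theorem coeff_one_det_line {t : ℝ} (ht : t ≠ 0) (A : Matrix n n ℂ) :
    (linePoly [] ((t : ℂ) • (1 : Matrix n n ℂ)) A).coeff 1 =
      (t : ℂ) ^ Fintype.card n * A.trace / t := by
  have ht' : (t : ℂ) ≠ 0 := Complex.ofReal_ne_zero.2 ht
  have e : ((t : ℂ) • (1 : Matrix n n ℂ)).map Polynomial.C +
      (Polynomial.X : ℂ[X]) • cst ℂ[X] A = Polynomial.C (t : ℂ) •
        (1 + (Polynomial.X : ℂ[X]) • ((t : ℂ)⁻¹ • A).map Polynomial.C) := by
    refine Matrix.ext fun i j => ?_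
    have h1 : Polynomial.C (t : ℂ) * Polynomial.C (t : ℂ)⁻¹ = 1 := by
      rw [← map_mul, mul_inv_cancel₀ ht', map_one]
    rcases eq_or_ne i j with rfl | h
    · simp [cst, mul_add]
      linear_combination (-(Polynomial.X : ℂ[X]) * Polynomial.C (A i i)) * h1
    · simp [cst, h]
      linear_combination (-(Polynomial.X : ℂ[X]) * Polynomial.C (A i j)) * h1
  rw [linePoly, mixedDet_nil, e, det_smul, ← map_pow, coeff_C_mul,
    coeff_det_one_add_X_smul_one, trace_smul, smul_eq_mul]
  field_simp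

omit [DecidableEq ι] in
theorem barrierState_start {A : ι → Matrix n n ℂ} (hA : ∀ i, (A i).PosSemidef) {ε φ : ℝ}
    (htr : ∀ i, (A i).trace.re ≤ ε) (hε : 0 < ε) (hφ : 0 < φ) :
    BarrierState A [] φ (((ε / φ : ℝ) : ℂ) • 1) := by
  obtain ⟨t, ht⟩ : ∃ t, t = ε / φ := ⟨_, rfl⟩
  have ht0 : 0 < t := ht ▸ div_pos hε hφ
  rw [← ht]
  have hH : ((t : ℂ) • (1 : Matrix n n ℂ)).IsHermitian := by
    simp [Matrix.IsHermitian, conjTranspose_smul]
  refine ⟨hH, fun s hs => ?_, fun i => ?_⟩
  · have hP : ((t : ℂ) • (1 : Matrix n n ℂ) + coneSum A s Finset.univ).PosDef :=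
      (PosDef.one.smul (Complex.zero_lt_real.2 ht0)).add_posSemidef
        (Matrix.posSemidef_sum _ fun k _ => (hA k).smul (Complex.zero_le_real.2 (hs k)))
    exact (Complex.lt_def.1 hP.det_pos).1
  · rw [potential, dirDeriv, coeff_one_det_line ht0.ne', mixedDet_nil, det_smul, det_one,
      mul_one, ← Complex.ofReal_pow, Complex.div_ofReal_re, Complex.re_ofReal_mul,
      Complex.ofReal_re]
    have h1 := htr i
    have h2 : (t ^ Fintype.card n * (A i).trace.re / t) / t ^ Fintype.card n =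
        (A i).trace.re / t := by field_simp
    rw [h2, div_le_iff₀ ht0, ht, mul_div_cancel₀ _ hφ.ne']
    exact h1

theorem barrierState_list {A : ι → Matrix n n ℂ} (hA : ∀ i, (A i).PosSemidef) {φ : ℝ} (hφ : φ < 1)
    {M : Matrix n n ℂ} (h : BarrierState A [] φ M) (js : List ι) :
    BarrierState A (js.map A) φ (M + ((1 / (1 - φ) : ℝ) : ℂ) • (js.map A).sum) := by
  induction js with
  | nil => simpa using h
  | cons j js ih =>
    have := ih.step hA (fun B hB => by
      obtain ⟨k, -, rfl⟩ := List.mem_map.1 hB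
      exact hA k) hφ j
    rwa [List.map_cons, List.sum_cons, smul_add, ← add_assoc, add_right_comm]

/-- **The largest root.** -/
theorem mixed_pos_above {A : ι → Matrix n n ℂ} (hA : ∀ i, (A i).PosSemidef)
    (hsum : ∑ i, A i = 1) {ε : ℝ} (htr : ∀ i, (A i).trace.re ≤ ε) (hε : 0 < ε) {x : ℝ}
    (hx : (1 + Real.sqrt ε) ^ 2 < x) :
    0 < (mixedDet (Finset.univ.toList.map A) ℂ ((x : ℂ) • 1)).re := by
  obtain ⟨r, hr⟩ : ∃ r, r = Real.sqrt ε := ⟨_, rfl⟩
  have hr0 : 0 < r := hr ▸ Real.sqrt_pos.2 hε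
  have hr2 : r ^ 2 = ε := hr ▸ Real.sq_sqrt hε.le
  rw [← hr] at hx
  obtain ⟨φ, hφ⟩ : ∃ φ, φ = r / (1 + r) := ⟨_, rfl⟩
  have hφ1 : φ < 1 := by rw [hφ, div_lt_one (by linarith)]; linarith
  have h := barrierState_list hA hφ1 (barrierState_start hA htr hε (hφ ▸ by positivity))
    Finset.univ.toList
  rw [Finset.sum_map_toList, hsum] at h
  have ht : ε / φ + 1 / (1 - φ) = (1 + r) ^ 2 := by
    rw [hφ, ← hr2]
    have : 1 - r / (1 + r) = 1 / (1 + r) := by field_simp; ring
    rw [this]
    field_simp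
    ring
  have := h.above (fun _ => x - (1 + r) ^ 2) fun _ => by linarith
  rw [coneSum, ← Finset.smul_sum, hsum, ← add_smul, ← add_smul, ← Complex.ofReal_add,
    ← Complex.ofReal_add, ht] at this
  rwa [add_sub_cancel] at this

end FA.KadisonSinger
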