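import Fermat.Agent.KadisonSinger.Weaver
import Mathlib.Analysis.InnerProductSpace.l2Space
import Mathlib.Analysis.CStarAlgebra.ContinuousLinearMap
import Mathlib.Analysis.CStarAlgebra.ContinuousFunctionalCalculus.Order
import Mathlib.Analysis.CStarAlgebra.lpSpace

/-!
# The extension of pure states

A pure state of `ℓ^∞ (ℕ)` is `0` or `1` on each indicator. A state extending it to the operators of
`ℓ² (ℕ)` sees `T` only through `P T P` for a class `P` of mass one of every finite partition.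
Paving, carried to `ℕ` by compactness, makes this small when `T` has zero diagonal, so the
extension is the composite with the diagonal.
-/

set_option autoImplicit false

noncomputable section

namespace FA.KadisonSinger

open Filter
open scoped ENNReal Topology ComplexOrder ComplexConjugate InnerProductSpace

/-- A normalised positive functional. -/
def IsState {A : Type*} [Ring A] [StarRing A] [Algebra ℂ A] (φ : A →ₗ[ℂ] ℂ) : Prop :=
  φ 1 = 1 ∧ ∀ a, 0 ≤ φ (star a * a)

/-- An extreme state. -/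
def IsPureState {A : Type*} [Ring A] [StarRing A] [Algebra ℂ A] (φ : A →ₗ[ℂ] ℂ) : Prop :=
  IsState φ ∧ ∀ φ₁ φ₂ : A →ₗ[ℂ] ℂ, IsState φ₁ → IsState φ₂ → ∀ t : ℝ, 0 < t → t < 1 →
    (∀ a, φ a = t * φ₁ a + (1 - t) * φ₂ a) → φ₁ = φ

section States

variable {A : Type*} [Ring A] [StarRing A] [Algebra ℂ A] [StarModule ℂ A] {φ : A →ₗ[ℂ] ℂ}

theorem expand_star_mul (a b : A) (z : ℂ) :
    star (a + z • b) * (a + z • b) =
      star a * a + z • (star a * b) + conj z • (star b * a) + (conj z * z) • (star b * b) := by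
  simp only [star_add, star_smul, add_mul, mul_add, smul_mul_assoc, mul_smul_comm, smul_smul,
    smul_add, Complex.star_def, mul_comm z (conj z)]
  abel

theorem IsState.map_star (h : IsState φ) (a : A) : φ (star a) = conj (φ a) := by
  have key : ∀ z : ℂ, (z * φ a + conj z * φ (star a)).im = 0 := fun z => by
    have h1 := (Complex.le_def.1 (h.2 ((1 : A) + z • a))).2
    have h2 := (Complex.le_def.1 (h.2 a)).2
    rw [expand_star_mul, map_add, map_add, map_add, map_smul, map_smul, map_smul, star_one,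
      one_mul, one_mul, mul_one, h.1] at h1
    simp only [Complex.zero_im, Complex.add_im, Complex.one_im, smul_eq_mul, Complex.mul_im,
      Complex.conj_re, Complex.conj_im, Complex.mul_re] at h1 h2 ⊢
    rw [← h2] at h1
    linarith
  have h1 := key 1
  have hI := key Complex.I
  simp only [map_one, one_mul, Complex.add_im, Complex.conj_I, neg_mul, Complex.neg_im,
    Complex.mul_im, Complex.I_re, Complex.I_im, zero_mul, zero_add] at h1 hI
  apply Complex.ext
  · rw [Complex.conj_re]; linarith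
  · rw [Complex.conj_im]; linarith

theorem IsState.kernel (h : IsState φ) {b : A} (hb : φ (star b * b) = 0) (a : A) :
    φ (star b * a) = 0 ∧ φ (star a * b) = 0 := by
  have hsymm : φ (star b * a) = conj (φ (star a * b)) := by
    rw [← h.map_star, star_mul, star_star]
  have hY : φ (star a * b) = 0 := by
    by_contra hne
    obtain ⟨y, hy⟩ : ∃ y, y = φ (star a * b) := ⟨_, rfl⟩
    obtain ⟨c, hc⟩ : ∃ c, c = (φ (star a * a)).re := ⟨_, rfl⟩
    have hq : 0 < Complex.normSq y := Complex.normSq_pos.2 (hy ▸ hne)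
    obtain ⟨t, ht⟩ : ∃ t : ℝ, t = -(c + 1) / (2 * Complex.normSq y) := ⟨_, rfl⟩
    have h1 := (Complex.le_def.1 (h.2 (a + ((t : ℂ) * conj y) • b))).1
    rw [expand_star_mul, map_add, map_add, map_add, map_smul, map_smul, map_smul, hb, hsymm,
      ← hy] at h1
    simp only [smul_eq_mul, mul_zero, add_zero, map_mul, Complex.conj_ofReal, Complex.conj_conj,
      mul_assoc, Complex.conj_mul', Complex.mul_conj', Complex.add_re, Complex.re_ofReal_mul,
      Complex.zero_re, ← hc, ← Complex.ofReal_pow, Complex.ofReal_re,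
      ← Complex.normSq_eq_norm_sq] at h1
    rw [ht] at h1
    field_simp at h1
    nlinarith
  exact ⟨by rw [hsymm, hY, map_zero], hY⟩

theorem IsState.normSq_le (h : IsState φ) (a : A) :
    Complex.normSq (φ a) ≤ (φ (star a * a)).re := by
  have h1 := (Complex.le_def.1 (h.2 (a + (-(φ a)) • (1 : A)))).1
  rw [expand_star_mul, map_add, map_add, map_add, map_smul, map_smul, map_smul, star_one,
    one_mul, one_mul, mul_one, h.1, h.map_star] at h1
  simp only [smul_eq_mul, mul_one, map_neg, neg_mul, mul_neg, neg_neg, Complex.add_re,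
    Complex.neg_re, Complex.zero_re, Complex.mul_conj', Complex.conj_mul', ← Complex.ofReal_pow,
    Complex.ofReal_re, ← Complex.normSq_eq_norm_sq] at h1
  linarith

end States

/-- The sequence space `ℓ²`. -/
abbrev HilbertSeq : Type := lp (fun _ : ℕ => ℂ) 2

/-- The diagonal algebra `ℓ^∞`. -/
abbrev DiagAlg : Type := lp (fun _ : ℕ => ℂ) ∞

/-- The standard vectors. -/
def basisVec (i : ℕ) : HilbertSeq := lp.single 2 i 1

theorem inner_basisVec (i : ℕ) (x : HilbertSeq) : ⟪basisVec i, x⟫_ℂ = x i := by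
  rw [basisVec, lp.inner_single_left]
  simp

theorem memℓp_mul (f : DiagAlg) (x : HilbertSeq) : Memℓp (fun i => f i * x i) 2 := by
  refine memℓp_gen (Summable.of_nonneg_of_le (fun i => by positivity) (fun i => ?_)
    (((lp.memℓp x).summable (by norm_num)).mul_left (‖f‖ ^ (2 : ℝ≥0∞).toReal)))
  rw [← Real.mul_rpow (norm_nonneg _) (norm_nonneg _), norm_mul]
  exact Real.rpow_le_rpow (by positivity)
    (mul_le_mul_of_nonneg_right (lp.norm_apply_le_norm ENNReal.top_ne_zero f i) (norm_nonneg _))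
    (by norm_num)

/-- The multiplication operator. -/
def diagOp (f : DiagAlg) : HilbertSeq →L[ℂ] HilbertSeq :=
  LinearMap.mkContinuous
    { toFun := fun x => ⟨fun i => f i * x i, memℓp_mul f x⟩
      map_add' := fun x y => by ext i; simp [mul_add]
      map_smul' := fun c x => by ext i; simp [mul_left_comm] }
    ‖f‖ fun x => by
      refine lp.norm_le_of_forall_sum_le (by norm_num) (by positivity) fun s => ?_
      rw [Real.mul_rpow (norm_nonneg _) (norm_nonneg _)]
      refine le_trans ?_ (mul_le_mul_of_nonneg_left (lp.sum_rpow_le_norm_rpow (by norm_num) x s)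
        (by positivity))
      rw [Finset.mul_sum]
      refine Finset.sum_le_sum fun i _ => ?_
      rw [← Real.mul_rpow (norm_nonneg _) (norm_nonneg _)]
      refine Real.rpow_le_rpow (norm_nonneg _) ?_ (by norm_num)
      simp only [LinearMap.coe_mk, AddHom.coe_mk, norm_mul]
      exact mul_le_mul_of_nonneg_right (lp.norm_apply_le_norm ENNReal.top_ne_zero f i)
        (norm_nonneg _)

theorem diagOp_apply (f : DiagAlg) (x : HilbertSeq) (i : ℕ) : diagOp f x i = f i * x i := rfl

theorem diagOp_basisVec (f : DiagAlg) (i : ℕ) : diagOp f (basisVec i) = f i • basisVec i := by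
  ext j
  rcases eq_or_ne j i with rfl | h
  · simp [diagOp_apply, basisVec]
  · simp [diagOp_apply, basisVec, h]

theorem star_diagOp (f : DiagAlg) : star (diagOp f) = diagOp (star f) := by
  rw [ContinuousLinearMap.star_eq_adjoint, eq_comm, ContinuousLinearMap.eq_adjoint_iff]
  intro x y
  simp only [lp.inner_eq_tsum, diagOp_apply]
  refine tsum_congr fun i => ?_
  simp [mul_left_comm, mul_comm]
  ring

theorem diagOp_mul (f g : DiagAlg) : diagOp (f * g) = diagOp f * diagOp g := by
  refine ContinuousLinearMap.ext fun x => ?_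
  ext i
  simp [diagOp_apply, mul_assoc]

theorem diagOp_one : diagOp 1 = 1 := by
  refine ContinuousLinearMap.ext fun x => ?_
  ext i
  simp [diagOp_apply]

/-- The diagonal of an operator. -/
def diagPart : (HilbertSeq →L[ℂ] HilbertSeq) →ₗ[ℂ] DiagAlg where
  toFun T := ⟨fun i => ⟪basisVec i, T (basisVec i)⟫_ℂ, memℓp_infty ⟨‖T‖, by
    rintro _ ⟨i, rfl⟩
    refine (norm_inner_le_norm _ _).trans ?_
    have h1 : ‖basisVec i‖ = 1 := by simp [basisVec, lp.norm_single]
    rw [h1, one_mul]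
    simpa [h1] using T.le_opNorm (basisVec i)⟩⟩
  map_add' S T := by ext i; simp [inner_add_right]
  map_smul' c T := by ext i; simp [inner_smul_right]

theorem diagPart_apply (T : HilbertSeq →L[ℂ] HilbertSeq) (i : ℕ) :
    diagPart T i = ⟪basisVec i, T (basisVec i)⟫_ℂ := rfl

theorem diagPart_diagOp (f : DiagAlg) : diagPart (diagOp f) = f := by
  ext i
  rw [diagPart_apply, inner_basisVec, diagOp_apply]
  simp [basisVec]

/-- The indicator of a set. -/
def indicator (S : Set ℕ) : DiagAlg :=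
  ⟨S.indicator fun _ => 1, memℓp_infty ⟨1, by
    rintro _ ⟨i, rfl⟩
    by_cases h : i ∈ S <;> simp [h]⟩⟩

theorem indicator_apply (S : Set ℕ) (i : ℕ) :
    indicator S i = S.indicator (fun _ => (1 : ℂ)) i := rfl

theorem star_indicator (S : Set ℕ) : star (indicator S) = indicator S := by
  ext i
  by_cases h : i ∈ S <;> simp [indicator_apply, h]

theorem indicator_mul_self (S : Set ℕ) : indicator S * indicator S = indicator S := by
  ext i
  by_cases h : i ∈ S <;> simp [indicator_apply, h]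

theorem pure_indicator {ψ : DiagAlg →ₗ[ℂ] ℂ} (hψ : IsPureState ψ) (S : Set ℕ) :
    ψ (indicator S) = 0 ∨ ψ (indicator S) = 1 := by
  obtain ⟨⟨h1, hpos⟩, hext⟩ := hψ
  obtain ⟨e, he⟩ : ∃ e, e = indicator S := ⟨_, rfl⟩
  rw [← he]
  have hee : star e * e = e := he ▸ by rw [star_indicator, indicator_mul_self]
  have hee' : star (1 - e) * (1 - e) = 1 - e := by
    rw [star_sub, star_one, he, star_indicator, sub_mul, one_mul, mul_sub, mul_one,
      indicator_mul_self]
    abel
  have h0 := hpos e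
  have h2 := hpos (1 - e)
  rw [hee] at h0
  rw [hee', map_sub, h1] at h2
  obtain ⟨hre, him⟩ := Complex.le_def.1 h0
  have hre2 := (Complex.le_def.1 h2).1
  rw [Complex.zero_re] at hre hre2
  rw [Complex.sub_re, Complex.one_re] at hre2
  obtain ⟨t, ht⟩ : ∃ t, t = (ψ e).re := ⟨_, rfl⟩
  have hval : ψ e = (t : ℂ) := by
    apply Complex.ext
    · simp [ht]
    · simp [← him]
  rcases eq_or_lt_of_le (ht ▸ hre : 0 ≤ t) with h | ht0
  · left; rw [hval, ← h, Complex.ofReal_zero]
  rcases eq_or_lt_of_le (by linarith : t ≤ 1) with h | ht1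
  · right; rw [hval, h, Complex.ofReal_one]
  exfalso
  have hpos' : ∀ (g : DiagAlg), star g * g = g → ∀ (s : ℝ), 0 < s → ψ g = s →
      IsState ((s : ℂ)⁻¹ • ψ.comp (LinearMap.mulLeft ℂ g)) := by
    intro g hg s hs hgs
    refine ⟨?_, fun a => ?_⟩
    · simp [hgs, hs.ne']
    · have := hpos (g * a)
      have e1 : star (g * a) * (g * a) = g * (star a * a) := by
        rw [star_mul']
        conv_rhs => rw [← hg]
        ring
      rw [e1] at this
      simp only [LinearMap.smul_apply, LinearMap.comp_apply, LinearMap.mulLeft_apply, smul_eq_mul]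
      rw [← Complex.ofReal_inv]
      exact mul_nonneg (Complex.zero_le_real.2 (inv_nonneg.2 hs.le)) this
  have h2s : ψ (1 - e) = ((1 - t : ℝ) : ℂ) := by rw [map_sub, h1, hval]; simp
  have := hext _ _ (hpos' e hee t ht0 hval) (hpos' (1 - e) hee' (1 - t) (by linarith) h2s) t ht0
    ht1 fun a => by
    have htne : (t : ℂ) ≠ 0 := Complex.ofReal_ne_zero.2 ht0.ne'
    have h1t : ((1 : ℝ) : ℂ) - t ≠ 0 := by
      rw [← Complex.ofReal_sub]; exact Complex.ofReal_ne_zero.2 (by linarith)
    simp only [LinearMap.smul_apply, LinearMap.comp_apply, LinearMap.mulLeft_apply, smul_eq_mul]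
    simp only [sub_mul, one_mul, map_sub]
    push_cast at h1t ⊢
    field_simp
    ring
  have := LinearMap.congr_fun this e
  have hmul : e * e = e := he ▸ indicator_mul_self S
  simp only [LinearMap.smul_apply, LinearMap.comp_apply, LinearMap.mulLeft_apply, hmul, hval,
    smul_eq_mul] at this
  rw [inv_mul_cancel₀ (Complex.ofReal_ne_zero.2 ht0.ne'), ← Complex.ofReal_one,
    Complex.ofReal_inj] at this
  linarith

/-- The vector with coordinates `x` on `range N`. -/
def finVec {N : ℕ} (x : Fin N → ℂ) : HilbertSeq := ∑ i, x i • basisVec i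

theorem finVec_apply {N : ℕ} (x : Fin N → ℂ) (j : Fin N) : finVec x j = x j := by
  classical
  simp only [finVec, lp.coeFn_sum, Finset.sum_apply, lp.coeFn_smul, Pi.smul_apply]
  rw [Finset.sum_eq_single_of_mem j (Finset.mem_univ _)]
  · simp [basisVec]
  · intro k _ hk
    simp [basisVec, Fin.val_inj, Ne.symm hk]

theorem norm_finVec {N : ℕ} (x : Fin N → ℂ) : ‖finVec x‖ = Real.sqrt (sqNorm x) := by
  have h : ⟪finVec x, finVec x⟫_ℂ = (sqNorm x : ℂ) := by
    nth_rw 1 [finVec]
    simp [sum_inner, inner_smul_left, inner_basisVec, finVec_apply, sqNorm,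
      Complex.normSq_eq_conj_mul_self]
  rw [norm_eq_sqrt_re_inner (𝕜 := ℂ), h]
  simp

/-- **Paving on `ℕ`.** -/
theorem paving_nat {ε : ℝ} (hε : 0 < ε) : ∃ r : ℕ, 0 < r ∧
    ∀ T : HilbertSeq →L[ℂ] HilbertSeq, diagPart T = 0 → ∃ c : ℕ → Fin r, ∀ k,
      ‖diagOp (indicator {i | c i = k}) * T * diagOp (indicator {i | c i = k})‖ ≤ ε * ‖T‖ := by
  obtain ⟨r, hr, hpav⟩ := paving hε
  refine ⟨r, hr, fun T hT => ?_⟩
  obtain ⟨P, hP⟩ : ∃ P : (N : ℕ) → (Fin N → Fin r) → Prop, P = fun N d => ∀ k (x y : Fin N → ℂ),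
      (∀ i, d i ≠ k → x i = 0) → (∀ i, d i ≠ k → y i = 0) →
      ‖⟪finVec y, T (finVec x)⟫_ℂ‖ ≤ ε * ‖T‖ * ‖finVec x‖ * ‖finVec y‖ := ⟨_, rfl⟩
  have hne : ∀ N, ∃ c : ℕ → Fin r, P N fun i => c i := by
    intro N
    obtain ⟨M, hM⟩ : ∃ M : Matrix (Fin N) (Fin N) ℂ,
        M = fun (i j : Fin N) => ⟪basisVec i, T (basisVec j)⟫_ℂ := ⟨_, rfl⟩
    have hform : ∀ x y : Fin N → ℂ, dotProduct (star y) (M.mulVec x) =
        ⟪finVec y, T (finVec x)⟫_ℂ := fun x y => by
      simp [finVec, sum_inner, inner_sum, inner_smul_left, inner_smul_right, dotProduct,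
        Matrix.mulVec, hM, Finset.mul_sum, mul_comm, mul_left_comm]
      rw [Finset.sum_comm]
    obtain ⟨c, hc⟩ := hpav (Fin N) M ‖T‖ (norm_nonneg T) (fun i => by
      have := congrArg (fun f : DiagAlg => f (i : ℕ)) hT
      simpa [hM, diagPart_apply] using this) fun x y => by
      rw [hform, ← norm_finVec, ← norm_finVec]
      calc ‖⟪finVec y, T (finVec x)⟫_ℂ‖ ≤ ‖finVec y‖ * ‖T (finVec x)‖ := norm_inner_le_norm _ _
        _ ≤ ‖finVec y‖ * (‖T‖ * ‖finVec x‖) :=
            mul_le_mul_of_nonneg_left (T.le_opNorm _) (norm_nonneg _)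
        _ = _ := by ring
    refine ⟨fun i => if h : i < N then c ⟨i, h⟩ else ⟨0, hr⟩, ?_⟩
    rw [hP]
    intro k x y hx hy
    simp only [Fin.is_lt, dif_pos, Fin.eta] at hx hy
    rw [← hform, norm_finVec, norm_finVec]
    exact hc k x y hx hy
  obtain ⟨K, hK⟩ : ∃ K : ℕ → Set (ℕ → Fin r), K = fun N => {c | P N fun i => c i} := ⟨_, rfl⟩
  have hclosed : ∀ N, IsClosed (K N) := fun N => by
    rw [hK]
    exact (isClosed_discrete {d | P N d}).preimage
      (continuous_pi fun i : Fin N => continuous_apply (i : ℕ))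
  have hanti : ∀ N, K (N + 1) ⊆ K N := fun N c hc => by
    rw [hK] at hc ⊢
    simp only [Set.mem_ofPred_eq, hP] at hc ⊢
    intro k x y hx hy
    have e : ∀ z : Fin N → ℂ, finVec (Fin.snoc (α := fun _ => ℂ) z 0) = finVec z := fun z => by
      simp [finVec, Fin.sum_univ_castSucc]
    have hs : ∀ z : Fin N → ℂ, (∀ i : Fin N, c i ≠ k → z i = 0) →
        ∀ i : Fin (N + 1), c i ≠ k → Fin.snoc (α := fun _ => ℂ) z 0 i = 0 := by
      intro z hz i
      refine Fin.lastCases ?_ (fun j => ?_) i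
      · simp
      · simpa using hz j
    simpa only [e] using hc k _ _ (hs x hx) (hs y hy)
  obtain ⟨c, hc⟩ := IsCompact.nonempty_iInter_of_sequence_nonempty_isCompact_isClosed K hanti
    (fun N => by
      obtain ⟨c, hc⟩ := hne N
      exact ⟨c, hK ▸ hc⟩) (hclosed 0).isCompact hclosed
  rw [Set.mem_iInter] at hc
  refine ⟨c, fun k => ContinuousLinearMap.opNorm_le_bound _
    (mul_nonneg hε.le (norm_nonneg T)) fun x => ?_⟩
  obtain ⟨Q, hQ⟩ : ∃ Q, Q = diagOp (indicator {i | c i = k}) := ⟨_, rfl⟩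
  rw [← hQ]
  have happ : ∀ (v : HilbertSeq) i,
      Q v i = ({i | c i = k} : Set ℕ).indicator (fun _ => 1) i * v i :=
    fun v i => by rw [hQ, diagOp_apply, indicator_apply]
  have hsupp : ∀ (v : HilbertSeq) i, c i ≠ k → Q v i = 0 := fun v i hi => by
    rw [happ, Set.indicator_of_notMem (by simpa using hi), zero_mul]
  have hQQ : ∀ v : HilbertSeq, Q (Q v) = Q v := fun v => by
    rw [hQ, ← mul_apply_eq_comp, ← diagOp_mul, indicator_mul_self]
  have hQs : star Q = Q := by rw [hQ, star_diagOp, star_indicator]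
  have hQn : ∀ v : HilbertSeq, ‖Q v‖ ≤ ‖v‖ := fun v => by
    refine lp.norm_le_of_forall_sum_le (by norm_num) (norm_nonneg _) fun s => ?_
    refine le_trans (Finset.sum_le_sum fun i _ => ?_)
      (lp.sum_rpow_le_norm_rpow (by norm_num) v s)
    refine Real.rpow_le_rpow (norm_nonneg _) ?_ (by norm_num)
    rw [happ]
    by_cases h : i ∈ {i | c i = k} <;> simp [h]
  have hlim : ∀ u w : HilbertSeq, (∀ i, c i ≠ k → u i = 0) → (∀ i, c i ≠ k → w i = 0) →
      ‖⟪w, T u⟫_ℂ‖ ≤ ε * ‖T‖ * ‖u‖ * ‖w‖ := by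
    intro u w hu hw
    have ht : ∀ z : HilbertSeq,
        Tendsto (fun N => finVec fun i : Fin N => z i) atTop (𝓝 z) := fun z => by
      refine (lp.hasSum_single (by norm_num) z).tendsto_sum_nat.congr fun N => ?_
      rw [finVec, ← Fin.sum_univ_eq_sum_range]
      refine Finset.sum_congr rfl fun i _ => ?_
      rw [basisVec, ← lp.single_smul, smul_eq_mul, mul_one]
    refine le_of_tendsto_of_tendsto'
      ((((ht w).inner ((T.continuous.tendsto u).comp (ht u))).norm))
      ((((ht u).norm.const_mul (ε * ‖T‖))).mul (ht w).norm) fun N => ?_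
    have := hc N
    rw [hK] at this
    simp only [Set.mem_ofPred_eq, hP] at this
    exact this k _ _ (fun i hi => hu _ hi) (fun i hi => hw _ hi)
  obtain ⟨z, hz⟩ : ∃ z, z = Q (T (Q x)) := ⟨_, rfl⟩
  change ‖Q (T (Q x))‖ ≤ _
  rw [← hz]
  have key : ⟪z, z⟫_ℂ = ⟪z, T (Q x)⟫_ℂ := by
    nth_rw 2 [hz]
    rw [← ContinuousLinearMap.adjoint_inner_left, ← ContinuousLinearMap.star_eq_adjoint, hQs, hz,
      hQQ]
  have h1 := hlim (Q x) z (hsupp x) (hz ▸ hsupp _)
  rw [← key, inner_self_eq_norm_sq_to_K, norm_pow, RCLike.norm_ofReal, abs_norm, sq] at h1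
  rcases eq_or_lt_of_le (norm_nonneg z) with h0 | hpos
  · rw [← h0]; positivity
  have h2 := le_of_mul_le_mul_right h1 hpos
  exact h2.trans (mul_le_mul_of_nonneg_left (hQn x) (mul_nonneg hε.le (norm_nonneg T)))

theorem isState_comp_diagPart {ψ : DiagAlg →ₗ[ℂ] ℂ} (hψ : IsState ψ) :
    IsState (ψ.comp diagPart) := by
  refine ⟨?_, fun T => ?_⟩
  · rw [LinearMap.comp_apply, ← diagOp_one, diagPart_diagOp, hψ.1]
  · obtain ⟨g, hg⟩ : ∃ g : DiagAlg, ∀ i, g i = (‖T (basisVec i)‖ : ℂ) := by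
      refine ⟨⟨fun i => (‖T (basisVec i)‖ : ℂ), memℓp_infty ⟨‖T‖, ?_⟩⟩, fun _ => rfl⟩
      rintro _ ⟨i, rfl⟩
      have h1 : ‖basisVec i‖ = 1 := by simp [basisVec, lp.norm_single]
      simpa [h1] using T.le_opNorm (basisVec i)
    have e : diagPart (star T * T) = star g * g := by
      ext i
      rw [diagPart_apply, mul_apply_eq_comp, ContinuousLinearMap.star_eq_adjoint,
        ContinuousLinearMap.adjoint_inner_right, inner_self_eq_norm_sq_to_K]
      simp [hg, sq]
    rw [LinearMap.comp_apply, e]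
    exact hψ.2 g

theorem IsState.norm_le_norm {A : Type*} [CStarAlgebra A] {φ : A →ₗ[ℂ] ℂ} (h : IsState φ)
    (T : A) : ‖φ T‖ ≤ ‖T‖ := by
  let _ := CStarAlgebra.spectralOrder A
  have := CStarAlgebra.spectralOrderedRing A
  have hle : star T * T ≤ algebraMap ℝ A (‖T‖ ^ 2) :=
    CStarAlgebra.star_mul_le_algebraMap_norm_sq
  obtain ⟨S, hS⟩ := CStarAlgebra.nonneg_iff_eq_star_mul_self.1 (sub_nonneg.2 hle)
  have h2 := (Complex.le_def.1 (h.2 S)).1
  rw [← hS, map_sub, IsScalarTower.algebraMap_apply ℝ ℂ A,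
    Algebra.algebraMap_eq_smul_one (A := A), map_smul, h.1] at h2
  have h3 := h.normSq_le T
  rw [Complex.normSq_eq_norm_sq] at h3
  simp only [Complex.sub_re, smul_eq_mul, mul_one, Complex.coe_algebraMap, Complex.ofReal_re,
    Complex.zero_re] at h2
  exact (pow_le_pow_iff_left₀ (norm_nonneg _) (norm_nonneg _) two_ne_zero).1 (by linarith)

/-- **The extension is unique.** -/
theorem extension_unique {ψ : DiagAlg →ₗ[ℂ] ℂ} (hψ : IsPureState ψ)
    {φ : (HilbertSeq →L[ℂ] HilbertSeq) →ₗ[ℂ] ℂ} (hφ : IsState φ)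
    (hext : ∀ f, φ (diagOp f) = ψ f) : φ = ψ.comp diagPart := by
  refine LinearMap.ext fun T => ?_
  obtain ⟨U, hU⟩ : ∃ U, U = T - diagOp (diagPart T) := ⟨_, rfl⟩
  have hU0 : diagPart U = 0 := by rw [hU, map_sub, diagPart_diagOp, sub_self]
  suffices h : φ U = 0 by
    rwa [hU, map_sub, hext, sub_eq_zero] at h
  refine norm_le_zero_iff.1 (le_of_forall_pos_le_add fun η hη => ?_)
  rw [zero_add]
  obtain ⟨r, hr, hpav⟩ := paving_nat (ε := η / (‖U‖ + 1)) (by positivity)
  obtain ⟨c, hc⟩ := hpav U hU0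
  have hsum : ∑ k : Fin r, indicator {i | c i = k} = 1 := by
    refine lp.ext (funext fun i => ?_)
    rw [lp.coeFn_sum, Finset.sum_apply, Finset.sum_eq_single_of_mem (c i) (Finset.mem_univ _)]
    · simp [indicator_apply]
    · intro k _ hk
      simp [indicator_apply, Ne.symm hk]
  obtain ⟨k, hk⟩ : ∃ k, ψ (indicator {i | c i = k}) = 1 := by
    by_contra hcon
    push Not at hcon
    have := congrArg ψ hsum
    rw [map_sum, hψ.1.1, Finset.sum_eq_zero fun k _ =>
      (pure_indicator hψ _).resolve_right (hcon k)] at this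
    exact zero_ne_one this
  obtain ⟨Q, hQ⟩ : ∃ Q, Q = diagOp (indicator {i | c i = k}) := ⟨_, rfl⟩
  have hQs : star Q = Q := by rw [hQ, star_diagOp, star_indicator]
  have hQQ : Q * Q = Q := by rw [hQ, ← diagOp_mul, indicator_mul_self]
  have hQ1 : φ (star (1 - Q) * (1 - Q)) = 0 := by
    rw [star_sub, star_one, hQs, sub_mul, one_mul, mul_sub, mul_one, hQQ, sub_self, sub_zero,
      map_sub, hφ.1, hQ, hext, hk, sub_self]
  have hs : star (1 - Q) = 1 - Q := by rw [star_sub, star_one, hQs]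
  have h1 := (hφ.kernel hQ1 U).1
  have h2 := (hφ.kernel hQ1 (star (Q * U))).2
  rw [hs, sub_mul, one_mul, map_sub, sub_eq_zero] at h1
  rw [star_star, mul_sub, mul_one, map_sub, sub_eq_zero] at h2
  rw [h1, h2]
  refine (hφ.norm_le_norm _).trans ((hQ ▸ hc k : ‖Q * U * Q‖ ≤ _).trans ?_)
  rw [div_mul_eq_mul_div, div_le_iff₀ (by positivity)]
  nlinarith [norm_nonneg U]

/-- **The Kadison–Singer theorem.** -/
theorem existsUnique_extension {ψ : DiagAlg →ₗ[ℂ] ℂ} (hψ : IsPureState ψ) :
    ∃! φ : (HilbertSeq →L[ℂ] HilbertSeq) →ₗ[ℂ] ℂ, IsState φ ∧ ∀ f, φ (diagOp f) = ψ f :=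
  ⟨ψ.comp diagPart,
    ⟨isState_comp_diagPart hψ.1, fun f => by rw [LinearMap.comp_apply, diagPart_diagOp]⟩,
    fun _ h => extension_unique hψ h.1 h.2⟩

end FA.KadisonSinger
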