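import Fermat.Agent.KadisonSinger.RealRooted
import Mathlib.LinearAlgebra.Lagrange
import Mathlib.Analysis.Calculus.Deriv.Inv

/-!
# Rational functions mapping the upper half plane to the lower one

If `Im (a z conj (b z)) ≤ 0` in the upper half plane and `b > 0` on `[0, ∞)`, then
`a / b = α t + β + ∑ c / (t - r)` with `α ≤ 0`, `c ≥ 0`, `r < 0`. So `a / b` decreases and is
convex on `[0, ∞)`.
-/

set_option autoImplicit false

noncomputable section

namespace FA.KadisonSinger

open Polynomial Filter Set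
open scoped Topology ComplexConjugate

/-- The product form of mapping the upper half plane down. -/
def HerglotzPair (a b : ℝ[X]) : Prop :=
  ∀ z : ℂ, 0 ≤ z.im → (aeval z a * conj (aeval z b)).im ≤ 0

theorem conj_aeval (p : ℝ[X]) (z : ℂ) : conj (aeval z p) = aeval (conj z) p :=
  (Polynomial.aeval_algHom_apply Complex.conjAe.toAlgHom z p).symm

/-- Common factors cancel. -/
theorem HerglotzPair.of_mul {a b g : ℝ[X]} (h : HerglotzPair (g * a) (g * b)) (hg : g ≠ 0) :
    HerglotzPair a b := by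
  intro z hz
  obtain ⟨Z, hZ⟩ : ∃ Z : Finset ℂ, Z = (g.map (algebraMap ℝ ℂ)).roots.toFinset := ⟨_, rfl⟩
  have hmain : ∀ᶠ ε : ℝ in 𝓝[>] 0,
      (aeval (z + ε * Complex.I) a * conj (aeval (z + ε * Complex.I) b)).im ≤ 0 := by
    have hfin : (Set.range fun w : Z => (w : ℂ).im - z.im).Finite := Set.finite_range _
    have hne : ∀ᶠ ε : ℝ in 𝓝[>] 0, ε ∉ (Set.range fun w : Z => (w : ℂ).im - z.im) \ {0} := by
      refine Filter.Eventually.filter_mono nhdsWithin_le_nhds ?_
      exact hfin.sdiff.isClosed.isOpen_compl.mem_nhds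
        (show (0 : ℝ) ∈ ((Set.range fun w : Z => (w : ℂ).im - z.im) \ {0})ᶜ from fun h => h.2 rfl)
    filter_upwards [hne, self_mem_nhdsWithin] with ε hε hpos
    have hpos' : (0 : ℝ) < ε := hpos
    obtain ⟨w, hw⟩ : ∃ w : ℂ, w = z + ε * Complex.I := ⟨_, rfl⟩
    rw [← hw]
    have hgw : aeval w g ≠ 0 := by
      intro h0
      have hwZ : w ∈ Z := by
        rw [hZ, Multiset.mem_toFinset, mem_roots (Polynomial.map_ne_zero hg), IsRoot,
          eval_map_algebraMap]
        exact h0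
      exact hε ⟨⟨⟨w, hwZ⟩, by simp [hw]⟩, by simpa using hpos'.ne'⟩
    have := h w (by simp [hw]; linarith)
    rw [map_mul, map_mul, map_mul, show aeval w g * aeval w a *
        (conj (aeval w g) * conj (aeval w b)) =
      (Complex.normSq (aeval w g) : ℂ) * (aeval w a * conj (aeval w b)) by
        rw [← Complex.mul_conj]; ring, Complex.im_ofReal_mul] at this
    exact nonpos_of_mul_nonpos_right this (Complex.normSq_pos.2 hgw)
  refine le_of_tendsto ?_ hmain
  refine Tendsto.mono_left ?_ nhdsWithin_le_nhds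
  exact Continuous.tendsto' (by fun_prop) _ _ (by simp)

theorem im_le_zero_of_factor {A B : ℂ → ℂ} {r ζ : ℂ} {m : ℕ} (hA : Continuous A)
    (hB : Continuous B)
    (h : ∀ ρ : ℝ, 0 < ρ → ρ < 1 →
      (A (r + ρ * ζ) * conj (((ρ : ℂ) * ζ) ^ m * B (r + ρ * ζ))).im ≤ 0) :
    (A r * conj (B r) * conj ζ ^ m).im ≤ 0 := by
  have hev : ∀ᶠ ρ : ℝ in 𝓝[>] 0,
      (A (r + ρ * ζ) * conj (B (r + ρ * ζ)) * conj ζ ^ m).im ≤ 0 := by
    filter_upwards [self_mem_nhdsWithin,
      Filter.Eventually.filter_mono nhdsWithin_le_nhds (gt_mem_nhds (one_pos : (0 : ℝ) < 1))]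
      with ρ hρ hρ1
    have hρ' : (0 : ℝ) < ρ := hρ
    have := h ρ hρ' hρ1
    rw [map_mul, map_pow, map_mul, Complex.conj_ofReal, mul_pow, ← Complex.ofReal_pow,
      show A (r + ρ * ζ) * (((ρ ^ m : ℝ) : ℂ) * conj ζ ^ m * conj (B (r + ρ * ζ))) =
        ((ρ ^ m : ℝ) : ℂ) * (A (r + ρ * ζ) * conj (B (r + ρ * ζ)) * conj ζ ^ m) by ring,
      Complex.im_ofReal_mul] at this
    exact nonpos_of_mul_nonpos_right this (pow_pos hρ' m)
  refine le_of_tendsto ?_ hev
  refine Tendsto.mono_left ?_ nhdsWithin_le_nhds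
  exact Continuous.tendsto' (by fun_prop) _ _ (by simp)

theorem exp_im_pow (j m : ℕ) (hm : 0 < m) :
    conj (Complex.exp (((j : ℝ) * Real.pi / (2 * m) : ℝ) * Complex.I)) ^ m = (-Complex.I) ^ j := by
  rw [← Complex.exp_conj, ← Complex.exp_nat_mul,
    show (-Complex.I) = Complex.exp ((-Real.pi / 2 : ℝ) * Complex.I) by
      apply Complex.ext <;> simp [Complex.exp_re, Complex.exp_im, neg_div],
    ← Complex.exp_nat_mul]
  congr 1
  rw [map_mul, Complex.conj_ofReal, Complex.conj_I]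
  push_cast
  have : (m : ℂ) ≠ 0 := Nat.cast_ne_zero.2 hm.ne'
  field_simp

theorem sin_angle_pos {j m : ℕ} (hj : 0 < j) (hjm : j < 2 * m) :
    0 < (Complex.exp (((j : ℝ) * Real.pi / (2 * m) : ℝ) * Complex.I)).im := by
  rw [Complex.exp_ofReal_mul_I_im]
  have hm : (0 : ℝ) < 2 * m := by exact_mod_cast (show 0 < 2 * m by omega)
  refine Real.sin_pos_of_pos_of_lt_pi (by positivity) ?_
  rw [div_lt_iff₀ hm, mul_comm Real.pi]
  exact mul_lt_mul_of_pos_right (by exact_mod_cast hjm) Real.pi_pos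

/-- The zeros of `b` are real and simple, with residues of one sign. -/
theorem HerglotzPair.roots {a b : ℝ[X]} (h : HerglotzPair a b) (hb : b ≠ 0)
    (hcop : IsCoprime a b) :
    (∀ z : ℂ, aeval z b = 0 → z.im = 0) ∧
      ∀ r : ℝ, b.eval r = 0 →
        b.derivative.eval r ≠ 0 ∧ 0 ≤ a.eval r * b.derivative.eval r := by
  have hnz : ∀ z : ℂ, aeval z b = 0 → aeval z a ≠ 0 := fun z hz ha => by
    obtain ⟨u, v, huv⟩ := hcop
    have := congrArg (aeval z) huv
    simp [hz, ha] at this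
  have hupper : ∀ z : ℂ, 0 < z.im → aeval z b ≠ 0 := by
    intro z hz h0
    obtain ⟨B, hB⟩ : ∃ B, B = b.map (algebraMap ℝ ℂ) := ⟨_, rfl⟩
    have hB0 : B ≠ 0 := hB ▸ Polynomial.map_ne_zero hb
    obtain ⟨u, hu, hnd⟩ := exists_eq_pow_rootMultiplicity_mul_and_not_dvd B hB0 z
    have hm : 0 < B.rootMultiplicity z := (rootMultiplicity_pos hB0).2 (by
      rw [IsRoot, hB, eval_map_algebraMap]; exact h0)
    obtain ⟨m, hmdef⟩ : ∃ m, m = B.rootMultiplicity z := ⟨_, rfl⟩
    rw [← hmdef] at hu hm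
    have hw : aeval z a * conj (u.eval z) ≠ 0 :=
      mul_ne_zero (hnz z h0) fun e => hnd (dvd_iff_isRoot.2 (by simpa using e))
    obtain ⟨ζ, hζ⟩ :=
      IsAlgClosed.exists_pow_nat_eq (conj (Complex.I / (aeval z a * conj (u.eval z)))) hm
    -- a small disc around `z` lies in the upper half plane
    obtain ⟨δ, hδ⟩ : ∃ δ, δ = z.im / (2 * (‖ζ‖ + 1)) := ⟨_, rfl⟩
    have hδ0 : 0 < δ := hδ ▸ by positivity
    have key := im_le_zero_of_factor (A := fun w => aeval w a) (B := fun w => u.eval w)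
      (r := z) (ζ := (δ : ℂ) * ζ) (m := m) (by fun_prop) (by fun_prop) fun ρ hρ hρ1 => by
      have hinH : 0 ≤ (z + (ρ : ℂ) * ((δ : ℂ) * ζ)).im := by
        have h1 : |ζ.im| ≤ ‖ζ‖ := Complex.abs_im_le_norm ζ
        have h2 : ρ * δ * |ζ.im| ≤ δ * (‖ζ‖ + 1) := by
          have : ρ * δ ≤ δ := mul_le_of_le_one_left hδ0.le hρ1.le
          exact mul_le_mul this (by linarith) (abs_nonneg _) hδ0.le
        have h3 : δ * (‖ζ‖ + 1) = z.im / 2 := by rw [hδ]; field_simp
        simp only [Complex.add_im, Complex.im_ofReal_mul]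
        have h4 : -(ρ * δ * |ζ.im|) ≤ ρ * (δ * ζ.im) := by
          have := neg_abs_le ζ.im
          have hpd : 0 ≤ ρ * δ := by positivity
          nlinarith
        linarith
      have := h _ hinH
      rwa [show aeval (z + (ρ : ℂ) * ((δ : ℂ) * ζ)) b =
          ((ρ : ℂ) * ((δ : ℂ) * ζ)) ^ m * u.eval (z + (ρ : ℂ) * ((δ : ℂ) * ζ)) by
        rw [← eval_map_algebraMap, ← hB, hu]
        simp] at this
    rw [map_mul, mul_pow, Complex.conj_ofReal, ← map_pow, hζ, Complex.conj_conj,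
      mul_left_comm, mul_div_cancel₀ _ hw, ← Complex.ofReal_pow, Complex.im_ofReal_mul,
      Complex.I_im, mul_one] at key
    exact absurd key (not_le.2 (pow_pos hδ0 m))
  refine ⟨fun z hz => ?_, fun r hr => ?_⟩
  · rcases lt_trichotomy z.im 0 with hlt | he | hgt
    · refine absurd ?_ (hupper (conj z) (by simpa using hlt))
      rw [← conj_aeval, hz, map_zero]
    · exact he
    · exact absurd hz (hupper z hgt)
  obtain ⟨u, hu, hnd⟩ := exists_eq_pow_rootMultiplicity_mul_and_not_dvd b hb r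
  obtain ⟨m, hmdef⟩ : ∃ m, m = b.rootMultiplicity r := ⟨_, rfl⟩
  rw [← hmdef] at hu
  have hm : 0 < m := hmdef ▸ (rootMultiplicity_pos hb).2 hr
  have har : a.eval r ≠ 0 := fun e => hnz r (by rw [aeval_ofReal, hr, Complex.ofReal_zero])
    (by rw [aeval_ofReal, e, Complex.ofReal_zero])
  have hur : u.eval r ≠ 0 := fun e => hnd (dvd_iff_isRoot.2 e)
  have hkey : ∀ j : ℕ, 0 < j → j < 2 * m →
      (((a.eval r * u.eval r : ℝ) : ℂ) * (-Complex.I) ^ j).im ≤ 0 := by
    intro j hj hjm
    obtain ⟨ζ, hζ⟩ : ∃ ζ : ℂ,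
        ζ = Complex.exp (((j : ℝ) * Real.pi / (2 * m) : ℝ) * Complex.I) := ⟨_, rfl⟩
    have hζi : 0 < ζ.im := hζ ▸ sin_angle_pos hj hjm
    have key := im_le_zero_of_factor (A := fun w => aeval w a) (B := fun w => aeval w u)
      (r := (r : ℂ)) (ζ := ζ) (m := m) (by fun_prop) (by fun_prop) fun ρ hρ _ => by
      have := h ((r : ℂ) + ρ * ζ) (by simp; positivity)
      rwa [hu, map_mul, map_pow, map_sub, aeval_X, aeval_C, Complex.coe_algebraMap,
        add_sub_cancel_left] at this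
    rwa [aeval_ofReal, aeval_ofReal, Complex.conj_ofReal, ← Complex.ofReal_mul, hζ,
      exp_im_pow j m hm] at key
  have h1 := hkey 1 one_pos (by omega)
  simp at h1
  have hm1 : m = 1 := by
    by_contra hne
    have h3 := hkey 3 (by norm_num) (by omega)
    simp [pow_succ] at h3
    exact mul_ne_zero har hur (le_antisymm (by linarith) (by linarith))
  have hd : b.derivative.eval r = u.eval r := by
    rw [hu, hm1, pow_one]
    simp
  exact ⟨hd ▸ hur, hd ▸ (by linarith)⟩

/-- The decomposition. -/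
theorem HerglotzPair.decomp {a b : ℝ[X]} (h : HerglotzPair a b) (hb : b ≠ 0)
    (hcop : IsCoprime a b) :
    ∃ (α β : ℝ) (c : ℝ → ℝ), α ≤ 0 ∧ (∀ r ∈ b.roots.toFinset, 0 ≤ c r) ∧
      ∀ t : ℝ, b.eval t ≠ 0 →
        a.eval t / b.eval t = α * t + β + ∑ r ∈ b.roots.toFinset, c r / (t - r) := by
  obtain ⟨hreal, hres⟩ := h.roots hb hcop
  obtain ⟨s, hs⟩ : ∃ s, s = b.roots.toFinset := ⟨_, rfl⟩
  rw [← hs]
  have hmem : ∀ r, r ∈ s ↔ b.eval r = 0 := fun r => by
    rw [hs, Multiset.mem_toFinset, mem_roots hb, IsRoot]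
  have hsplit : b.Splits := by
    refine Polynomial.Splits.of_splits_map (algebraMap ℝ ℂ) (IsAlgClosed.splits _) fun z hz => ?_
    rw [mem_roots (Polynomial.map_ne_zero hb), IsRoot, eval_map_algebraMap] at hz
    exact ⟨z.re, Complex.ext (by simp) (by simp [hreal z hz])⟩
  have hnodup : b.roots.Nodup := by
    rw [Multiset.nodup_iff_count_le_one]
    intro r
    rw [count_roots]
    by_contra hc
    have h2 : 1 < b.rootMultiplicity r := by omega
    obtain ⟨e1, e2⟩ := (one_lt_rootMultiplicity_iff_isRoot hb).1 h2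
    exact (hres r e1).1 e2
  obtain ⟨lc, hlc⟩ : ∃ lc, lc = b.leadingCoeff := ⟨_, rfl⟩
  have hlc0 : lc ≠ 0 := hlc ▸ leadingCoeff_ne_zero.2 hb
  have hbprod : b = C lc * ∏ r ∈ s, (X - C r) := by
    rw [hs, Finset.prod_eq_multiset_prod, Multiset.toFinset_val, hnodup.dedup, hlc]
    exact hsplit.eq_prod_roots
  have hdeg : b.degree = s.card := by
    rw [hbprod, degree_C_mul hlc0, degree_prod]
    simp
  obtain ⟨q, rem, hqr, hrem⟩ : ∃ q rem, a = b * q + rem ∧ rem.degree < b.degree :=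
    ⟨a / b, a % b, (EuclideanDomain.div_add_mod a b).symm, degree_mod_lt a hb⟩
  obtain ⟨c, hc⟩ : ∃ c : ℝ → ℝ, c = fun r => a.eval r / b.derivative.eval r := ⟨_, rfl⟩
  have hc0 : ∀ r ∈ s, 0 ≤ c r := fun r hr => by
    obtain ⟨h1, h2⟩ := hres r ((hmem r).1 hr)
    have e : c r = a.eval r * b.derivative.eval r / b.derivative.eval r ^ 2 := by
      rw [hc]; field_simp
    rw [e]
    exact div_nonneg h2 (sq_nonneg _)
  have hremeq : rem = ∑ r ∈ s, C (c r * lc) * ∏ r' ∈ s.erase r, (X - C r') := by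
    refine eq_of_degrees_lt_of_eval_finset_eq s (hdeg ▸ hrem) ?_ fun r hr => ?_
    · refine lt_of_le_of_lt (degree_sum_le _ _) ((Finset.sup_lt_iff (WithBot.bot_lt_coe _)).2
        fun r hr => lt_of_le_of_lt (degree_mul_le _ _) (lt_of_le_of_lt
          (add_le_add degree_C_le le_rfl) ?_))
      rw [zero_add, degree_prod]
      simp [Finset.card_erase_of_mem hr, Nat.cast_lt, Finset.card_pos.2 ⟨r, hr⟩]
    · have hbr := (hmem r).1 hr
      have e1 : a.eval r = rem.eval r := by rw [hqr]; simp [hbr]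
      have e2 : b.derivative.eval r = lc * ∏ r' ∈ s.erase r, (r - r') := by
        rw [hbprod, ← Finset.mul_prod_erase s _ hr]
        simp [eval_prod]
      rw [eval_finsetSum, Finset.sum_eq_single_of_mem r hr]
      · rw [eval_mul, eval_C, eval_prod]
        simp only [eval_sub, eval_X, eval_C]
        rw [hc]
        simp only []
        rw [mul_assoc, ← e2, div_mul_cancel₀ _ (hres r hbr).1, e1]
      · intro r' _ hne
        rw [eval_mul, eval_prod,
          Finset.prod_eq_zero (Finset.mem_erase.2 ⟨Ne.symm hne, hr⟩) (by simp), mul_zero]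
  have hform : ∀ z : ℂ, aeval z b ≠ 0 → aeval z a / aeval z b =
      aeval z q + ∑ r ∈ s, (c r : ℂ) / (z - r) := by
    intro z hz
    have hne : ∀ r ∈ s, z - (r : ℂ) ≠ 0 := fun r hr e => hz (by
      rw [hbprod, map_mul, map_prod, Finset.prod_eq_zero hr (by simpa using e), mul_zero])
    rw [div_eq_iff hz, add_mul, Finset.sum_mul, hqr, map_add, map_mul, mul_comm (aeval z q)]
    congr 1
    rw [hremeq, map_sum]
    refine Finset.sum_congr rfl fun r hr => ?_
    simp only [hbprod, map_mul, map_prod, map_sub, aeval_X, aeval_C, Complex.coe_algebraMap]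
    rw [← Finset.mul_prod_erase s (fun r' : ℝ => z - (r' : ℂ)) hr]
    have := hne r hr
    field_simp
  obtain ⟨K, hK⟩ : ∃ K, K = ∑ r ∈ s, c r := ⟨_, rfl⟩
  have hbound : ∀ z : ℂ, 0 < z.im → (aeval z q).im ≤ K / z.im := by
    intro z hz
    have hb' : aeval z b ≠ 0 := fun e => hz.ne' (hreal z e)
    have h' := h z hz.le
    rw [show aeval z a = aeval z a / aeval z b * aeval z b by rw [div_mul_cancel₀ _ hb'],
      mul_assoc, Complex.mul_conj, mul_comm, Complex.im_ofReal_mul, hform z hb'] at h'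
    have h2 := nonpos_of_mul_nonpos_right h' (Complex.normSq_pos.2 hb')
    rw [Complex.add_im, Complex.im_sum] at h2
    have h3 : ∀ r ∈ s, -(c r / z.im) ≤ ((c r : ℂ) / (z - r)).im := by
      intro r hr
      rw [Complex.div_im]
      simp only [Complex.ofReal_im, Complex.ofReal_re, Complex.sub_im, Complex.sub_re, zero_mul,
        zero_div, zero_sub, sub_zero, neg_le_neg_iff]
      have hN : z.im * z.im ≤ Complex.normSq (z - r) := by
        simp [Complex.normSq_apply]
        nlinarith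
      rw [div_le_div_iff₀ (lt_of_lt_of_le (mul_pos hz hz) hN) hz]
      have := mul_le_mul_of_nonneg_left hN (hc0 r hr)
      linarith
    have h4 := Finset.sum_le_sum h3
    rw [Finset.sum_neg_distrib, ← Finset.sum_div, ← hK] at h4
    linarith
  obtain ⟨m, hm⟩ : ∃ m, m = q.natDegree := ⟨_, rfl⟩
  have hlead : ∀ ζ : ℂ, 0 < ζ.im → 0 < m → ((q.coeff m : ℂ) * ζ ^ m).im ≤ 0 := by
    intro ζ hζ hm0
    have hev : ∀ᶠ x : ℝ in 𝓝[>] 0,
        (∑ k ∈ Finset.range (m + 1), (q.coeff k : ℂ) * ζ ^ k * (x : ℂ) ^ (m - k)).im ≤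
          x ^ m * (x * (K / ζ.im)) := by
      filter_upwards [self_mem_nhdsWithin] with x hx
      have hx' : (0 : ℝ) < x := hx
      have hb2 := hbound ((x⁻¹ : ℝ) * ζ) (by rw [Complex.im_ofReal_mul]; positivity)
      rw [Complex.im_ofReal_mul,
        show K / (x⁻¹ * ζ.im) = x * (K / ζ.im) by field_simp] at hb2
      have e : (∑ k ∈ Finset.range (m + 1), (q.coeff k : ℂ) * ζ ^ k * (x : ℂ) ^ (m - k)) =
          ((x ^ m : ℝ) : ℂ) * aeval ((x⁻¹ : ℝ) * ζ) q := by
        rw [aeval_eq_sum_range, Finset.mul_sum, ← hm]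
        refine Finset.sum_congr rfl fun k hk => ?_
        rw [Finset.mem_range] at hk
        rw [Complex.real_smul, mul_pow]
        push_cast
        have hx0 : (x : ℂ) ≠ 0 := Complex.ofReal_ne_zero.2 hx'.ne'
        rw [inv_pow, show (x : ℂ) ^ m = x ^ (m - k) * x ^ k by
          rw [← pow_add, Nat.sub_add_cancel (by omega)]]
        field_simp
      rw [e, Complex.im_ofReal_mul]
      exact mul_le_mul_of_nonneg_left hb2 (by positivity)
    refine le_of_tendsto_of_tendsto ?_ ?_ hev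
    · refine Tendsto.mono_left ?_ nhdsWithin_le_nhds
      refine Continuous.tendsto' (by fun_prop) _ _ ?_
      congr 1
      rw [Finset.sum_eq_single_of_mem m (Finset.self_mem_range_succ m)]
      · simp
      · intro k hk hne
        rw [Finset.mem_range] at hk
        rw [Complex.ofReal_zero, zero_pow (by omega), mul_zero]
    · refine Tendsto.mono_left ?_ nhdsWithin_le_nhds
      exact Continuous.tendsto' (by fun_prop) _ _ (by simp)
  have hm1 : m ≤ 1 := by
    by_contra hc
    have hq0 : q ≠ 0 := fun e => by rw [e, natDegree_zero] at hm; omega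
    have hcoef : q.coeff m ≠ 0 := hm ▸ leadingCoeff_ne_zero.2 hq0
    have h1 := hlead _ (sin_angle_pos (j := 1) (m := m) one_pos (by omega)) (by omega)
    have h3 := hlead _ (sin_angle_pos (j := 3) (m := m) (by norm_num) (by omega)) (by omega)
    have hp : ∀ j : ℕ, Complex.exp (((j : ℝ) * Real.pi / (2 * m) : ℝ) * Complex.I) ^ m =
        Complex.I ^ j := fun j => by
      have := congrArg conj (exp_im_pow j m (by omega))
      simpa [Complex.conj_I] using this
    rw [hp] at h1 h3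
    simp [pow_succ] at h1 h3
    exact hcoef (le_antisymm (by linarith) (by linarith))
  have hα : q.coeff 1 ≤ 0 := by
    rcases Nat.eq_zero_or_pos m with h0 | h0
    · rw [coeff_eq_zero_of_natDegree_lt (by omega)]
    · have := hlead Complex.I (by simp) h0
      rw [show m = 1 by omega] at this
      simpa using this
  refine ⟨q.coeff 1, q.coeff 0, c, hα, hc0, fun t ht => ?_⟩
  have hz : aeval (t : ℂ) b ≠ 0 := by rw [aeval_ofReal]; exact Complex.ofReal_ne_zero.2 ht
  have h' := hform t hz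
  simp only [aeval_ofReal] at h'
  have h'' : ((a.eval t / b.eval t : ℝ) : ℂ) =
      ((q.eval t + ∑ r ∈ s, c r / (t - r) : ℝ) : ℂ) := by
    push_cast
    exact h'
  rw [Complex.ofReal_inj.1 h'']
  congr 1
  conv_lhs => rw [eq_X_add_C_of_natDegree_le_one (p := q) (hm ▸ hm1)]
  simp

/-- **Monotone and convex.** -/
theorem HerglotzPair.tangent {a b : ℝ[X]} (h : HerglotzPair a b)
    (hpos : ∀ t : ℝ, 0 ≤ t → 0 < b.eval t) {t : ℝ} (ht : 0 ≤ t) :
    a.derivative.eval t * b.eval t - a.eval t * b.derivative.eval t ≤ 0 ∧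
      a.eval t / b.eval t - a.eval 0 / b.eval 0 ≤
        t * ((a.derivative.eval t * b.eval t - a.eval t * b.derivative.eval t) / b.eval t ^ 2) := by
  classical
  have hb : b ≠ 0 := fun e => by simpa [e] using hpos 0 le_rfl
  obtain ⟨g, a₁, b₁, hcop, rfl, rfl⟩ : ∃ g a₁ b₁ : ℝ[X],
      IsCoprime a₁ b₁ ∧ g * a₁ = a ∧ g * b₁ = b := by
    have hg : GCDMonoid.gcd a b ≠ 0 := gcd_ne_zero_of_right hb
    exact ⟨_, _, _, isCoprime_div_gcd_div_gcd_of_gcd_ne_zero hg,
      EuclideanDomain.mul_div_cancel' hg (GCDMonoid.gcd_dvd_left a b),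
      EuclideanDomain.mul_div_cancel' hg (GCDMonoid.gcd_dvd_right a b)⟩
  have hg : g ≠ 0 := left_ne_zero_of_mul hb
  have hb₁ : b₁ ≠ 0 := right_ne_zero_of_mul hb
  obtain ⟨α, β, c, hα, hc, hform⟩ := (h.of_mul hg).decomp hb₁ hcop
  obtain ⟨s, hs⟩ : ∃ s, s = b₁.roots.toFinset := ⟨_, rfl⟩
  rw [← hs] at hc hform
  have hneg : ∀ r ∈ s, r < 0 := fun r hr => by
    rw [hs, Multiset.mem_toFinset, mem_roots hb₁, IsRoot] at hr
    by_contra hc'
    have := hpos r (not_lt.1 hc')
    rw [eval_mul, hr, mul_zero] at this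
    exact this.false
  have hval : ∀ x : ℝ, (g * b₁).eval x ≠ 0 →
      (g * a₁).eval x / (g * b₁).eval x = α * x + β + ∑ r ∈ s, c r / (x - r) := fun x hx => by
    rw [eval_mul] at hx
    rw [eval_mul, eval_mul, mul_div_mul_left _ _ (left_ne_zero_of_mul hx)]
    exact hform x (right_ne_zero_of_mul hx)
  have hd1 := ((g * a₁).hasDerivAt t).div ((g * b₁).hasDerivAt t) (hpos t ht).ne'
  have hd2 : HasDerivAt (fun x => (g * a₁).eval x / (g * b₁).eval x)
      (α - ∑ r ∈ s, c r / (t - r) ^ 2) t := by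
    have hsum : HasDerivAt (fun x => α * x + β + ∑ r ∈ s, c r / (x - r))
        (α * 1 + ∑ r ∈ s, c r * (-1 / (t - r) ^ 2)) t := by
      refine (((hasDerivAt_id t).const_mul α).add_const β).add (HasDerivAt.fun_sum fun r hr => ?_)
      have hne : t - r ≠ 0 := by linarith [hneg r hr]
      simp only [div_eq_mul_inv (c r)]
      exact (((hasDerivAt_id t).sub_const r).inv hne).const_mul (c r)
    refine (hsum.congr_of_eventuallyEq ?_).congr_deriv ?_
    · filter_upwards [((g * b₁).continuous.tendsto t).eventually (lt_mem_nhds (hpos t ht))]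
        with x hx
      exact hval x hx.ne'
    · rw [mul_one, sub_eq_add_neg, ← Finset.sum_neg_distrib]
      congr 1
      exact Finset.sum_congr rfl fun r _ => by ring
  have he := hd1.unique hd2
  have hsq : 0 < (g * b₁).eval t ^ 2 := pow_pos (hpos t ht) 2
  constructor
  · have hs0 : 0 ≤ ∑ r ∈ s, c r / (t - r) ^ 2 :=
      Finset.sum_nonneg fun r hr => div_nonneg (hc r hr) (sq_nonneg _)
    rw [div_eq_iff hsq.ne'] at he
    rw [he]
    exact mul_nonpos_of_nonpos_of_nonneg (by linarith) hsq.le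
  · rw [he, hval t (hpos t ht).ne', hval 0 (hpos 0 le_rfl).ne', mul_sub, Finset.mul_sum]
    have : ∑ r ∈ s, c r / (t - r) - ∑ r ∈ s, c r / (0 - r) ≤
        -∑ r ∈ s, t * (c r / (t - r) ^ 2) := by
      rw [← Finset.sum_sub_distrib, ← Finset.sum_neg_distrib]
      refine Finset.sum_le_sum fun r hr => ?_
      have hr0 := hneg r hr
      have hcr := hc r hr
      rw [le_neg, neg_sub]
      obtain ⟨u, hu⟩ : ∃ u, u = t - r := ⟨_, rfl⟩
      obtain ⟨v, hv⟩ : ∃ v, v = 0 - r := ⟨_, rfl⟩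
      rw [← hu, ← hv, show c r / v - c r / u = t * (c r / (u * v)) by
        rw [show t = u - v by rw [hu, hv]; ring]
        have : u ≠ 0 := by rw [hu]; linarith
        have : v ≠ 0 := by rw [hv]; linarith
        field_simp]
      refine mul_le_mul_of_nonneg_left (div_le_div_of_nonneg_left hcr
        (mul_pos (by linarith) (by linarith)) ?_) ht
      rw [sq]
      exact mul_le_mul_of_nonneg_left (by linarith) (by linarith)
    linarith

end FA.KadisonSinger
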