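import Mathlib.LinearAlgebra.Matrix.SchurComplement
import Mathlib.LinearAlgebra.Matrix.Hermitian
import Mathlib.LinearAlgebra.Matrix.Charpoly.Coeff
import Mathlib.Algebra.Polynomial.Bivariate
import Mathlib.Algebra.Polynomial.Taylor
import Mathlib.Analysis.Complex.Polynomial.Basic
import Mathlib.Tactic

/-!
# Mixed determinants

`mixedDet [A₁, …, Aₘ] M = ∏ (1 - ∂ᵢ) det (M + ∑ zᵢ Aᵢ)` at `z = 0`, over every commutative
`ℂ`-algebra. It commutes with homomorphisms, is affine in each matrix, equals
`det (M - ∑ Aᵢ)` for rank-one matrices, and at `x - N` is monic of degree the dimension.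
-/

set_option autoImplicit false

noncomputable section

namespace FA.KadisonSinger

open Polynomial Matrix
open scoped Polynomial.Bivariate

variable {n : Type} [Fintype n] [DecidableEq n]

/-- The constant matrix. -/
abbrev cst (R : Type) [CommRing R] [Algebra ℂ R] (A : Matrix n n ℂ) : Matrix n n R :=
  A.map (algebraMap ℂ R)

/-- The mixed determinant. -/
def mixedDet : List (Matrix n n ℂ) →
    (R : Type) → [CommRing R] → [Algebra ℂ R] → Matrix n n R → R
  | [], _, _, _, M => M.det
  | A :: l, R, _, _, M => mixedDet l R M -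
      (mixedDet l R[X] (M.map Polynomial.C + (Polynomial.X : R[X]) • cst R[X] A)).coeff 1

/-- The restriction to a line. -/
def linePoly (l : List (Matrix n n ℂ)) {R : Type} [CommRing R] [Algebra ℂ R] (M : Matrix n n R)
    (A : Matrix n n ℂ) : R[X] :=
  mixedDet l R[X] (M.map Polynomial.C + (Polynomial.X : R[X]) • cst R[X] A)

/-- The derivative in a direction. -/
def dirDeriv (l : List (Matrix n n ℂ)) {R : Type} [CommRing R] [Algebra ℂ R] (M : Matrix n n R)
    (A : Matrix n n ℂ) : R :=
  (linePoly l M A).coeff 1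

theorem mixedDet_nil {R : Type} [CommRing R] [Algebra ℂ R] (M : Matrix n n R) :
    mixedDet [] R M = M.det := rfl

theorem mixedDet_cons (A : Matrix n n ℂ) (l : List (Matrix n n ℂ)) {R : Type} [CommRing R]
    [Algebra ℂ R] (M : Matrix n n R) :
    mixedDet (A :: l) R M = mixedDet l R M - dirDeriv l M A := rfl

omit [Fintype n] [DecidableEq n] in
theorem cst_map {R S : Type} [CommRing R] [Algebra ℂ R] [CommRing S] [Algebra ℂ S]
    (φ : R →+* S) (σ : ℂ →+* ℂ) (h : ∀ c, φ (algebraMap ℂ R c) = algebraMap ℂ S (σ c))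
    (A : Matrix n n ℂ) : (cst R A).map φ = cst S (A.map σ) := by
  refine Matrix.ext fun i j => ?_
  simp [cst, h]

omit [Fintype n] [DecidableEq n] in
theorem cst_polynomial (R : Type) [CommRing R] [Algebra ℂ R] (A : Matrix n n ℂ) :
    cst R[X] A = (cst R A).map Polynomial.C := by
  refine Matrix.ext fun i j => ?_
  simp [cst, Polynomial.algebraMap_apply]

omit [Fintype n] [DecidableEq n] in
theorem map_add_smul {R S : Type} [CommRing R] [CommRing S] (φ : R →+* S) (M : Matrix n n R)
    (c : R) (A : Matrix n n R) : (M + c • A).map φ = M.map φ + φ c • A.map φ := by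
  refine Matrix.ext fun i j => ?_
  simp

/-- **Naturality.** -/
theorem map_mixedDet (σ : ℂ →+* ℂ) (l : List (Matrix n n ℂ)) :
    ∀ {R S : Type} [CommRing R] [Algebra ℂ R] [CommRing S] [Algebra ℂ S] (φ : R →+* S),
      (∀ c, φ (algebraMap ℂ R c) = algebraMap ℂ S (σ c)) → ∀ M : Matrix n n R,
        φ (mixedDet l R M) = mixedDet (l.map fun A => A.map σ) S (M.map φ) := by
  induction l with
  | nil =>
    intro R S _ _ _ _ φ _ M
    rw [List.map_nil, mixedDet_nil, mixedDet_nil, RingHom.map_det]
    rfl
  | cons A l ih =>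
    intro R S _ _ _ _ φ hφ M
    have hφ' : ∀ c, Polynomial.mapRingHom φ (algebraMap ℂ R[X] c) =
        algebraMap ℂ S[X] (σ c) := fun c => by
      simp [Polynomial.algebraMap_apply, hφ]
    rw [List.map_cons, mixedDet_cons, mixedDet_cons, map_sub, ih φ hφ M]
    congr 1
    rw [dirDeriv, dirDeriv, linePoly, linePoly,
      ← Polynomial.coeff_map φ (n := 1), ← Polynomial.coe_mapRingHom, ih _ hφ',
      map_add_smul, cst_map _ σ hφ']
    congr 3
    · refine Matrix.ext fun i j => ?_
      simp
    · simp

theorem map_mixedDet_id {R S : Type} [CommRing R] [Algebra ℂ R] [CommRing S] [Algebra ℂ S]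
    (φ : R →+* S) (h : ∀ c, φ (algebraMap ℂ R c) = algebraMap ℂ S c)
    (l : List (Matrix n n ℂ)) (M : Matrix n n R) :
    φ (mixedDet l R M) = mixedDet l S (M.map φ) := by
  rw [map_mixedDet (RingHom.id ℂ) l φ h M]
  simp

variable {R : Type} [CommRing R] [Algebra ℂ R]

theorem eval_linePoly (l : List (Matrix n n ℂ)) (M : Matrix n n R) (A : Matrix n n ℂ) (t : R) :
    (linePoly l M A).eval t = mixedDet l R (M + t • cst R A) := by
  rw [linePoly, ← coe_evalRingHom, map_mixedDet_id _ (fun c => by
    simp [Polynomial.algebraMap_apply]), map_add_smul, cst_polynomial]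
  congr 2
  · exact Matrix.ext fun i j => by simp
  · exact Matrix.ext fun i j => by simp

theorem coeff_zero_linePoly (l : List (Matrix n n ℂ)) (M : Matrix n n R) (A : Matrix n n ℂ) :
    (linePoly l M A).coeff 0 = mixedDet l R M := by
  rw [coeff_zero_eq_eval_zero, eval_linePoly, zero_smul, add_zero]

theorem derivative_eval_linePoly (l : List (Matrix n n ℂ)) (M : Matrix n n R)
    (A : Matrix n n ℂ) (t : R) :
    (linePoly l M A).derivative.eval t = dirDeriv l (M + t • cst R A) A := by
  rw [← taylor_coeff_one, taylor_apply, dirDeriv, linePoly, linePoly, ← coe_compRingHom_apply,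
    map_mixedDet_id _ (fun c => by simp [Polynomial.algebraMap_apply]), map_add_smul,
    cst_polynomial]
  congr 2
  refine Matrix.ext fun i j => ?_
  simp
  ring

/-- The restriction to a plane. -/
def planePoly (l : List (Matrix n n ℂ)) (M : Matrix n n R) (A B : Matrix n n ℂ) : R[X][Y] :=
  linePoly l (M.map Polynomial.C + (Polynomial.X : R[X]) • cst R[X] A) B

omit [Algebra ℂ R] in
theorem coeff_coeff_swap (p : R[X][Y]) (i j : ℕ) :
    ((Bivariate.swap p).coeff i).coeff j = (p.coeff j).coeff i := by
  induction p using Polynomial.induction_on' with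
  | add p q hp hq => simp [hp, hq]
  | monomial a f =>
    induction f using Polynomial.induction_on' with
    | add f g hf hg => simp only [map_add, coeff_add, hf, hg]
    | monomial b r =>
      rw [Bivariate.swap_monomial_monomial]
      by_cases h1 : b = i <;> by_cases h2 : a = j <;> simp [coeff_monomial, h1, h2]

theorem swap_algebraMap (c : ℂ) :
    Bivariate.swap (R := R) (algebraMap ℂ R[X][Y] c) = algebraMap ℂ R[X][Y] c := by
  rw [IsScalarTower.algebraMap_apply ℂ R R[X][Y], AlgEquiv.commutes]

theorem swap_planePoly (l : List (Matrix n n ℂ)) (M : Matrix n n R) (A B : Matrix n n ℂ) :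
    Bivariate.swap (planePoly l M A B) = planePoly l M B A := by
  have h := map_mixedDet_id ((Bivariate.swap (R := R)).toAlgHom.toRingHom) swap_algebraMap l
    ((M.map Polynomial.C + (Polynomial.X : R[X]) • cst R[X] A).map Polynomial.C +
      (Polynomial.X : R[X][Y]) • cst R[X][Y] B)
  refine Eq.trans h ?_
  rw [planePoly, linePoly]
  congr 1
  refine Matrix.ext fun i j => ?_
  simp [cst, Polynomial.algebraMap_apply, Bivariate.swap_X, Bivariate.swap_Y,
    Bivariate.swap_C_C]
  ring

/-- The second derivative in two directions. -/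
def dirDeriv₂ (l : List (Matrix n n ℂ)) (M : Matrix n n R) (A B : Matrix n n ℂ) : R :=
  ((planePoly l M A B).coeff 1).coeff 1

theorem dirDeriv₂_comm (l : List (Matrix n n ℂ)) (M : Matrix n n R) (A B : Matrix n n ℂ) :
    dirDeriv₂ l M A B = dirDeriv₂ l M B A := by
  rw [dirDeriv₂, dirDeriv₂, ← swap_planePoly l M B A, coeff_coeff_swap]

theorem dirDeriv_cons (A B : Matrix n n ℂ) (l : List (Matrix n n ℂ)) (M : Matrix n n R) :
    dirDeriv (B :: l) M A = dirDeriv l M A - dirDeriv₂ l M A B := by
  rw [dirDeriv, linePoly, mixedDet_cons, coeff_sub]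
  rfl

theorem derivative_dirDeriv_line (l : List (Matrix n n ℂ)) (M : Matrix n n R)
    (A B : Matrix n n ℂ) (t : R) :
    (dirDeriv l (M.map Polynomial.C + (Polynomial.X : R[X]) • cst R[X] B) A).derivative.eval t =
      dirDeriv₂ l (M + t • cst R B) B A := by
  rw [← taylor_coeff_one, taylor_apply, dirDeriv₂]
  have key : (planePoly l M B A).map (compRingHom (Polynomial.X + Polynomial.C t)) =
      planePoly l (M + t • cst R B) B A := by
    rw [planePoly, planePoly, linePoly, linePoly, ← Polynomial.coe_mapRingHom,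
      map_mixedDet_id _ (fun c => by simp [Polynomial.algebraMap_apply])]
    congr 1
    refine Matrix.ext fun i j => ?_
    simp [cst, Polynomial.algebraMap_apply]
    ring
  rw [← key, Polynomial.coeff_map]
  rfl

theorem eval_dirDeriv_line (l : List (Matrix n n ℂ)) (M : Matrix n n R)
    (A B : Matrix n n ℂ) (t : R) :
    (dirDeriv l (M.map Polynomial.C + (Polynomial.X : R[X]) • cst R[X] B) A).eval t =
      dirDeriv l (M + t • cst R B) A := by
  rw [dirDeriv, dirDeriv, ← coe_evalRingHom, ← Polynomial.coeff_map, ← Polynomial.coe_mapRingHom,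
    linePoly, linePoly, map_mixedDet_id _ (fun c => by simp [Polynomial.algebraMap_apply])]
  congr 2
  refine Matrix.ext fun i j => ?_
  simp [cst, Polynomial.algebraMap_apply]
  ring

omit [Algebra ℂ R] in
theorem coeff_one_eval_X (q : R[X][Y]) :
    (q.eval Polynomial.X).coeff 1 = (q.coeff 0).coeff 1 + (q.coeff 1).coeff 0 := by
  induction q using Polynomial.induction_on' with
  | add p q hp hq => simp only [eval_add, coeff_add, hp, hq]; ring
  | monomial a f =>
    rw [eval_monomial, coeff_monomial, coeff_monomial]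
    rcases a with _ | _ | a
    · simp
    · simp [coeff_mul_X]
    · rw [pow_succ, pow_succ, ← mul_assoc, ← mul_assoc, coeff_mul_X]
      simp [mul_coeff_zero]

theorem dirDeriv_add (l : List (Matrix n n ℂ)) (M : Matrix n n R) (A B : Matrix n n ℂ) :
    dirDeriv l M (A + B) = dirDeriv l M A + dirDeriv l M B := by
  have e1 : (planePoly l M A B).eval Polynomial.X = linePoly l M (A + B) := by
    rw [planePoly, eval_linePoly, linePoly]
    congr 1
    refine Matrix.ext fun i j => ?_
    simp [cst]
    ring
  have e2 : (planePoly l M A B).coeff 0 = linePoly l M A := by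
    rw [planePoly, coeff_zero_linePoly]
    rfl
  have e3 : (planePoly l M A B).map (evalRingHom 0) = linePoly l M B := by
    rw [planePoly, linePoly, linePoly, ← Polynomial.coe_mapRingHom,
      map_mixedDet_id _ (fun c => by simp [Polynomial.algebraMap_apply])]
    congr 1
    refine Matrix.ext fun i j => ?_
    simp [cst, Polynomial.algebraMap_apply]
  rw [dirDeriv, ← e1, coeff_one_eval_X, e2, dirDeriv, dirDeriv, ← e3, Polynomial.coeff_map,
    coe_evalRingHom, coeff_zero_eq_eval_zero]

theorem dirDeriv_smul (l : List (Matrix n n ℂ)) (M : Matrix n n R) (c : ℂ) (A : Matrix n n ℂ) :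
    dirDeriv l M (c • A) = c • dirDeriv l M A := by
  have e : (linePoly l M A).comp (Polynomial.C (algebraMap ℂ R c) * Polynomial.X) =
      linePoly l M (c • A) := by
    rw [linePoly, linePoly, ← coe_compRingHom_apply,
      map_mixedDet_id _ (fun x => by simp [Polynomial.algebraMap_apply])]
    congr 1
    refine Matrix.ext fun i j => ?_
    simp [cst, Polynomial.algebraMap_apply, map_mul]
    ring
  rw [dirDeriv, ← e, comp_C_mul_X_coeff, pow_one, dirDeriv, Algebra.smul_def, mul_comm]

/-- The derivative as a linear map. -/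
def dirDerivₗ (l : List (Matrix n n ℂ)) (M : Matrix n n R) : Matrix n n ℂ →ₗ[ℂ] R where
  toFun := dirDeriv l M
  map_add' := dirDeriv_add l M
  map_smul' := dirDeriv_smul l M

theorem dirDeriv_sum {κ : Type} (s : Finset κ) (l : List (Matrix n n ℂ)) (M : Matrix n n R)
    (p : κ → ℂ) (A : κ → Matrix n n ℂ) :
    dirDeriv l M (∑ k ∈ s, p k • A k) = ∑ k ∈ s, p k • dirDeriv l M (A k) := by
  change dirDerivₗ l M (∑ k ∈ s, p k • A k) = _
  rw [map_sum]
  exact Finset.sum_congr rfl fun k _ => map_smul (dirDerivₗ l M) (p k) (A k)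

/-- **Affinity in each matrix.** -/
theorem mixedDet_affine {κ : Type} (s : Finset κ) (p : κ → ℂ) (hp : ∑ k ∈ s, p k = 1)
    (A : κ → Matrix n n ℂ) (pre post : List (Matrix n n ℂ)) :
    ∀ {R : Type} [CommRing R] [Algebra ℂ R] (M : Matrix n n R),
      mixedDet (pre ++ (∑ k ∈ s, p k • A k) :: post) R M =
        ∑ k ∈ s, p k • mixedDet (pre ++ A k :: post) R M := by
  induction pre with
  | nil =>
    intro R _ _ M
    simp only [List.nil_append, mixedDet_cons, dirDeriv_sum, smul_sub, Finset.sum_sub_distrib,
      ← Finset.sum_smul, hp, one_smul]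
  | cons B pre ih =>
    intro R _ _ M
    simp only [List.cons_append, mixedDet_cons, dirDeriv, linePoly, ih, finsetSum_coeff,
      coeff_smul, smul_sub, Finset.sum_sub_distrib]

section RankOne

omit [Algebra ℂ R]

/-- The derivative of the determinant along a rank-one matrix. -/
def rankOneSlope (M : Matrix n n R) (u w : n → R) : R :=
  (Matrix.fromBlocks M (Matrix.replicateCol Unit (-u)) (Matrix.replicateRow Unit w) 0).det

theorem det_add_smul_vecMulVec (M : Matrix n n R) (c : R) (u w : n → R) :
    (M + c • vecMulVec u w).det = M.det + c * rankOneSlope M u w := by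
  have h := det_fromBlocks_one₂₂ M (Matrix.replicateCol Unit (-u))
    (Matrix.replicateRow Unit (c • w))
  have e : M - Matrix.replicateCol Unit (-u) * Matrix.replicateRow Unit (c • w) =
      M + c • vecMulVec u w := by
    refine Matrix.ext fun i j => ?_
    simp [Matrix.mul_apply, vecMulVec_apply]
  rw [e] at h
  rw [← h]
  obtain ⟨Z, hZ⟩ : ∃ Z : Matrix (n ⊕ Unit) (n ⊕ Unit) R, Z = Matrix.fromBlocks M
      (Matrix.replicateCol Unit (-u)) 0 0 := ⟨_, rfl⟩
  have f1 : Matrix.fromBlocks M (Matrix.replicateCol Unit (-u))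
      (Matrix.replicateRow Unit (c • w)) 1 =
      Z.updateRow (Sum.inr ()) (c • (Sum.elim w (0 : Unit → R) : n ⊕ Unit → R) +
        Sum.elim (0 : n → R) (1 : Unit → R)) := by
    subst hZ
    ext (i | i) (j | j) <;> simp [Matrix.updateRow_apply]
  have f2 : Z.updateRow (Sum.inr ()) (Sum.elim w (0 : Unit → R)) = Matrix.fromBlocks M
      (Matrix.replicateCol Unit (-u)) (Matrix.replicateRow Unit w) 0 := by
    subst hZ
    ext (i | i) (j | j) <;> simp [Matrix.updateRow_apply]
  have f3 : Z.updateRow (Sum.inr ()) (Sum.elim (0 : n → R) (1 : Unit → R)) = Matrix.fromBlocks M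
      (Matrix.replicateCol Unit (-u)) 0 1 := by
    subst hZ
    ext (i | i) (j | j) <;> simp [Matrix.updateRow_apply]
  rw [f1, det_updateRow_add, det_updateRow_smul, f2, f3, det_fromBlocks_zero₂₁, det_one,
    mul_one, rankOneSlope, add_comm]

theorem map_rankOneSlope {S : Type} [CommRing S] (φ : R →+* S) (M : Matrix n n R) (u w : n → R) :
    φ (rankOneSlope M u w) = rankOneSlope (M.map φ) (φ ∘ u) (φ ∘ w) := by
  rw [rankOneSlope, rankOneSlope, RingHom.map_det, RingHom.mapMatrix_apply]
  congr 1
  ext (i | i) (j | j) <;> simp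

end RankOne

/-- **Rank-one matrices.** -/
theorem mixedDet_rankOne (vs : List (n → ℂ)) :
    ∀ {R : Type} [CommRing R] [Algebra ℂ R] (M : Matrix n n R),
      mixedDet (vs.map fun v => vecMulVec v (star v)) R M =
        (M - cst R (vs.map fun v => vecMulVec v (star v)).sum).det := by
  induction vs with
  | nil =>
    intro R _ _ M
    rw [List.map_nil, mixedDet_nil, List.sum_nil]
    simp [cst]
  | cons v vs ih =>
    intro R _ _ M
    obtain ⟨N, hN⟩ : ∃ N, N = (vs.map fun v => vecMulVec v (star v)).sum := ⟨_, rfl⟩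
    obtain ⟨u, hu⟩ : ∃ u : n → R, u = algebraMap ℂ R ∘ v := ⟨_, rfl⟩
    obtain ⟨w, hw⟩ : ∃ w : n → R, w = algebraMap ℂ R ∘ star v := ⟨_, rfl⟩
    have hA : cst R (vecMulVec v (star v)) = vecMulVec u w := by
      refine Matrix.ext fun i j => ?_
      simp [cst, hu, hw, vecMulVec_apply, map_mul]
    have hcoeff : dirDeriv (vs.map fun v => vecMulVec v (star v)) M (vecMulVec v (star v)) =
        rankOneSlope (M - cst R N) u w := by
      rw [dirDeriv, linePoly, ih, ← hN]
      have e : M.map Polynomial.C + (Polynomial.X : R[X]) • cst R[X] (vecMulVec v (star v)) -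
          cst R[X] N = (M - cst R N).map Polynomial.C +
            (Polynomial.X : R[X]) • vecMulVec (Polynomial.C ∘ u) (Polynomial.C ∘ w) := by
        refine Matrix.ext fun i j => ?_
        simp [cst, hu, hw, vecMulVec_apply, Polynomial.algebraMap_apply, map_mul]
        ring
      have hd := RingHom.map_det (Polynomial.C : R →+* R[X]) (M - cst R N)
      rw [RingHom.mapMatrix_apply] at hd
      rw [e, det_add_smul_vecMulVec, ← hd, ← map_rankOneSlope, mul_comm]
      simp
    rw [List.map_cons, mixedDet_cons, hcoeff, ih, ← hN, List.sum_cons, ← hN]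
    have e : M - cst R (vecMulVec v (star v) + N) =
        (M - cst R N) + (-1 : R) • vecMulVec u w := by
      rw [← hA]
      refine Matrix.ext fun i j => ?_
      simp [cst]
      ring
    rw [e, det_add_smul_vecMulVec]
    ring

/-- **Monic of degree the dimension.** -/
theorem mixedDet_scalar (l : List (Matrix n n ℂ)) :
    ∀ {R : Type} [CommRing R] [Algebra ℂ R] [Nontrivial R] (N : Matrix n n R),
      (mixedDet l R[X] ((Polynomial.X : R[X]) • 1 + N.map Polynomial.C)).natDegree ≤
          Fintype.card n ∧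
        (mixedDet l R[X] ((Polynomial.X : R[X]) • 1 + N.map Polynomial.C)).coeff
          (Fintype.card n) = 1 := by
  induction l with
  | nil =>
    intro R _ _ _ N
    have e : (Polynomial.X : R[X]) • (1 : Matrix n n R[X]) + N.map Polynomial.C =
        charmatrix (-N) := by
      refine Matrix.ext fun i j => ?_
      rcases eq_or_ne i j with rfl | h
      · simp
      · simp [h]
    rw [mixedDet_nil, e]
    refine ⟨(charpoly_natDegree_eq_dim (-N)).le, ?_⟩
    rw [← charpoly_natDegree_eq_dim (-N)]
    exact charpoly_monic (-N)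
  | cons A l ih =>
    intro R _ _ _ N
    obtain ⟨g, hg⟩ : ∃ g : R[X][Y],
        g = linePoly l ((Polynomial.X : R[X]) • 1 + N.map Polynomial.C) A := ⟨_, rfl⟩
    have hswap : Bivariate.swap g = mixedDet l R[X][Y] ((Polynomial.X : R[X][Y]) • 1 +
        (N.map Polynomial.C + (Polynomial.X : R[X]) • cst R[X] A).map Polynomial.C) := by
      have h := map_mixedDet_id ((Bivariate.swap (R := R)).toAlgHom.toRingHom) swap_algebraMap l
        (((Polynomial.X : R[X]) • (1 : Matrix n n R[X]) + N.map Polynomial.C).map Polynomial.C +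
          (Polynomial.X : R[X][Y]) • cst R[X][Y] A)
      rw [hg]
      refine Eq.trans h ?_
      congr 1
      refine Matrix.ext fun i j => ?_
      rcases eq_or_ne i j with rfl | hij
      · simp [cst, Polynomial.algebraMap_apply, Bivariate.swap_X, Bivariate.swap_Y,
          Bivariate.swap_C_C]
        ring
      · simp [cst, hij, Polynomial.algebraMap_apply, Bivariate.swap_Y, Bivariate.swap_C_C]
    obtain ⟨h1, h2⟩ := ih (R := R[X]) (N.map Polynomial.C + (Polynomial.X : R[X]) • cst R[X] A)
    rw [← hswap] at h1 h2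
    have hzero : ∀ k, Fintype.card n ≤ k → (g.coeff 1).coeff k = 0 := by
      intro k hk
      rw [← coeff_coeff_swap g k 1]
      rcases hk.lt_or_eq with hlt | rfl
      · rw [coeff_eq_zero_of_natDegree_lt (h1.trans_lt hlt), coeff_zero]
      · rw [h2, coeff_one]
        simp
    obtain ⟨i1, i2⟩ := ih (R := R) N
    rw [mixedDet_cons, dirDeriv, ← hg]
    refine ⟨natDegree_le_iff_coeff_eq_zero.2 fun k hk => ?_, ?_⟩
    · rw [coeff_sub, hzero k hk.le, coeff_eq_zero_of_natDegree_lt (i1.trans_lt hk), sub_zero]
    · rw [coeff_sub, hzero _ le_rfl, i2, sub_zero]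

theorem mixedDet_transpose (l : List (Matrix n n ℂ)) :
    ∀ {R : Type} [CommRing R] [Algebra ℂ R] (M : Matrix n n R),
      mixedDet (l.map Matrix.transpose) R M.transpose = mixedDet l R M := by
  induction l with
  | nil => intro R _ _ M; simp [mixedDet_nil]
  | cons A l ih =>
    intro R _ _ M
    rw [List.map_cons, mixedDet_cons, mixedDet_cons, ih, dirDeriv, dirDeriv, linePoly, linePoly]
    congr 2
    rw [← ih (M.map Polynomial.C + (Polynomial.X : R[X]) • cst R[X] A)]
    rfl

/-- **Hermitian data give real values.** -/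
theorem star_mixedDet {S : Type} [CommRing S] [Algebra ℂ S] (φ : S →+* S)
    (hφ : ∀ c, φ (algebraMap ℂ S c) = algebraMap ℂ S (star c)) {l : List (Matrix n n ℂ)}
    (hl : ∀ A ∈ l, Matrix.IsHermitian A) {M : Matrix n n S} (hM : M.map φ = M.transpose) :
    φ (mixedDet l S M) = mixedDet l S M := by
  rw [map_mixedDet (starRingEnd ℂ) l φ hφ M, hM]
  have e : (l.map fun A => A.map (starRingEnd ℂ)) = l.map Matrix.transpose := by
    refine List.map_congr_left fun A hA => ?_
    conv_rhs => rw [← (hl A hA).eq]
    refine Matrix.ext fun i j => ?_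
    simp
  rw [e, mixedDet_transpose]

end FA.KadisonSinger
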