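import Mathlib.Analysis.Complex.Polynomial.Basic
import Mathlib.Analysis.Polynomial.Basic
import Mathlib.Analysis.Calculus.Deriv.Polynomial
import Mathlib.Analysis.Calculus.LocalExtr.Basic
import Mathlib.Analysis.SpecialFunctions.Trigonometric.Basic
import Mathlib.Tactic

/-!
# Common interlacing

If every convex combination of monic real polynomials of one degree has only real roots and a
combination has no root above `R`, then one of the polynomials has none. A double root where the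
combinations move transversally would create a pair of complex roots.
-/

set_option autoImplicit false

noncomputable section

namespace FA.KadisonSinger

open Polynomial Filter Set
open scoped Topology

/-- No nonreal roots. -/
def RealRooted (p : ℝ[X]) : Prop := ∀ z : ℂ, z.im ≠ 0 → aeval z p ≠ 0

/-- No roots above `R`. -/
def RootsLE (p : ℝ[X]) (R : ℝ) : Prop := ∀ x, R < x → p.eval x ≠ 0

theorem aeval_ofReal (p : ℝ[X]) (x : ℝ) : aeval (x : ℂ) p = ((p.eval x : ℝ) : ℂ) :=
  Polynomial.aeval_algebraMap_apply_eq_algebraMap_eval x p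

theorem RealRooted.ne_zero {p : ℝ[X]} (h : RealRooted p) : p ≠ 0 := fun e =>
  h Complex.I (by simp) (by simp [e])

theorem RealRooted.C_mul {p : ℝ[X]} (h : RealRooted p) {c : ℝ} (hc : c ≠ 0) :
    RealRooted (C c * p) := fun z hz => by
  rw [map_mul, aeval_C]
  exact mul_ne_zero (by simpa using hc) (h z hz)

theorem RealRooted.abs_eval_re_le {p : ℝ[X]} (h : RealRooted p) (z : ℂ) :
    |p.eval z.re| ≤ ‖aeval z p‖ := by
  obtain ⟨q, hq⟩ : ∃ q, q = p.map (algebraMap ℝ ℂ) := ⟨_, rfl⟩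
  have hq0 : q ≠ 0 := hq ▸ (Polynomial.map_ne_zero h.ne_zero)
  have hev : ∀ w : ℂ, aeval w p = q.leadingCoeff * (q.roots.map (w - ·)).prod := fun w => by
    rw [← (IsAlgClosed.splits q).eval_eq_prod_roots, hq, eval_map_algebraMap]
  rw [← Real.norm_eq_abs, ← Complex.norm_real, ← aeval_ofReal, hev, hev, norm_mul, norm_mul]
  refine mul_le_mul_of_nonneg_left ?_ (norm_nonneg _)
  have hn : ∀ m : Multiset ℂ, ‖m.prod‖ = (m.map norm).prod := fun m =>
    map_multiset_prod (normHom (α := ℂ)) m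
  rw [hn, hn, Multiset.map_map, Multiset.map_map]
  refine Multiset.prod_map_le_prod_map₀ _ _ (fun r _ => norm_nonneg _) fun r hr => ?_
  have him : r.im = 0 := by
    by_contra hr'
    refine h r hr' ?_
    rw [mem_roots hq0, IsRoot, hq, eval_map_algebraMap] at hr
    exact hr
  simp only [Function.comp_apply]
  rw [show ((z.re : ℂ) - r) = ((z.re - r.re : ℝ) : ℂ) from Complex.ext (by simp) (by simp [him]),
    Complex.norm_real, Real.norm_eq_abs]
  simpa using Complex.abs_re_le_norm (z - r)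

/-- **No transversal double root.** -/
theorem false_of_perturbation {p d u : ℝ[X]} {b : ℝ} {k : ℕ} (hk : 2 ≤ k)
    (hp : p = (X - C b) ^ k * u) (hpos : 0 < u.eval b * d.eval b) {σ : ℝ} (hσ : 0 < σ)
    (hrr : ∀ s, 0 < s → s < σ → RealRooted (p + C s * d)) : False := by
  have hd : d.eval b ≠ 0 := fun h => by rw [h, mul_zero] at hpos; exact hpos.false
  have hu : u.eval b ≠ 0 := fun h => by rw [h, zero_mul] at hpos; exact hpos.false
  obtain ⟨e, he⟩ : ∃ e, e = u.eval b / d.eval b := ⟨_, rfl⟩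
  have he0 : 0 < e := by
    have h : e = u.eval b * d.eval b / d.eval b ^ 2 := by rw [he]; field_simp
    rw [h]; positivity
  obtain ⟨θ, hθ⟩ : ∃ θ, θ = Real.pi / k := ⟨_, rfl⟩
  have hk2 : (2 : ℝ) ≤ k := by exact_mod_cast hk
  have hθ0 : 0 < θ := hθ ▸ by positivity
  have hθ2 : θ ≤ Real.pi / 2 :=
    hθ ▸ div_le_div_of_nonneg_left Real.pi_pos.le two_pos hk2
  have hsin : 0 < Real.sin θ := Real.sin_pos_of_pos_of_lt_pi hθ0 (by linarith [Real.pi_pos])
  have hcos : 0 ≤ Real.cos θ := Real.cos_nonneg_of_mem_Icc ⟨by linarith [Real.pi_pos], hθ2⟩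
  obtain ⟨ζ, hζ⟩ : ∃ ζ : ℂ, ζ = Complex.exp (θ * Complex.I) := ⟨_, rfl⟩
  have hζk : ζ ^ k = -1 := by
    rw [hζ, ← Complex.exp_nat_mul, hθ]
    push_cast
    rw [show (k : ℂ) * ((Real.pi : ℂ) / k * Complex.I) = (Real.pi : ℂ) * Complex.I by
      have : (k : ℂ) ≠ 0 := Nat.cast_ne_zero.2 (by omega)
      field_simp]
    exact Complex.exp_pi_mul_I
  have hre : ζ.re = Real.cos θ := by rw [hζ, Complex.exp_ofReal_mul_I_re]
  have him : ζ.im = Real.sin θ := by rw [hζ, Complex.exp_ofReal_mul_I_im]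
  have hbound : ∀ ρ : ℝ, 0 < ρ → e * ρ ^ k < σ →
      |Real.cos θ ^ k * u.eval (b + ρ * Real.cos θ) + e * d.eval (b + ρ * Real.cos θ)| ≤
        ‖-aeval ((b : ℂ) + ρ * ζ) u + e * aeval ((b : ℂ) + ρ * ζ) d‖ := by
    intro ρ hρ hs
    obtain ⟨z, hz⟩ : ∃ z : ℂ, z = (b : ℂ) + ρ * ζ := ⟨_, rfl⟩
    have hzre : z.re = b + ρ * Real.cos θ := by simp [hz, hre]
    have h := (hrr _ (by positivity) hs).abs_eval_re_le z
    have e1 : (p + C (e * ρ ^ k) * d).eval z.re =
        ρ ^ k * (Real.cos θ ^ k * u.eval z.re + e * d.eval z.re) := by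
      simp only [hp, eval_add, eval_mul, eval_pow, eval_sub, eval_X, eval_C]
      rw [show z.re - b = ρ * Real.cos θ by rw [hzre]; ring, mul_pow]
      ring
    have e2 : aeval z (p + C (e * ρ ^ k) * d) =
        ((ρ ^ k : ℝ) : ℂ) * (-aeval z u + e * aeval z d) := by
      simp only [hp, map_add, map_mul, map_pow, map_sub, aeval_X, aeval_C,
        Complex.coe_algebraMap]
      rw [show z - (b : ℂ) = ρ * ζ by rw [hz]; ring, mul_pow, hζk]
      push_cast
      ring
    rw [e1, e2, abs_mul, norm_mul, Complex.norm_real, Real.norm_eq_abs] at h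
    have := le_of_mul_le_mul_left h (by positivity)
    rwa [hz, ← hz, hzre, hz] at this
  have l1 : Tendsto (fun ρ : ℝ => |Real.cos θ ^ k * u.eval (b + ρ * Real.cos θ) +
      e * d.eval (b + ρ * Real.cos θ)|) (𝓝[>] 0)
      (𝓝 |Real.cos θ ^ k * u.eval b + e * d.eval b|) := by
    refine Tendsto.mono_left ?_ nhdsWithin_le_nhds
    exact Continuous.tendsto' (by fun_prop) _ _ (by simp)
  have l2 : Tendsto (fun ρ : ℝ => ‖-aeval ((b : ℂ) + ρ * ζ) u +
      e * aeval ((b : ℂ) + ρ * ζ) d‖) (𝓝[>] 0) (𝓝 0) := by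
    refine Tendsto.mono_left ?_ nhdsWithin_le_nhds
    refine Continuous.tendsto' (by fun_prop) _ _ ?_
    rw [Complex.ofReal_zero, zero_mul, add_zero, aeval_ofReal, aeval_ofReal, norm_eq_zero, he]
    push_cast
    have : ((d.eval b : ℝ) : ℂ) ≠ 0 := Complex.ofReal_ne_zero.2 hd
    field_simp
    ring
  have hev : ∀ᶠ ρ : ℝ in 𝓝[>] 0, 0 < ρ ∧ e * ρ ^ k < σ := by
    refine (eventually_mem_nhdsWithin.mono fun ρ h => h).and ?_
    refine Filter.Eventually.filter_mono nhdsWithin_le_nhds ?_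
    refine (Continuous.tendsto' (by fun_prop) (0 : ℝ) 0 ?_).eventually (gt_mem_nhds hσ)
    rw [zero_pow (by omega), mul_zero]
  have hle := le_of_tendsto_of_tendsto l1 l2 (hev.mono fun ρ hρ => hbound ρ hρ.1 hρ.2)
  rw [abs_nonpos_iff, he, div_mul_cancel₀ _ hd] at hle
  have : u.eval b * (Real.cos θ ^ k + 1) = 0 := by linarith
  rcases mul_eq_zero.1 this with h | h
  · exact hu h
  · have := pow_nonneg hcos k; linarith

theorem exists_double_factor {p : ℝ[X]} (hp : p ≠ 0) {b : ℝ} (h0 : p.eval b = 0)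
    (h1 : p.derivative.eval b = 0) :
    ∃ (k : ℕ) (u : ℝ[X]), 2 ≤ k ∧ p = (X - C b) ^ k * u ∧ u.eval b ≠ 0 := by
  obtain ⟨u, hu, hnd⟩ := exists_eq_pow_rootMultiplicity_mul_and_not_dvd p hp b
  refine ⟨_, u, ?_, hu, fun h => hnd (dvd_iff_isRoot.2 h)⟩
  have h : 1 < p.rootMultiplicity b := (one_lt_rootMultiplicity_iff_isRoot hp).2 ⟨h0, h1⟩
  omega

theorem eval_pos_of_rootsLE {p : ℝ[X]} (hm : p.Monic) {R x : ℝ} (h : RootsLE p R) (hx : R < x) :
    0 < p.eval x := by
  rcases (Nat.eq_zero_or_pos p.natDegree) with hd | hd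
  · rw [eq_C_of_natDegree_eq_zero hd, eval_C, ← hd, hm.coeff_natDegree]
    exact one_pos
  by_contra hle
  push Not at hle
  obtain ⟨y, hy, hy'⟩ := ((tendsto_atTop_of_leadingCoeff_nonneg p
    (natDegree_pos_iff_degree_pos.1 hd) (by rw [hm.leadingCoeff]; exact zero_le_one)).eventually
      (eventually_gt_atTop 0)).and (eventually_gt_atTop x) |>.exists
  obtain ⟨c, hc, hc'⟩ := intermediate_value_Icc hy'.le p.continuous.continuousOn
    (Set.mem_Icc.2 ⟨hle, hy.le⟩)
  exact h c (hx.trans_le (Set.mem_Icc.1 hc).1) hc'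

theorem aux_interlacing {f g : ℝ[X]} (hg : g.Monic)
    (hcomb : ∀ t, 0 ≤ t → RealRooted (g + C t * f)) {S : ℝ}
    (hf : ∀ x, S ≤ x → g.eval x ≤ 0 → 0 < f.eval x) (hgS : 0 < g.eval S) {b : ℝ} (hb : S < b)
    (hgb : g.eval b = 0) : False := by
  by_cases hneg : ∀ x, S ≤ x → 0 ≤ g.eval x
  · have hmin : IsLocalMin (fun x => g.eval x) b := by
      filter_upwards [lt_mem_nhds hb] with x hx
      rw [hgb]
      exact hneg x hx.le
    have hd0 : g.derivative.eval b = 0 := by
      have := hmin.deriv_eq_zero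
      rwa [Polynomial.deriv] at this
    obtain ⟨k, u, hk, hfac, hub⟩ := exists_double_factor hg.ne_zero hgb hd0
    have hfb : 0 < f.eval b := hf b hb.le hgb.le
    have hupos : 0 ≤ u.eval b := by
      refine ge_of_tendsto ((u.continuous.tendsto b).mono_left
        (nhdsWithin_le_nhds (s := Ioi b))) ?_
      filter_upwards [self_mem_nhdsWithin] with x hx
      have hxb : (0 : ℝ) < x - b := sub_pos.2 hx
      have := hneg x (hb.trans hx).le
      rw [hfac, eval_mul, eval_pow, eval_sub, eval_X, eval_C] at this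
      exact nonneg_of_mul_nonneg_right this (pow_pos hxb k)
    exact false_of_perturbation hk hfac (mul_pos (lt_of_le_of_ne hupos (Ne.symm hub)) hfb)
      one_pos fun s hs _ => hcomb s hs.le
  push Not at hneg
  obtain ⟨x, hSx, hxneg⟩ := hneg
  have hd : 0 < g.natDegree := by
    by_contra hc
    rw [eq_C_of_natDegree_eq_zero (by omega : g.natDegree = 0)] at hgS hxneg
    simp only [eval_C] at hgS hxneg
    linarith
  obtain ⟨y, hy, hy'⟩ := ((tendsto_atTop_of_leadingCoeff_nonneg g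
    (natDegree_pos_iff_degree_pos.1 hd) (by rw [hg.leadingCoeff]; exact zero_le_one)).eventually
      (eventually_gt_atTop 0)).and (eventually_gt_atTop x) |>.exists
  obtain ⟨Z, hZ⟩ : ∃ Z : Finset ℝ, Z = g.roots.toFinset := ⟨_, rfl⟩
  have hmemZ : ∀ c, c ∈ Z ↔ g.eval c = 0 := fun c => by
    rw [hZ, Multiset.mem_toFinset, mem_roots hg.ne_zero, IsRoot]
  have hlo : (Z.filter fun c => S ≤ c ∧ c < x).Nonempty := by
    obtain ⟨c, hc, hc'⟩ := intermediate_value_Icc' hSx g.continuous.continuousOn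
      (Set.mem_Icc.2 ⟨hxneg.le, hgS.le⟩)
    rw [Set.mem_Icc] at hc
    refine ⟨c, Finset.mem_filter.2 ⟨(hmemZ c).2 hc', hc.1, lt_of_le_of_ne hc.2 fun h => ?_⟩⟩
    rw [h] at hc'
    simp only at hc'
    linarith
  have hhi : (Z.filter fun c => x < c).Nonempty := by
    obtain ⟨c, hc, hc'⟩ := intermediate_value_Icc hy'.le g.continuous.continuousOn
      (Set.mem_Icc.2 ⟨hxneg.le, hy.le⟩)
    rw [Set.mem_Icc] at hc
    refine ⟨c, Finset.mem_filter.2 ⟨(hmemZ c).2 hc', lt_of_le_of_ne hc.1 fun h => ?_⟩⟩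
    rw [← h] at hc'
    simp only at hc'
    linarith
  obtain ⟨b₁, hb₁, hmax⟩ := Finset.exists_max_image _ id hlo
  obtain ⟨b₂, hb₂, hmin⟩ := Finset.exists_min_image _ id hhi
  rw [Finset.mem_filter, hmemZ] at hb₁ hb₂
  obtain ⟨e1, hS1, h1x⟩ := hb₁
  obtain ⟨e2, hx2⟩ := hb₂
  have hneg' : ∀ w ∈ Set.Icc b₁ b₂, g.eval w ≤ 0 := by
    intro w hw
    by_contra hc
    push Not at hc
    rcases le_or_gt w x with hwx | hwx
    · obtain ⟨c, hc1, hc2⟩ := intermediate_value_Icc' hwx g.continuous.continuousOn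
        (Set.mem_Icc.2 ⟨hxneg.le, hc.le⟩)
      rw [Set.mem_Icc] at hc1
      simp only at hc2
      have hwc : w < c := lt_of_le_of_ne hc1.1 fun h => by rw [h] at hc; linarith
      have hcx : c < x := lt_of_le_of_ne hc1.2 fun h => by rw [h] at hc2; linarith
      have := hmax c (Finset.mem_filter.2 ⟨(hmemZ c).2 hc2, by
        linarith [hw.1], hcx⟩)
      simp only [id] at this
      linarith [hw.1]
    · obtain ⟨c, hc1, hc2⟩ := intermediate_value_Icc hwx.le g.continuous.continuousOn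
        (Set.mem_Icc.2 ⟨hxneg.le, hc.le⟩)
      rw [Set.mem_Icc] at hc1
      simp only at hc2
      have hcw : c < w := lt_of_le_of_ne hc1.2 fun h => by rw [h] at hc2; linarith
      have hxc : x < c := lt_of_le_of_ne hc1.1 fun h => by rw [← h] at hc2; linarith
      have := hmin c (Finset.mem_filter.2 ⟨(hmemZ c).2 hc2, hxc⟩)
      simp only [id] at this
      linarith [hw.2]
  have hfpos : ∀ w ∈ Set.Icc b₁ b₂, 0 < f.eval w := fun w hw =>
    hf w (hS1.trans hw.1) (hneg' w hw)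
  obtain ⟨x₀, hx₀, hxmin⟩ := isCompact_Icc.exists_isMinOn
    (Set.nonempty_Icc.2 (h1x.trans hx2).le)
    (g.continuous.continuousOn.div f.continuous.continuousOn fun w hw => (hfpos w hw).ne')
  have hval : g.eval x₀ / f.eval x₀ < 0 :=
    lt_of_le_of_lt (hxmin (Set.mem_Icc.2 ⟨h1x.le, hx2.le⟩))
      (div_neg_of_neg_of_pos hxneg (hfpos x ⟨h1x.le, hx2.le⟩))
  have hx₀' : x₀ ∈ Set.Ioo b₁ b₂ := by
    refine ⟨lt_of_le_of_ne hx₀.1 fun h => ?_, lt_of_le_of_ne hx₀.2 fun h => ?_⟩
    · rw [← h, e1, zero_div] at hval; exact hval.false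
    · rw [h, e2, zero_div] at hval; exact hval.false
  have hlm : IsLocalMin (fun w => g.eval w / f.eval w) x₀ :=
    hxmin.isLocalMin (Icc_mem_nhds hx₀'.1 hx₀'.2)
  have hder := (g.hasDerivAt x₀).div (f.hasDerivAt x₀) (hfpos x₀ hx₀).ne'
  have hzero := hlm.hasDerivAt_eq_zero hder
  rw [div_eq_zero_iff] at hzero
  have hW := hzero.resolve_right (pow_ne_zero 2 (hfpos x₀ hx₀).ne')
  obtain ⟨c, hc⟩ : ∃ c, c = -(g.eval x₀ / f.eval x₀) := ⟨_, rfl⟩
  have hc0 : 0 < c := hc ▸ neg_pos.2 hval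
  have hf0 := (hfpos x₀ hx₀).ne'
  have p0 : (g + C c * f).eval x₀ = 0 := by
    rw [eval_add, eval_mul, eval_C, hc]; field_simp; ring
  have p1 : (g + C c * f).derivative.eval x₀ = 0 := by
    rw [derivative_add, derivative_C_mul, eval_add, eval_mul, eval_C, hc]
    field_simp
    linarith
  obtain ⟨k, u, hk, hfac, hub⟩ :=
    exists_double_factor (hcomb c hc0.le).ne_zero p0 p1
  rcases lt_or_gt_of_ne hub with hu | hu
  · refine false_of_perturbation hk hfac (d := -f) ?_ hc0 fun s _ hs => ?_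
    · rw [eval_neg]
      exact mul_pos_of_neg_of_neg hu (neg_neg_iff_pos.2 (hfpos x₀ hx₀))
    · have := hcomb (c - s) (by linarith)
      rwa [show g + C c * f + C s * -f = g + C (c - s) * f by rw [map_sub]; ring]
  · refine false_of_perturbation hk hfac (d := f) (mul_pos hu (hfpos x₀ hx₀)) one_pos
      fun s hs _ => ?_
    have := hcomb (c + s) (by linarith)
    rwa [show g + C c * f + C s * f = g + C (c + s) * f by rw [map_add]; ring]

/-- **Two polynomials.** -/
theorem rootsLE_of_pair {f g : ℝ[X]} (hf : f.Monic) (hg : g.Monic)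
    (hdeg : f.natDegree = g.natDegree)
    (hrr : ∀ t, 0 ≤ t → t ≤ 1 → RealRooted (C t * f + C (1 - t) * g)) {lam : ℝ} (h0 : 0 < lam)
    (h1 : lam < 1) {R : ℝ} (hR : RootsLE (C lam * f + C (1 - lam) * g) R) :
    RootsLE f R ∨ RootsLE g R := by
  by_contra hcon
  simp only [RootsLE, not_or, not_forall, not_not] at hcon
  obtain ⟨⟨a, ha, hfa⟩, b, hb, hgb⟩ := hcon
  obtain ⟨h, hh⟩ : ∃ h, h = C lam * f + C (1 - lam) * g := ⟨_, rfl⟩
  rw [← hh] at hR
  have hm : h.Monic := by
    have hle : h.natDegree ≤ f.natDegree := by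
      rw [hh]
      exact (natDegree_add_le _ _).trans (max_le (natDegree_C_mul_le _ _)
        ((natDegree_C_mul_le _ _).trans hdeg.ge))
    refine monic_of_natDegree_le_of_coeff_eq_one f.natDegree hle ?_
    rw [hh, coeff_add, coeff_C_mul, coeff_C_mul, hf.coeff_natDegree, hdeg, hg.coeff_natDegree]
    ring
  have hpos : ∀ x, R < x → 0 < lam * f.eval x + (1 - lam) * g.eval x := fun x hx => by
    simpa [hh] using eval_pos_of_rootsLE hm hR hx
  obtain ⟨S, hS, hSnot⟩ := (Set.Ioo_infinite (lt_min ha hb)).exists_notMem_finset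
    (f.roots.toFinset ∪ g.roots.toFinset)
  rw [Finset.mem_union, Multiset.mem_toFinset, Multiset.mem_toFinset, mem_roots hf.ne_zero,
    mem_roots hg.ne_zero, not_or] at hSnot
  obtain ⟨hRS, hSab⟩ := hS
  rw [lt_min_iff] at hSab
  have hcomb : ∀ p q : ℝ[X], (∀ t, 0 ≤ t → t ≤ 1 → RealRooted (C t * p + C (1 - t) * q)) →
      ∀ s, 0 ≤ s → RealRooted (q + C s * p) := by
    intro p q hpq s hs
    have := (hpq (s / (1 + s)) (by positivity) (by rw [div_le_one (by linarith)]; linarith)).C_mul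
      (show (1 + s) ≠ 0 by linarith)
    rwa [mul_add, ← mul_assoc, ← mul_assoc, ← map_mul, ← map_mul,
      mul_div_cancel₀ _ (show (1 + s) ≠ 0 by linarith),
      show (1 + s) * (1 - s / (1 + s)) = 1 by field_simp; ring, map_one, one_mul, add_comm] at this
  rcases lt_or_gt_of_ne (hSnot.2 : g.eval S ≠ 0) with hneg | hpos'
  · have hfS : 0 < f.eval S := by nlinarith [hpos S hRS]
    refine aux_interlacing (f := g) hf (hcomb g f fun t ht ht' => ?_) (fun x hx hle => ?_) hfS
      hSab.1 hfa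
    · have := hrr (1 - t) (by linarith) (by linarith)
      rwa [sub_sub_cancel, add_comm] at this
    · nlinarith [hpos x (hRS.trans_le hx)]
  · refine aux_interlacing (f := f) hg (hcomb f g hrr) (fun x hx hle => ?_) hpos' hSab.2 hgb
    nlinarith [hpos x (hRS.trans_le hx)]

/-- **Families with real-rooted combinations.** -/
theorem exists_rootsLE {κ : Type} {d : ℕ} {R : ℝ} (s : Finset κ) (f : κ → ℝ[X])
    (hf : ∀ k ∈ s, (f k).Monic ∧ (f k).natDegree = d)
    (hrr : ∀ q : κ → ℝ, (∀ k ∈ s, 0 ≤ q k) → ∑ k ∈ s, q k = 1 →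
      RealRooted (∑ k ∈ s, C (q k) * f k))
    (p : κ → ℝ) (hp : ∀ k ∈ s, 0 ≤ p k) (hp1 : ∑ k ∈ s, p k = 1)
    (hR : RootsLE (∑ k ∈ s, C (p k) * f k) R) : ∃ k ∈ s, RootsLE (f k) R := by
  classical
  induction s using Finset.induction generalizing p with
  | empty => simp at hp1
  | insert a s ha ih =>
    rw [Finset.sum_insert ha] at hp1 hR
    have hpa := hp a (Finset.mem_insert_self a s)
    have hps : ∀ k ∈ s, 0 ≤ p k := fun k hk => hp k (Finset.mem_insert_of_mem hk)
    have hext : ∀ (t : ℝ) (q : κ → ℝ), 0 ≤ t → t ≤ 1 → (∀ k ∈ s, 0 ≤ q k) →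
        ∑ k ∈ s, q k = 1 → RealRooted (C t * f a + C (1 - t) * ∑ k ∈ s, C (q k) * f k) := by
      intro t q ht ht' hq hq1
      have e : ∀ k ∈ s, (if k = a then t else (1 - t) * q k) = (1 - t) * q k := fun k hk =>
        if_neg fun h => ha (by rwa [h] at hk)
      have h := hrr (fun k => if k = a then t else (1 - t) * q k) (fun k hk => ?_) ?_
      · rw [Finset.sum_insert ha, if_pos rfl,
          Finset.sum_congr rfl fun k hk => by rw [e k hk, map_mul, mul_assoc],
          ← Finset.mul_sum] at h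
        exact h
      · rcases eq_or_ne k a with h | h
        · rw [if_pos h]; exact ht
        · rw [if_neg h]
          exact mul_nonneg (by linarith) (hq k (Finset.mem_of_mem_insert_of_ne hk h))
      · rw [Finset.sum_insert ha, if_pos rfl, Finset.sum_congr rfl e, ← Finset.mul_sum, hq1]
        ring
    have hrest : 0 < ∑ k ∈ s, p k →
        (∀ k ∈ s, 0 ≤ p k / ∑ k ∈ s, p k) ∧ ∑ k ∈ s, p k / (∑ k ∈ s, p k) = 1 := fun h =>
      ⟨fun k hk => div_nonneg (hps k hk) h.le, by rw [← Finset.sum_div, div_self h.ne']⟩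
    rcases eq_or_lt_of_le (Finset.sum_nonneg hps) with h0 | h0
    · refine ⟨a, Finset.mem_insert_self a s, ?_⟩
      have hz := (Finset.sum_eq_zero_iff_of_nonneg hps).1 h0.symm
      rw [← h0, add_zero] at hp1
      rwa [hp1, map_one, one_mul, Finset.sum_eq_zero fun k hk => by
        rw [hz k hk, map_zero, zero_mul], add_zero] at hR
    obtain ⟨q, hq⟩ : ∃ q : κ → ℝ, q = fun k => p k / ∑ k ∈ s, p k := ⟨_, rfl⟩
    obtain ⟨hq0, hq1⟩ := hrest h0
    have e : ∑ k ∈ s, C (p k) * f k = C (1 - p a) * ∑ k ∈ s, C (q k) * f k := by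
      rw [Finset.mul_sum]
      refine Finset.sum_congr rfl fun k _ => ?_
      rw [← mul_assoc, ← map_mul, hq, show (1 : ℝ) - p a = ∑ k ∈ s, p k by linarith,
        mul_div_cancel₀ _ h0.ne']
    rw [e] at hR
    have hrs : ∀ t : κ → ℝ, (∀ k ∈ s, 0 ≤ t k) → ∑ k ∈ s, t k = 1 →
        RealRooted (∑ k ∈ s, C (t k) * f k) := fun t ht ht1 => by
      have := hext 0 t le_rfl zero_le_one ht ht1
      simpa using this
    have hGd : (∑ k ∈ s, C (q k) * f k).Monic ∧ (∑ k ∈ s, C (q k) * f k).natDegree = d := by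
      have hle : (∑ k ∈ s, C (q k) * f k).natDegree ≤ d :=
        natDegree_sum_le_of_forall_le s _ fun k hk =>
          (natDegree_C_mul_le _ _).trans (hf k (Finset.mem_insert_of_mem hk)).2.le
      have hc : (∑ k ∈ s, C (q k) * f k).coeff d = 1 := by
        rw [finsetSum_coeff, ← hq1]
        refine Finset.sum_congr rfl fun k hk => ?_
        obtain ⟨h1, h2⟩ := hf k (Finset.mem_insert_of_mem hk)
        rw [coeff_C_mul, ← h2, h1.coeff_natDegree, mul_one, hq]
      exact ⟨monic_of_natDegree_le_of_coeff_eq_one d hle hc,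
        natDegree_eq_of_le_of_coeff_ne_zero hle (by rw [hc]; exact one_ne_zero)⟩
    rcases eq_or_lt_of_le hpa with hz | hz
    · rw [← hz, map_zero, zero_mul, zero_add, sub_zero, map_one, one_mul] at hR
      obtain ⟨k, hk, hk'⟩ := ih (fun k hk => hf k (Finset.mem_insert_of_mem hk)) hrs q
        (fun k hk => hq ▸ hq0 k hk) (hq ▸ hq1) hR
      exact ⟨k, Finset.mem_insert_of_mem hk, hk'⟩
    · obtain ⟨hfa, hfd⟩ := hf a (Finset.mem_insert_self a s)
      rcases rootsLE_of_pair hfa hGd.1 (by rw [hfd, hGd.2])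
        (fun t ht ht' => hext t q ht ht' (fun k hk => hq ▸ hq0 k hk) (hq ▸ hq1)) hz
        (by linarith) hR with h | h
      · exact ⟨a, Finset.mem_insert_self a s, h⟩
      · obtain ⟨k, hk, hk'⟩ := ih (fun k hk => hf k (Finset.mem_insert_of_mem hk)) hrs q
          (fun k hk => hq ▸ hq0 k hk) (hq ▸ hq1) h
        exact ⟨k, Finset.mem_insert_of_mem hk, hk'⟩

end FA.KadisonSinger
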