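import Fermat.Agent.KadisonSinger.Barrier
import Mathlib.Analysis.Matrix.Spectrum

/-!
# Interlacing families and the theorem of Marcus, Spielman and Srivastava

Fixing the random vectors one at a time, some value keeps the largest root of the expected
polynomial from growing, because all convex combinations of the polynomials of the children are
real rooted. With the barrier bound some outcome has `∑ v v* ≤ (1 + √ε) ^ 2`.
-/

set_option autoImplicit false

noncomputable section

namespace FA.KadisonSinger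

open Polynomial Matrix
open scoped ComplexOrder

variable {n : Type} [Fintype n] [DecidableEq n]

/-- `v v*`. -/
abbrev rankOne (v : n → ℂ) : Matrix n n ℂ := vecMulVec v (star v)

omit [DecidableEq n] in
theorem posSemidef_rankOne (v : n → ℂ) : (rankOne v).PosSemidef := posSemidef_vecMulVec_self_star v

/-- No root above `R` at a node. -/
def NodeLE (l : List (Matrix n n ℂ)) (R : ℝ) : Prop :=
  ∀ x : ℝ, R < x → (mixedDet l ℂ ((x : ℂ) • (1 : Matrix n n ℂ))).re ≠ 0

variable {ι κ : Type} [Fintype κ]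

/-- The expectation of the rank-one matrices. -/
def meanMat (p : κ → ℝ) (v : κ → n → ℂ) : Matrix n n ℂ := ∑ k, (p k : ℂ) • rankOne (v k)

omit [DecidableEq n] in
theorem posSemidef_meanMat {p : κ → ℝ} (hp : ∀ k, 0 ≤ p k) (v : κ → n → ℂ) :
    (meanMat p v).PosSemidef :=
  Matrix.posSemidef_sum _ fun k _ => (posSemidef_rankOne _).smul (Complex.zero_le_real.2 (hp k))

theorem exists_child {p : κ → ℝ} (hp : ∀ k, 0 ≤ p k) (hp1 : ∑ k, p k = 1) (v : κ → n → ℂ)
    {pre post : List (Matrix n n ℂ)} (hpre : ∀ B ∈ pre, Matrix.PosSemidef B)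
    (hpost : ∀ B ∈ post, Matrix.PosSemidef B) {R : ℝ}
    (hR : NodeLE (pre ++ meanMat p v :: post) R) :
    ∃ k, NodeLE (pre ++ rankOne (v k) :: post) R := by
  have hl : ∀ B : Matrix n n ℂ, B.PosSemidef →
      ∀ D ∈ pre ++ B :: post, Matrix.PosSemidef D := fun B hB D hD => by
    rcases List.mem_append.1 hD with h | h
    · exact hpre D h
    · rcases List.mem_cons.1 h with h | h
      · exact h ▸ hB
      · exact hpost D h
  choose f hf using fun k =>
    exists_real_scalarPoly (hl _ (posSemidef_rankOne (v k)))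
  have hcomb : ∀ q : κ → ℝ, (∀ k, 0 ≤ q k) → ∑ k, q k = 1 →
      ∃ g : ℝ[X], g = ∑ k, C (q k) * f k ∧ RealRooted g ∧
        ∀ x : ℝ, g.eval x =
          (mixedDet (pre ++ meanMat q v :: post) ℂ ((x : ℂ) • (1 : Matrix n n ℂ))).re := by
    intro q hq hq1
    obtain ⟨g, hg, hgr, -, -, hge⟩ := exists_real_scalarPoly (hl _ (posSemidef_meanMat hq v))
    refine ⟨g, Polynomial.map_injective (algebraMap ℝ ℂ) (algebraMap ℝ ℂ).injective ?_, hgr, hge⟩
    rw [hg, meanMat, mixedDet_affine Finset.univ (fun k => (q k : ℂ)) (by exact_mod_cast hq1),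
      Polynomial.map_sum]
    refine Finset.sum_congr rfl fun k _ => ?_
    rw [Polynomial.map_mul, map_C, (hf k).1, smul_eq_C_mul]
    rfl
  obtain ⟨g, hg, -, hge⟩ := hcomb p hp hp1
  classical
  obtain ⟨k, -, hk⟩ := exists_rootsLE Finset.univ f (fun k _ => ⟨(hf k).2.2.1, (hf k).2.2.2.1⟩)
    (fun q hq hq1 => by
      obtain ⟨g', hg', hr, -⟩ := hcomb q (fun k => hq k (Finset.mem_univ k)) hq1
      exact hg' ▸ hr) p (fun k _ => hp k) hp1 (R := R) (fun x hx => by
      rw [← hg, hge]
      exact hR x hx)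
  refine ⟨k, fun x hx => ?_⟩
  rw [← (hf k).2.2.2.2]
  exact hk x hx

theorem exists_choice [DecidableEq ι] [Nonempty κ] {p : ι → κ → ℝ} (hp : ∀ i k, 0 ≤ p i k)
    (hp1 : ∀ i, ∑ k, p i k = 1) (v : ι → κ → n → ℂ) {R : ℝ} (js : List ι) (hjs : js.Nodup) :
    ∀ pre : List (Matrix n n ℂ), (∀ B ∈ pre, Matrix.PosSemidef B) →
      NodeLE (pre ++ js.map fun i => meanMat (p i) (v i)) R →
      ∃ σ : ι → κ, NodeLE (pre ++ js.map fun i => rankOne (v i (σ i))) R := by
  induction js with
  | nil => exact fun pre _ h => ⟨fun _ => Classical.arbitrary κ, by simpa using h⟩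
  | cons j js ih =>
    intro pre hpre h
    rw [List.map_cons] at h
    obtain ⟨k, hk⟩ := exists_child (hp j) (hp1 j) (v j) hpre (fun B hB => by
      obtain ⟨i, -, rfl⟩ := List.mem_map.1 hB
      exact posSemidef_meanMat (hp i) _) h
    rw [List.append_cons] at hk
    obtain ⟨σ, hσ⟩ := ih (List.nodup_cons.1 hjs).2 _ (fun B hB => by
      rcases List.mem_append.1 hB with h' | h'
      · exact hpre B h'
      · exact List.mem_singleton.1 h' ▸ posSemidef_rankOne _) hk
    refine ⟨Function.update σ j k, ?_⟩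
    rw [List.map_cons, Function.update_self, List.append_cons]
    have hne : ∀ i ∈ js, i ≠ j := fun i hi e => by
      subst e
      exact (List.nodup_cons.1 hjs).1 hi
    rwa [List.map_congr_left (g := fun i => rankOne (v i (σ i))) fun i hi => by
      rw [Function.update_of_ne (hne i hi)]]

omit [Fintype n] in
theorem posSemidef_of_charpoly {S : Matrix n n ℂ} [Fintype n] (hS : S.IsHermitian) {R : ℝ}
    (h : ∀ x : ℝ, R < x → ((x : ℂ) • (1 : Matrix n n ℂ) - S).det.re ≠ 0) :
    ((R : ℂ) • (1 : Matrix n n ℂ) - S).PosSemidef := by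
  have hH : ((R : ℂ) • (1 : Matrix n n ℂ) - S).IsHermitian :=
    (by simp [Matrix.IsHermitian, conjTranspose_smul] :
      ((R : ℂ) • (1 : Matrix n n ℂ)).IsHermitian).sub hS
  refine hH.posSemidef_iff_eigenvalues_nonneg.2 fun i => ?_
  simp only [Pi.zero_apply]
  by_contra hc
  push Not at hc
  obtain ⟨μ, hμ⟩ : ∃ μ, μ = hH.eigenvalues i := ⟨_, rfl⟩
  refine h (R - μ) (by linarith) ?_
  have hvec := hH.mulVec_eigenvectorBasis i
  rw [← hμ] at hvec
  have hdet : ((((R - μ : ℝ) : ℂ)) • (1 : Matrix n n ℂ) - S).det = 0 := by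
    refine exists_mulVec_eq_zero_iff.1 ⟨_, fun e => hH.eigenvectorBasis.orthonormal.ne_zero i
      (by ext k; exact congrFun e k), ?_⟩
    rw [sub_mulVec, smul_mulVec, one_mulVec] at hvec
    rw [sub_mulVec, smul_mulVec, one_mulVec]
    have := congrArg (fun w => w - μ • (⇑(hH.eigenvectorBasis i) : n → ℂ)) hvec
    simp only [sub_self] at this
    rw [← this]
    refine funext fun k => ?_
    simp
    ring
  rw [hdet, Complex.zero_re]

theorem marcus_spielman_srivastava_aux [Fintype ι] {p : ι → κ → ℝ} (hp : ∀ i k, 0 ≤ p i k)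
    (hp1 : ∀ i, ∑ k, p i k = 1) (v : ι → κ → n → ℂ)
    (hiso : ∑ i, ∑ k, (p i k : ℂ) • rankOne (v i k) = 1) {ε : ℝ} (hε : 0 < ε)
    (hsize : ∀ i, ∑ k, p i k * ∑ x, Complex.normSq (v i k x) ≤ ε) :
    ∃ σ : ι → κ, ((((1 + Real.sqrt ε) ^ 2 : ℝ) : ℂ) • (1 : Matrix n n ℂ) -
      ∑ i, rankOne (v i (σ i))).PosSemidef := by
  classical
  rcases isEmpty_or_nonempty ι with hι | ⟨⟨i₀⟩⟩
  · refine ⟨fun i => isEmptyElim i, ?_⟩
    rw [Finset.univ_eq_empty, Finset.sum_empty, sub_zero]
    exact PosSemidef.one.smul (Complex.zero_le_real.2 (sq_nonneg _))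
  have : Nonempty κ := by
    by_contra hc
    rw [not_nonempty_iff] at hc
    simpa using hp1 i₀
  have hmean : NodeLE ([] ++ Finset.univ.toList.map fun i => meanMat (p i) (v i))
      ((1 + Real.sqrt ε) ^ 2) := fun x hx => ne_of_gt (by
    refine mixed_pos_above (fun i => posSemidef_meanMat (hp i) _) hiso (fun i => ?_) hε hx
    refine le_trans (le_of_eq ?_) (hsize i)
    rw [meanMat, trace_sum, Complex.re_sum]
    refine Finset.sum_congr rfl fun k _ => ?_
    rw [trace_smul, smul_eq_mul, Complex.re_ofReal_mul, rankOne, trace_vecMulVec]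
    simp [dotProduct, Complex.mul_conj, Complex.re_sum])
  obtain ⟨σ, hσ⟩ := exists_choice hp hp1 v _ (Finset.nodup_toList _) [] (by simp) hmean
  refine ⟨σ, posSemidef_of_charpoly ?_ fun x hx => ?_⟩
  · exact (Matrix.posSemidef_sum _ fun i _ => posSemidef_rankOne (v i (σ i))).1
  · have := hσ x hx
    have e : (Finset.univ.toList.map fun i => rankOne (v i (σ i))) =
        (Finset.univ.toList.map fun i => v i (σ i)).map fun u => vecMulVec u (star u) := by
      rw [List.map_map]; rfl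
    rw [List.nil_append, e, mixedDet_rankOne, ← e, cst_self, Finset.sum_map_toList] at this
    exact this

/-- **The theorem of Marcus, Spielman and Srivastava.** -/
theorem marcus_spielman_srivastava [Fintype ι] {p : ι → κ → ℝ} (hp : ∀ i k, 0 ≤ p i k)
    (hp1 : ∀ i, ∑ k, p i k = 1) (v : ι → κ → n → ℂ)
    (hiso : ∑ i, ∑ k, (p i k : ℂ) • rankOne (v i k) = 1) {ε : ℝ}
    (hsize : ∀ i, ∑ k, p i k * ∑ x, Complex.normSq (v i k x) ≤ ε) (hε : 0 < ε) :
    ∃ σ : ι → κ, ∀ w : n → ℂ,
      ∑ i, Complex.normSq (star (v i (σ i)) ⬝ᵥ w) ≤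
        (1 + Real.sqrt ε) ^ 2 * ∑ x, Complex.normSq (w x) := by
  obtain ⟨σ, hσ⟩ := marcus_spielman_srivastava_aux hp hp1 v hiso hε hsize
  refine ⟨σ, fun w => ?_⟩
  have h := (Complex.le_def.1 (hσ.dotProduct_mulVec_nonneg w)).1
  have e1 : (star w ⬝ᵥ w) = ((∑ x, Complex.normSq (w x) : ℝ) : ℂ) := by
    simp [dotProduct, Complex.normSq_eq_conj_mul_self]
  have e2 : ∀ u : n → ℂ, star w ⬝ᵥ (rankOne u *ᵥ w) =
      ((Complex.normSq (star u ⬝ᵥ w) : ℝ) : ℂ) := fun u => by
    rw [rankOne, vecMulVec_mulVec, dotProduct_smul, MulOpposite.smul_eq_mul_unop,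
      MulOpposite.unop_op, Complex.normSq_eq_conj_mul_self]
    congr 1
    simp [dotProduct, mul_comm]
  simp only [sub_mulVec, smul_mulVec, one_mulVec, dotProduct_sub, dotProduct_smul, sum_mulVec,
    dotProduct_sum, e1, e2, smul_eq_mul, Complex.sub_re, Complex.re_sum,
    Complex.re_ofReal_mul, Complex.ofReal_re, Complex.zero_re] at h
  linarith

end FA.KadisonSinger
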