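import Fermat.Agent.KadisonSinger.Mixed
import Fermat.Agent.KadisonSinger.Herglotz
import Mathlib.LinearAlgebra.Matrix.PosDef
import Mathlib.Analysis.Matrix.PosDef
import Mathlib.Analysis.Matrix.Hermitian

/-!
# Real stability of mixed determinants

`mixedDet l M ≠ 0` when `M` has positive definite imaginary part and the matrices of `l` are
positive semidefinite. So the polynomials `x ↦ mixedDet l x` are real rooted, and the logarithmic
derivative along positive directions is monotone and convex above the roots.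
-/

set_option autoImplicit false

noncomputable section

namespace FA.KadisonSinger

open Polynomial Matrix Filter
open scoped Topology ComplexOrder ComplexConjugate

variable {n : Type} [Fintype n] [DecidableEq n]

/-- Positive definite imaginary part. -/
def UpperMat (M : Matrix n n ℂ) : Prop :=
  ∃ H P : Matrix n n ℂ, H.IsHermitian ∧ P.PosDef ∧ M = H + Complex.I • P

omit [DecidableEq n] in
theorem quadForm_im_eq_zero {H : Matrix n n ℂ} (hH : H.IsHermitian) (v : n → ℂ) :
    (star v ⬝ᵥ (H *ᵥ v)).im = 0 := by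
  simpa using hH.im_star_dotProduct_mulVec_self v

theorem det_ne_zero_of_upperMat {M : Matrix n n ℂ} (hM : UpperMat M) : M.det ≠ 0 := by
  obtain ⟨H, P, hH, hP, rfl⟩ := hM
  intro h
  obtain ⟨v, hv, hv0⟩ := exists_mulVec_eq_zero_iff.2 h
  have h1 := congrArg (fun w => (star v ⬝ᵥ w).im) hv0
  simp only [add_mulVec, smul_mulVec, dotProduct_add, dotProduct_smul, dotProduct_zero,
    Complex.add_im, quadForm_im_eq_zero hH, zero_add, smul_eq_mul, Complex.I_mul_im,
    Complex.zero_im] at h1
  have h2 := hP.dotProduct_mulVec_pos hv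
  rw [Complex.lt_def] at h2
  simp only [Complex.zero_re] at h2
  linarith [h2.1]

omit [Fintype n] [DecidableEq n] in
theorem upperMat_add_smul {M A : Matrix n n ℂ} (hM : UpperMat M) (hA : A.PosSemidef) {z : ℂ}
    (hz : 0 ≤ z.im) : UpperMat (M + z • A) := by
  obtain ⟨H, P, hH, hP, rfl⟩ := hM
  refine ⟨H + (z.re : ℂ) • A, P + (z.im : ℂ) • A, hH.add ?_, hP.add_posSemidef
    (hA.smul (Complex.zero_le_real.2 hz)), ?_⟩
  · rw [Matrix.IsHermitian, conjTranspose_smul, hA.1.eq, Complex.star_def, Complex.conj_ofReal]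
  · conv_lhs => rw [← Complex.re_add_im z]
    rw [add_smul, smul_add, smul_smul, mul_comm Complex.I]
    abel

theorem eval_line (l : List (Matrix n n ℂ)) (M A : Matrix n n ℂ) (z : ℂ) :
    (linePoly l M A).eval z = mixedDet l ℂ (M + z • A) := by
  rw [eval_linePoly]
  congr

theorem sum_inv_im_neg {g : ℂ[X]} (h0 : g.eval 0 ≠ 0)
    (hg : ∀ z : ℂ, 0 ≤ z.im → g.eval z ≠ 0) :
    (g.coeff 1 / g.coeff 0).im < 0 ∨ g.coeff 1 / g.coeff 0 = 0 := by
  have hne : g ≠ 0 := fun e => h0 (by rw [e, eval_zero])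
  have hd : g.derivative.eval 0 = g.coeff 1 := by
    rw [← coeff_zero_eq_eval_zero, coeff_derivative]
    simp
  rw [← hd, coeff_zero_eq_eval_zero, (IsAlgClosed.splits g).eval_derivative_div_eval_of_ne_zero h0]
  rcases g.roots.empty_or_exists_mem with he | ⟨r, hr⟩
  · right
    simp [he]
  · left
    have hneg : ∀ z ∈ g.roots, (1 / (0 - z)).im < 0 := fun z hz => by
      have hzim : z.im < 0 := by
        by_contra hc
        exact hg z (not_lt.1 hc) ((mem_roots hne).1 hz)
      rw [one_div, Complex.inv_im, zero_sub, Complex.neg_im, neg_neg]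
      exact div_neg_of_neg_of_pos hzim (Complex.normSq_pos.2 (neg_ne_zero.2 fun e => by
        rw [e] at hzim; simp at hzim))
    rw [← Complex.imLm_coe, map_multiset_sum, Multiset.map_map]
    obtain ⟨s, hs⟩ := Multiset.exists_cons_of_mem hr
    rw [hs, Multiset.map_cons, Multiset.sum_cons]
    have h1 : ((Complex.imLm ∘ fun z => 1 / (0 - z)) r) < 0 := hneg r hr
    have h2 : (Multiset.map (Complex.imLm ∘ fun z => 1 / (0 - z)) s).sum ≤ 0 :=
      (Multiset.sum_map_le_sum_map _ (fun _ => (0 : ℝ)) fun z hz =>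
        (hneg z (hs ▸ Multiset.mem_cons_of_mem hz)).le).trans (le_of_eq (by simp))
    exact add_neg_of_neg_of_nonpos h1 h2

/-- **Stability.** -/
theorem mixedDet_ne_zero {l : List (Matrix n n ℂ)} (hl : ∀ A ∈ l, Matrix.PosSemidef A) :
    ∀ {M : Matrix n n ℂ}, UpperMat M → mixedDet l ℂ M ≠ 0 := by
  induction l with
  | nil => exact fun hM => det_ne_zero_of_upperMat hM
  | cons A l ih =>
    intro M hM hzero
    have ih' := fun N hN => ih (fun B hB => hl B (List.mem_cons_of_mem A hB)) (M := N) hN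
    have hg : ∀ z : ℂ, 0 ≤ z.im → (linePoly l M A).eval z ≠ 0 := fun z hz => by
      rw [eval_line]
      exact ih' _ (upperMat_add_smul hM (hl A List.mem_cons_self) hz)
    have h0 := hg 0 le_rfl
    rw [mixedDet_cons, dirDeriv, ← coeff_zero_linePoly l M A, sub_eq_zero] at hzero
    have hne : (linePoly l M A).coeff 0 ≠ 0 := by rwa [coeff_zero_eq_eval_zero]
    rcases sum_inv_im_neg h0 hg with h | h <;>
      simp [← hzero, div_self hne] at h

theorem upper_im_le {l : List (Matrix n n ℂ)} (hl : ∀ A ∈ l, Matrix.PosSemidef A)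
    {M A : Matrix n n ℂ} (hM : UpperMat M) (hA : A.PosSemidef) :
    (dirDeriv l M A * conj (mixedDet l ℂ M)).im ≤ 0 := by
  have hg : ∀ z : ℂ, 0 ≤ z.im → (linePoly l M A).eval z ≠ 0 := fun z hz => by
    rw [eval_line]
    exact mixedDet_ne_zero hl (upperMat_add_smul hM hA hz)
  rw [← coeff_zero_linePoly l M A, dirDeriv]
  obtain ⟨g, hgdef⟩ : ∃ g, g = linePoly l M A := ⟨_, rfl⟩
  rw [← hgdef] at hg ⊢
  have hne : g.coeff 0 ≠ 0 := by rw [coeff_zero_eq_eval_zero]; exact hg 0 le_rfl
  rw [show g.coeff 1 * conj (g.coeff 0) =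
      (Complex.normSq (g.coeff 0) : ℂ) * (g.coeff 1 / g.coeff 0) by
    rw [← Complex.mul_conj]; field_simp, Complex.im_ofReal_mul]
  rcases sum_inv_im_neg (hg 0 le_rfl) hg with h | h
  · exact mul_nonpos_of_nonneg_of_nonpos (Complex.normSq_nonneg _) h.le
  · simp [h]

omit [Fintype n] [DecidableEq n] in
theorem hermitian_map_conj {M : Matrix n n ℂ} (hM : M.IsHermitian) :
    M.map (starRingEnd ℂ) = M.transpose := by
  conv_rhs => rw [← hM.eq]
  exact Matrix.ext fun i j => by simp

theorem mixedDet_im {l : List (Matrix n n ℂ)} (hl : ∀ A ∈ l, Matrix.IsHermitian A)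
    {M : Matrix n n ℂ} (hM : M.IsHermitian) : (mixedDet l ℂ M).im = 0 :=
  Complex.conj_eq_iff_im.1 (star_mixedDet (starRingEnd ℂ) (fun _ => rfl) hl (hermitian_map_conj hM))

theorem exists_real_poly {p : ℂ[X]} (h : p.map (starRingEnd ℂ) = p) :
    ∃ q : ℝ[X], q.map (algebraMap ℝ ℂ) = p := by
  refine (Polynomial.mem_lifts p).1 ((Polynomial.lifts_iff_coeff_lifts p).2 fun k => ?_)
  refine ⟨(p.coeff k).re, ?_⟩
  have hk := congrArg (fun q => q.coeff k) h
  simp only [Polynomial.coeff_map] at hk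
  exact (Complex.conj_eq_iff_re.1 hk)

theorem mapRingHom_conj_algebraMap (c : ℂ) :
    Polynomial.mapRingHom (starRingEnd ℂ) (algebraMap ℂ ℂ[X] c) = algebraMap ℂ ℂ[X] (star c) := by
  simp

theorem exists_real_linePoly {l : List (Matrix n n ℂ)} (hl : ∀ A ∈ l, Matrix.IsHermitian A)
    {M A : Matrix n n ℂ} (hM : M.IsHermitian) (hA : A.IsHermitian) :
    ∃ q : ℝ[X], q.map (algebraMap ℝ ℂ) = linePoly l M A := by
  refine exists_real_poly (star_mixedDet (Polynomial.mapRingHom (starRingEnd ℂ))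
    mapRingHom_conj_algebraMap hl ?_)
  refine Matrix.ext fun i j => ?_
  have h1 := congrFun (congrFun (hermitian_map_conj hM) i) j
  have h2 := congrFun (congrFun (hermitian_map_conj hA) i) j
  simp only [map_apply, transpose_apply] at h1 h2
  simp [cst, h1, h2]

theorem exists_real_dirDeriv_line {l : List (Matrix n n ℂ)} (hl : ∀ A ∈ l, Matrix.IsHermitian A)
    {M A B : Matrix n n ℂ} (hM : M.IsHermitian) (hA : A.IsHermitian) (hB : B.IsHermitian) :
    ∃ q : ℝ[X], q.map (algebraMap ℝ ℂ) =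
      dirDeriv l (M.map Polynomial.C + (Polynomial.X : ℂ[X]) • cst ℂ[X] B) A := by
  refine exists_real_poly ?_
  have h := star_mixedDet (Polynomial.mapRingHom (Polynomial.mapRingHom (starRingEnd ℂ)))
    (fun c => by simp) hl
    (M := (M.map Polynomial.C + (Polynomial.X : ℂ[X]) • cst ℂ[X] B).map Polynomial.C +
      (Polynomial.X : ℂ[X][X]) • cst ℂ[X][X] A) ?_
  · have := congrArg (fun q => q.coeff 1) h
    simp only [Polynomial.coe_mapRingHom, Polynomial.coeff_map] at this
    exact this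
  refine Matrix.ext fun i j => ?_
  have h1 := congrFun (congrFun (hermitian_map_conj hM) i) j
  have h2 := congrFun (congrFun (hermitian_map_conj hA) i) j
  have h3 := congrFun (congrFun (hermitian_map_conj hB) i) j
  simp only [map_apply, transpose_apply] at h1 h2 h3
  simp [cst, Polynomial.algebraMap_apply, h1, h2, h3]

theorem dirDeriv_im {l : List (Matrix n n ℂ)} (hl : ∀ A ∈ l, Matrix.IsHermitian A)
    {M A : Matrix n n ℂ} (hM : M.IsHermitian) (hA : A.IsHermitian) :
    (dirDeriv l M A).im = 0 := by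
  obtain ⟨q, hq⟩ := exists_real_linePoly hl hM hA
  rw [dirDeriv, ← hq, Polynomial.coeff_map]
  rfl

/-- The pair of polynomials along a line is a Herglotz pair. -/
theorem herglotzPair_line {l : List (Matrix n n ℂ)} (hl : ∀ A ∈ l, Matrix.PosSemidef A)
    {M A B : Matrix n n ℂ} (hM : M.IsHermitian) (hA : A.PosSemidef) (hB : B.PosSemidef)
    {a b : ℝ[X]}
    (ha : a.map (algebraMap ℝ ℂ) =
      dirDeriv l (M.map Polynomial.C + (Polynomial.X : ℂ[X]) • cst ℂ[X] B) A)
    (hb : b.map (algebraMap ℝ ℂ) = linePoly l M B) : HerglotzPair a b := by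
  intro z hz
  rw [← eval_map_algebraMap, ← eval_map_algebraMap, ha, hb, eval_line, eval_dirDeriv_line]
  obtain ⟨N, hN⟩ : ∃ N, N = M + z • cst ℂ B := ⟨_, rfl⟩
  have hN' : N = M + z • B := hN ▸ Matrix.ext fun i j => by simp
  rw [← hN, ← hN']
  have hev : ∀ᶠ ε : ℝ in 𝓝[>] 0,
      (dirDeriv l (N + (ε : ℂ) • cst ℂ (Complex.I • 1)) A *
        conj (mixedDet l ℂ (N + (ε : ℂ) • cst ℂ (Complex.I • 1)))).im ≤ 0 := by
    filter_upwards [self_mem_nhdsWithin] with ε hε
    have hε' : (0 : ℝ) < ε := hε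
    refine upper_im_le hl ?_ hA
    have hU : UpperMat (M + Complex.I • ((ε : ℂ) • (1 : Matrix n n ℂ))) :=
      ⟨M, (ε : ℂ) • 1, hM, PosDef.one.smul (Complex.zero_lt_real.2 hε'), rfl⟩
    convert upperMat_add_smul hU hB hz using 1
    refine Matrix.ext fun i j => ?_
    simp [hN']
    ring
  refine le_of_tendsto ?_ hev
  refine Tendsto.mono_left ?_ nhdsWithin_le_nhds
  simp only [fun x : ℂ => (eval_linePoly l N (Complex.I • 1) x).symm,
    fun x : ℂ => (eval_dirDeriv_line l N A (Complex.I • 1) x).symm]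
  exact Continuous.tendsto' (by fun_prop) _ _
    (by simp [eval_linePoly, eval_dirDeriv_line])

/-- **Real-rootedness.** -/
theorem exists_real_scalarPoly {l : List (Matrix n n ℂ)} (hl : ∀ A ∈ l, Matrix.PosSemidef A) :
    ∃ q : ℝ[X], q.map (algebraMap ℝ ℂ) =
        mixedDet l ℂ[X] ((Polynomial.X : ℂ[X]) • 1) ∧
      RealRooted q ∧ q.Monic ∧ q.natDegree = Fintype.card n ∧
        ∀ x : ℝ, q.eval x = (mixedDet l ℂ ((x : ℂ) • (1 : Matrix n n ℂ))).re := by
  have e : (Polynomial.X : ℂ[X]) • (1 : Matrix n n ℂ[X]) =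
      (Polynomial.X : ℂ[X]) • 1 + (0 : Matrix n n ℂ).map Polynomial.C := by simp
  obtain ⟨q, hq⟩ := exists_real_poly (star_mixedDet (Polynomial.mapRingHom (starRingEnd ℂ))
    mapRingHom_conj_algebraMap (fun A hA => (hl A hA).1)
    (M := (Polynomial.X : ℂ[X]) • (1 : Matrix n n ℂ[X])) (Matrix.ext fun i j => by
      rcases eq_or_ne i j with rfl | h
      · simp
      · simp [h, h.symm]))
  have hev : ∀ z : ℂ, aeval z q = mixedDet l ℂ (z • (1 : Matrix n n ℂ)) := fun z => by
    rw [← eval_map_algebraMap, hq, ← coe_evalRingHom,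
      map_mixedDet_id _ (fun c => by simp)]
    congr 1
    refine Matrix.ext fun i j => ?_
    rcases eq_or_ne i j with rfl | h
    · simp
    · simp [h]
  obtain ⟨h1, h2⟩ := mixedDet_scalar l (R := ℂ) (0 : Matrix n n ℂ)
  rw [← e, ← hq, natDegree_map] at h1
  rw [← e, ← hq, Polynomial.coeff_map, Complex.coe_algebraMap, Complex.ofReal_eq_one] at h2
  refine ⟨q, hq, fun z hz => ?_, monic_of_natDegree_le_of_coeff_eq_one _ h1 h2,
    natDegree_eq_of_le_of_coeff_ne_zero h1 (by rw [h2]; exact one_ne_zero), fun x => ?_⟩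
  · have key : ∀ w : ℂ, 0 < w.im → aeval w q ≠ 0 := fun w hw => by
      rw [hev]
      refine mixedDet_ne_zero hl ⟨(w.re : ℂ) • 1, (w.im : ℂ) • 1, ?_,
        PosDef.one.smul (Complex.zero_lt_real.2 hw), ?_⟩
      · simp [Matrix.IsHermitian, conjTranspose_smul]
      · rw [smul_smul, ← add_smul, mul_comm, Complex.re_add_im]
    rcases lt_or_gt_of_ne hz with hlt | hgt
    · intro h0
      refine key (conj z) (by simpa using hlt) ?_
      rw [← conj_aeval, h0, map_zero]
    · exact key z hgt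
  · rw [← hev, aeval_ofReal, Complex.ofReal_re]

end FA.KadisonSinger
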