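import Fermat.Agent.KadisonSinger.Select
import Mathlib.Analysis.Matrix.Order

/-!
# Weaver's partition theorem and Anderson's paving theorem

Vectors of squared length `≤ δ` with `∑ v v* ≤ 1` split into `r` classes, each of norm at most
`(1 / √r + √δ) ^ 2`. Applied to Gram factors of `(1 ± T) / 2` this paves every matrix with zero
diagonal by a number of coordinate classes depending only on the precision.
-/

set_option autoImplicit false

noncomputable section

namespace FA.KadisonSinger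

open Matrix
open scoped ComplexOrder

variable {n : Type} [Fintype n] [DecidableEq n]

/-- The squared length. -/
def sqNorm {m : Type} [Fintype m] (x : m → ℂ) : ℝ := ∑ i, Complex.normSq (x i)

theorem sqNorm_nonneg {m : Type} [Fintype m] (x : m → ℂ) : 0 ≤ sqNorm x :=
  Finset.sum_nonneg fun _ _ => Complex.normSq_nonneg _

theorem star_dotProduct_self {m : Type} [Fintype m] (x : m → ℂ) :
    star x ⬝ᵥ x = (sqNorm x : ℂ) := by
  simp [sqNorm, dotProduct, Complex.normSq_eq_conj_mul_self]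

theorem norm_dotProduct_le {m : Type} [Fintype m] (x y : m → ℂ) :
    ‖x ⬝ᵥ y‖ ≤ Real.sqrt (sqNorm x) * Real.sqrt (sqNorm y) := by
  simp only [sqNorm, dotProduct, Complex.normSq_eq_norm_sq]
  refine (norm_sum_le _ _).trans ?_
  simp only [norm_mul]
  exact Real.sum_mul_le_sqrt_mul_sqrt _ _ _

theorem sqNorm_star {m : Type} [Fintype m] (x : m → ℂ) : sqNorm (star x) = sqNorm x := by
  simp [sqNorm]

omit [DecidableEq n] in
theorem quad_rankOne (u w : n → ℂ) :
    star w ⬝ᵥ (rankOne u *ᵥ w) = (Complex.normSq (star u ⬝ᵥ w) : ℂ) := by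
  rw [rankOne, vecMulVec_mulVec, dotProduct_smul, MulOpposite.smul_eq_mul_unop,
    MulOpposite.unop_op, Complex.normSq_eq_conj_mul_self]
  congr 1
  simp [dotProduct, mul_comm]

theorem exists_gram {D : Matrix n n ℂ} (hD : D.PosSemidef) :
    ∃ W : Matrix n n ℂ, D = Wᴴ * W := by
  obtain ⟨W, hW⟩ : ∃ W : Matrix n n ℂ, D = star W * W := by
    open scoped MatrixOrder in
    exact CStarAlgebra.nonneg_iff_eq_star_mul_self.1 hD.nonneg
  exact ⟨W, hW⟩

omit [DecidableEq n] in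
theorem star_form (A : Matrix n n ℂ) (x y : n → ℂ) :
    star (star y ⬝ᵥ (A *ᵥ x)) = star x ⬝ᵥ (Aᴴ *ᵥ y) := by
  rw [← star_dotProduct, star_mulVec, ← dotProduct_mulVec]

/-- Vectors completing `∑ v v*` to the identity. -/
theorem exists_completion {D : Matrix n n ℂ} (hD : D.PosSemidef) {δ : ℝ} (hδ : 0 < δ) :
    ∃ (N : ℕ) (u : n × Fin N → n → ℂ), (∀ j, sqNorm (u j) ≤ δ) ∧ ∑ j, rankOne (u j) = D := by
  obtain ⟨W, hW⟩ := exists_gram hD
  obtain ⟨M, hM⟩ : ∃ M, M = ∑ l, sqNorm (W l) := ⟨_, rfl⟩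
  obtain ⟨N, hN, hN0⟩ : ∃ N : ℕ, M / δ ≤ N ∧ 0 < N :=
    ⟨⌈M / δ⌉₊ + 1, (Nat.le_ceil _).trans (by exact_mod_cast Nat.le_succ _), Nat.succ_pos _⟩
  obtain ⟨s, hs⟩ : ∃ s, s = Real.sqrt (1 / N) := ⟨_, rfl⟩
  have hs2 : s * s = 1 / N := hs ▸ Real.mul_self_sqrt (by positivity)
  refine ⟨N, fun j => (s : ℂ) • star (W j.1), fun j => ?_, ?_⟩
  · have hle : sqNorm (W j.1) ≤ M :=
      hM ▸ Finset.single_le_sum (fun l _ => sqNorm_nonneg (W l)) (Finset.mem_univ j.1)
    rw [div_le_iff₀ hδ] at hN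
    have e : sqNorm ((s : ℂ) • star (W j.1)) = s * s * sqNorm (W j.1) := by
      simp [sqNorm, Finset.mul_sum]
    rw [e, hs2, div_mul_eq_mul_div, one_mul, div_le_iff₀ (Nat.cast_pos.2 hN0)]
    linarith
  · refine Matrix.ext fun a b => ?_
    rw [hW, Matrix.mul_apply, Matrix.sum_apply, Fintype.sum_prod_type]
    refine Finset.sum_congr rfl fun l _ => ?_
    have hN' : (N : ℂ) ≠ 0 := Nat.cast_ne_zero.2 hN0.ne'
    have e : (s : ℂ) * s = 1 / (N : ℂ) := by rw [← Complex.ofReal_mul, hs2]; simp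
    simp [vecMulVec_apply]
    linear_combination ((N : ℂ) * (starRingEnd ℂ (W l a) * W l b)) * e +
      (starRingEnd ℂ (W l a) * W l b) * (mul_one_div_cancel hN')

/-- **Weaver's theorem.** -/
theorem weaver {ι : Type} [Fintype ι] (v : ι → n → ℂ) {δ : ℝ} (hδ : 0 < δ)
    (hv : ∀ i, sqNorm (v i) ≤ δ)
    (hsum : ∀ w, ∑ i, Complex.normSq (star (v i) ⬝ᵥ w) ≤ sqNorm w) {r : ℕ} (hr : 0 < r) :
    ∃ c : ι → Fin r, ∀ k w,
      ∑ i, (if c i = k then Complex.normSq (star (v i) ⬝ᵥ w) else 0) ≤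
        (1 / Real.sqrt r + Real.sqrt δ) ^ 2 * sqNorm w := by
  classical
  have hD : (1 - ∑ i, rankOne (v i)).PosSemidef := by
    refine PosSemidef.of_dotProduct_mulVec_nonneg (Matrix.isHermitian_one.sub
      (Matrix.posSemidef_sum _ fun i _ => posSemidef_rankOne (v i)).1) fun w => ?_
    rw [sub_mulVec, one_mulVec, dotProduct_sub, sum_mulVec, dotProduct_sum, star_dotProduct_self]
    simp only [quad_rankOne]
    rw [← Complex.ofReal_sum, ← Complex.ofReal_sub]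
    exact Complex.zero_le_real.2 (sub_nonneg.2 (hsum w))
  obtain ⟨N, u, hu, husum⟩ := exists_completion hD hδ
  obtain ⟨x, hx⟩ : ∃ x : ι ⊕ (n × Fin N) → n → ℂ, x = Sum.elim v u := ⟨_, rfl⟩
  have hx1 : ∑ i, rankOne (x i) = 1 := by
    rw [Fintype.sum_sum_type, hx]
    simp only [Sum.elim_inl, Sum.elim_inr]
    rw [husum, add_sub_cancel]
  have hxs : ∀ i, sqNorm (x i) ≤ δ := fun i => by
    rw [hx]; cases i <;> simp [hv, hu]
  have hr' : (0 : ℝ) < r := Nat.cast_pos.2 hr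
  obtain ⟨s, hs⟩ : ∃ s, s = Real.sqrt r := ⟨_, rfl⟩
  have hs0 : 0 < s := hs ▸ Real.sqrt_pos.2 hr'
  have hs2 : s * s = r := hs ▸ Real.mul_self_sqrt hr'.le
  obtain ⟨y, hy⟩ : ∃ y : ι ⊕ (n × Fin N) → Fin r → Fin r × n → ℂ,
      y = fun i k q => if q.1 = k then (s : ℂ) * x i q.2 else 0 := ⟨_, rfl⟩
  have hiso : ∑ i, ∑ k, ((1 / (r : ℝ) : ℝ) : ℂ) • rankOne (y i k) = 1 := by
    refine Matrix.ext fun a b => ?_
    simp only [Matrix.sum_apply, Matrix.smul_apply, vecMulVec_apply, hy, Pi.star_apply, smul_eq_mul]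
    rw [Finset.sum_comm]
    have h1 := congrFun (congrFun hx1 a.2) b.2
    simp only [Matrix.sum_apply, vecMulVec_apply, Pi.star_apply] at h1
    have hcol : ∀ k, ∑ i, ((1 / (r : ℝ) : ℝ) : ℂ) * ((if a.1 = k then (s : ℂ) * x i a.2 else 0) *
        star (if b.1 = k then (s : ℂ) * x i b.2 else 0)) =
        if a.1 = k ∧ b.1 = k then (1 : Matrix n n ℂ) a.2 b.2 else 0 := fun k => by
      by_cases hk : a.1 = k ∧ b.1 = k
      · rw [if_pos hk, ← h1]
        refine Finset.sum_congr rfl fun i _ => ?_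
        rw [if_pos hk.1, if_pos hk.2]
        have e : ((1 / (r : ℝ) : ℝ) : ℂ) * ((s : ℂ) * s) = 1 := by
          rw [← Complex.ofReal_mul, hs2, ← Complex.ofReal_mul, one_div_mul_cancel hr'.ne',
            Complex.ofReal_one]
        rw [star_mul', Complex.star_def, Complex.conj_ofReal]
        linear_combination (x i a.2 * starRingEnd ℂ (x i b.2)) * e
      · rw [if_neg hk]
        refine Finset.sum_eq_zero fun i _ => ?_
        rcases not_and_or.1 hk with h | h <;> simp [h]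
    rw [Finset.sum_congr rfl fun k _ => hcol k, Matrix.one_apply (i := a) (j := b)]
    rcases eq_or_ne a.1 b.1 with h | h
    · rw [Finset.sum_eq_single_of_mem a.1 (Finset.mem_univ _) fun k _ hk => if_neg fun e =>
        hk e.1.symm, if_pos ⟨rfl, h.symm⟩, Matrix.one_apply]
      simp only [Prod.ext_iff, h, true_and]
    · rw [Finset.sum_eq_zero fun k _ => if_neg fun e => h (e.1.trans e.2.symm),
        if_neg fun e : a = b => h (by rw [e])]
  have hsize : ∀ i, ∑ k, (1 / (r : ℝ)) * ∑ q, Complex.normSq (y i k q) ≤ r * δ := by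
    intro i
    have e : ∀ k, ∑ q, Complex.normSq (y i k q) = r * sqNorm (x i) := fun k => by
      rw [Fintype.sum_prod_type, Finset.sum_eq_single_of_mem k (Finset.mem_univ _) fun q _ hq => by
        simp [hy, hq], sqNorm, Finset.mul_sum]
      simp [hy, ← hs2]
    simp only [e, Finset.sum_const, Finset.card_univ, Fintype.card_fin, nsmul_eq_mul]
    calc (r : ℝ) * (1 / r * (r * sqNorm (x i))) = r * sqNorm (x i) := by field_simp
      _ ≤ _ := mul_le_mul_of_nonneg_left (hxs i) hr'.le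
  obtain ⟨σ, hσ⟩ := marcus_spielman_srivastava (p := fun _ _ => (1 / (r : ℝ)))
    (fun _ _ => by positivity) (fun _ => by
      rw [Finset.sum_const, Finset.card_univ, Fintype.card_fin, nsmul_eq_mul]
      field_simp) y hiso hsize (mul_pos hr' hδ)
  refine ⟨fun i => σ (Sum.inl i), fun k w => ?_⟩
  have h := hσ fun q => if q.1 = k then w q.2 else 0
  have e1 : ∑ q : Fin r × n, Complex.normSq (if q.1 = k then w q.2 else 0) = sqNorm w := by
    rw [Fintype.sum_prod_type, Finset.sum_eq_single_of_mem k (Finset.mem_univ _) fun q _ hq => by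
      simp [hq]]
    simp [sqNorm]
  have e2 : ∀ i, Complex.normSq (star (y i (σ i)) ⬝ᵥ fun q => if q.1 = k then w q.2 else 0) =
      r * if σ i = k then Complex.normSq (star (x i) ⬝ᵥ w) else 0 := fun i => by
    rw [dotProduct, Fintype.sum_prod_type, Finset.sum_eq_single_of_mem k (Finset.mem_univ _)
      fun q _ hq => by simp [hq]]
    rcases eq_or_ne (σ i) k with hk | hk
    · simp only [hy, Pi.star_apply, if_true, hk, dotProduct, star_mul', mul_assoc,
        ← Finset.mul_sum, Complex.normSq_mul]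
      rw [← hs2]
      simp
    · simp [hy, hk, Ne.symm hk]
  rw [e1, Finset.sum_congr rfl fun i _ => e2 i, ← Finset.mul_sum, Fintype.sum_sum_type, hx] at h
  simp only [Sum.elim_inl, Sum.elim_inr] at h
  have hnn : 0 ≤ ∑ j, if σ (Sum.inr j) = k then Complex.normSq (star (u j) ⬝ᵥ w) else 0 :=
    Finset.sum_nonneg fun j _ => by split_ifs <;> [exact Complex.normSq_nonneg _; exact le_rfl]
  have hfac : (1 + Real.sqrt (r * δ)) ^ 2 = r * (1 / Real.sqrt r + Real.sqrt δ) ^ 2 := by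
    rw [Real.sqrt_mul hr'.le, ← hs, ← hs2]
    field_simp
  rw [hfac, mul_assoc] at h
  have := le_of_mul_le_mul_left h hr'
  linarith

omit [DecidableEq n] in
/-- A quadratic bound on a Hermitian matrix bounds the sesquilinear form. -/
theorem norm_form_le {A : Matrix n n ℂ} (hA : A.IsHermitian) {S : n → Prop} {η : ℝ}
    (hη : ∀ x : n → ℂ, (∀ i, ¬S i → x i = 0) → |(star x ⬝ᵥ (A *ᵥ x)).re| ≤ η * sqNorm x)
    {x y : n → ℂ} (hx : ∀ i, ¬S i → x i = 0) (hy : ∀ i, ¬S i → y i = 0) :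
    ‖star y ⬝ᵥ (A *ᵥ x)‖ ≤ η * Real.sqrt (sqNorm x) * Real.sqrt (sqNorm y) := by
  rcases eq_or_lt_of_le (sqNorm_nonneg x) with h0 | hx0
  · have : x = 0 := funext fun i => Complex.normSq_eq_zero.1
      ((Finset.sum_eq_zero_iff_of_nonneg fun i _ => Complex.normSq_nonneg _).1 h0.symm i
        (Finset.mem_univ i))
    simp [this, sqNorm]
  rcases eq_or_lt_of_le (sqNorm_nonneg y) with h0 | hy0
  · have : y = 0 := funext fun i => Complex.normSq_eq_zero.1
      ((Finset.sum_eq_zero_iff_of_nonneg fun i _ => Complex.normSq_nonneg _).1 h0.symm i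
        (Finset.mem_univ i))
    simp [this, sqNorm]
  obtain ⟨p, hp⟩ : ∃ p, p = Real.sqrt (sqNorm x) := ⟨_, rfl⟩
  obtain ⟨q, hq⟩ : ∃ q, q = Real.sqrt (sqNorm y) := ⟨_, rfl⟩
  have hp0 : 0 < p := hp ▸ Real.sqrt_pos.2 hx0
  have hq0 : 0 < q := hq ▸ Real.sqrt_pos.2 hy0
  have hp2 : sqNorm x = p ^ 2 := hp ▸ (Real.sq_sqrt hx0.le).symm
  have hq2 : sqNorm y = q ^ 2 := hq ▸ (Real.sq_sqrt hy0.le).symm
  rw [← hp, ← hq]
  obtain ⟨w, hw⟩ : ∃ w, w = star y ⬝ᵥ (A *ᵥ x) := ⟨_, rfl⟩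
  rw [← hw]
  rcases eq_or_ne w 0 with h0 | hw0
  · rw [h0, norm_zero]
    have := (abs_nonneg _).trans (hη x hx)
    rw [hp2] at this
    have hη0 : 0 ≤ η := nonneg_of_mul_nonneg_left this (pow_pos hp0 2)
    positivity
  obtain ⟨a, ha⟩ : ∃ a : ℂ, a = (q : ℂ) * (starRingEnd ℂ w / ‖w‖) := ⟨_, rfl⟩
  obtain ⟨X, hX⟩ : ∃ X : n → ℂ, X = a • x := ⟨_, rfl⟩
  obtain ⟨Y, hY⟩ : ∃ Y : n → ℂ, Y = (p : ℂ) • y := ⟨_, rfl⟩
  have hnw : (‖w‖ : ℂ) ≠ 0 := Complex.ofReal_ne_zero.2 (norm_ne_zero_iff.2 hw0)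
  have han : Complex.normSq a = q ^ 2 := by
    rw [ha, Complex.normSq_mul, Complex.normSq_ofReal, Complex.normSq_eq_norm_sq, norm_div,
      Complex.norm_conj, Complex.norm_real, Real.norm_eq_abs, abs_norm,
      div_self (norm_ne_zero_iff.2 hw0), one_pow, mul_one, sq]
  have hX2 : sqNorm X = p ^ 2 * q ^ 2 := by
    rw [← hp2, ← han, hX]
    simp [sqNorm, Finset.mul_sum, mul_comm]
  have hY2 : sqNorm Y = p ^ 2 * q ^ 2 := by
    rw [← hq2, hY]
    simp [sqNorm, Finset.mul_sum, sq]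
  have hform : star Y ⬝ᵥ (A *ᵥ X) = ((p * q * ‖w‖ : ℝ) : ℂ) := by
    have h2 : starRingEnd ℂ w * w = (‖w‖ : ℂ) * ‖w‖ := by
      rw [Complex.conj_mul', sq]
    rw [hX, hY, mulVec_smul, star_smul, smul_dotProduct, dotProduct_smul, ← hw, ha,
      Complex.star_def, Complex.conj_ofReal, smul_eq_mul, smul_eq_mul]
    push_cast
    field_simp
    linear_combination h2
  have hsym : star X ⬝ᵥ (A *ᵥ Y) = ((p * q * ‖w‖ : ℝ) : ℂ) := by
    have h := star_form A X Y
    rw [hA.eq, hform, Complex.star_def, Complex.conj_ofReal] at h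
    exact h.symm
  have hsupp : ∀ ε : ℂ, ∀ i, ¬S i → (X + ε • Y) i = 0 := fun ε i hi => by
    simp [hX, hY, hx i hi, hy i hi]
  have h1 := hη _ (hsupp 1)
  have h2 := hη _ (hsupp (-1))
  simp only [one_smul, neg_smul, ← sub_eq_add_neg] at h1 h2
  simp only [mulVec_add, mulVec_sub, star_add, star_sub, add_dotProduct, sub_dotProduct,
    dotProduct_add, dotProduct_sub, hform, hsym, Complex.add_re, Complex.sub_re,
    Complex.ofReal_re] at h1 h2
  have hpar : sqNorm (X + Y) + sqNorm (X - Y) = 2 * sqNorm X + 2 * sqNorm Y := by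
    simp only [sqNorm, Finset.mul_sum, ← Finset.sum_add_distrib]
    exact Finset.sum_congr rfl fun i _ => by
      simp [Complex.normSq_add, Complex.normSq_sub]
      ring
  have h1' := le_of_abs_le h1
  have h2' := neg_le_of_abs_le h2
  have hfin : 4 * (p * q * ‖w‖) ≤ η * (sqNorm (X + Y) + sqNorm (X - Y)) := by linarith
  rw [hpar, hX2, hY2] at hfin
  have hpq : 0 < 4 * (p * q) := by positivity
  refine le_of_mul_le_mul_left ?_ hpq
  linarith

/-- **Paving of a Hermitian contraction.** -/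
theorem paving_hermitian {T : Matrix n n ℂ} (hT : T.IsHermitian) (hdiag : ∀ i, T i i = 0)
    (hbound : ∀ x, |(star x ⬝ᵥ (T *ᵥ x)).re| ≤ sqNorm x) {r : ℕ} (hr : 0 < r) :
    ∃ c : n → Fin r × Fin r, ∀ k x, (∀ i, c i ≠ k → x i = 0) →
      |(star x ⬝ᵥ (T *ᵥ x)).re| ≤ 5 / Real.sqrt r * sqNorm x := by
  have him := fun x : n → ℂ => quadForm_im_eq_zero hT x
  have main : ∀ S : Matrix n n ℂ, S.IsHermitian → (∀ i, S i i = 0) →
      (∀ x, |(star x ⬝ᵥ (S *ᵥ x)).re| ≤ sqNorm x) →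
      ∃ c : n → Fin r, ∀ k x, (∀ i, c i ≠ k → x i = 0) →
        (star x ⬝ᵥ (S *ᵥ x)).re ≤ 5 / Real.sqrt r * sqNorm x := by
    intro S hS hd hb
    have hquad : ∀ x : n → ℂ, (star x ⬝ᵥ (((1 / 2 : ℂ) • (1 + S)) *ᵥ x)) =
        (((sqNorm x + (star x ⬝ᵥ (S *ᵥ x)).re) / 2 : ℝ) : ℂ) := fun x => by
      rw [smul_mulVec, add_mulVec, one_mulVec, dotProduct_smul, dotProduct_add,
        star_dotProduct_self, smul_eq_mul]
      refine Complex.ext ?_ ?_
      · simp [quadForm_im_eq_zero hS x]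
        ring
      · simp [quadForm_im_eq_zero hS x]
    have hK : ((1 / 2 : ℂ) • (1 + S)).PosSemidef := by
      refine PosSemidef.of_dotProduct_mulVec_nonneg ?_ fun x => ?_
      · rw [Matrix.IsHermitian, conjTranspose_smul, conjTranspose_add, conjTranspose_one, hS.eq]
        norm_num
      · rw [hquad]
        exact Complex.zero_le_real.2 (by linarith [neg_abs_le (star x ⬝ᵥ (S *ᵥ x)).re, hb x])
    obtain ⟨V, hV⟩ := exists_gram hK
    have hVx : ∀ x, sqNorm (V *ᵥ x) = (sqNorm x + (star x ⬝ᵥ (S *ᵥ x)).re) / 2 := fun x => by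
      have := hquad x
      rw [hV, ← mulVec_mulVec, dotProduct_mulVec, ← star_mulVec, star_dotProduct_self] at this
      exact_mod_cast this
    have hVsmall : ∀ x, sqNorm (V *ᵥ x) ≤ sqNorm x := fun x => by
      linarith [hVx x, le_abs_self (star x ⬝ᵥ (S *ᵥ x)).re, hb x]
    obtain ⟨v, hv⟩ : ∃ v : n → n → ℂ, v = fun i l => V l i := ⟨_, rfl⟩
    have hcol : ∀ i, sqNorm (v i) ≤ 1 / 2 := fun i => by
      have h := congrFun (congrFun hV i) i
      simp only [Matrix.smul_apply, Matrix.add_apply, one_apply_eq, hd, add_zero, smul_eq_mul,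
        mul_one, Matrix.mul_apply, conjTranspose_apply] at h
      refine le_of_eq ?_
      have h' : ((sqNorm (v i) : ℝ) : ℂ) = ((1 / 2 : ℝ) : ℂ) := by
        push_cast
        rw [h, sqNorm, hv]
        simp [Complex.normSq_eq_conj_mul_self]
      exact_mod_cast h'
    have hsum : ∀ w, ∑ i, Complex.normSq (star (v i) ⬝ᵥ w) ≤ sqNorm w := fun w => by
      obtain ⟨a, ha⟩ : ∃ a : n → ℂ, a = fun i => star (v i) ⬝ᵥ w := ⟨_, rfl⟩
      have e : (sqNorm a : ℂ) = star (V *ᵥ a) ⬝ᵥ w := by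
        rw [← star_dotProduct_self, star_mulVec, ← dotProduct_mulVec]
        congr 1
        funext i
        simp [ha, hv, mulVec, dotProduct]
      have h1 := norm_dotProduct_le (star (V *ᵥ a)) w
      rw [← e, sqNorm_star, Complex.norm_real, Real.norm_eq_abs,
        abs_of_nonneg (sqNorm_nonneg a)] at h1
      have h2 := h1.trans (mul_le_mul_of_nonneg_right (Real.sqrt_le_sqrt (hVsmall a))
        (Real.sqrt_nonneg _))
      have e2 : ∑ i, Complex.normSq (star (v i) ⬝ᵥ w) = sqNorm a := by rw [ha, sqNorm]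
      rw [e2]
      have h3 := pow_le_pow_left₀ (sqNorm_nonneg a) h2 2
      rw [mul_pow, Real.sq_sqrt (sqNorm_nonneg a), Real.sq_sqrt (sqNorm_nonneg w)] at h3
      nlinarith [sqNorm_nonneg a, sqNorm_nonneg w]
    obtain ⟨c, hc⟩ := weaver v (δ := 1 / 2) (by norm_num) hcol hsum hr
    refine ⟨c, fun k x hx => ?_⟩
    obtain ⟨β, hβ⟩ : ∃ β, β = (1 / Real.sqrt r + Real.sqrt (1 / 2)) ^ 2 := ⟨_, rfl⟩
    have hβ0 : 0 ≤ β := hβ ▸ sq_nonneg _
    obtain ⟨y, hy⟩ : ∃ y, y = V *ᵥ x := ⟨_, rfl⟩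
    obtain ⟨a, ha⟩ : ∃ a : n → ℂ, a = fun i => if c i = k then star (v i) ⬝ᵥ y else 0 := ⟨_, rfl⟩
    have e : (sqNorm y : ℂ) = star a ⬝ᵥ x := by
      rw [← star_dotProduct_self, dotProduct, dotProduct]
      simp only [hy, mulVec, dotProduct, Finset.mul_sum]
      rw [Finset.sum_comm]
      refine Finset.sum_congr rfl fun i _ => ?_
      rcases eq_or_ne (c i) k with hk | hk
      · simp [ha, hk, hv, hy, mulVec, dotProduct, Finset.sum_mul, Finset.mul_sum, mul_assoc,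
          mul_comm, mul_left_comm]
      · simp [hx i hk]
    have h1 := norm_dotProduct_le (star a) x
    rw [← e, sqNorm_star, Complex.norm_real, Real.norm_eq_abs,
      abs_of_nonneg (sqNorm_nonneg y)] at h1
    have ha2 : sqNorm a ≤ β * sqNorm y := by
      refine le_trans (le_of_eq ?_) (hβ ▸ hc k y)
      rw [sqNorm, ha]
      refine Finset.sum_congr rfl fun i _ => ?_
      rcases eq_or_ne (c i) k with hk | hk <;> simp [hk]
    have h2 := h1.trans (mul_le_mul_of_nonneg_right (Real.sqrt_le_sqrt ha2) (Real.sqrt_nonneg _))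
    have h3 := pow_le_pow_left₀ (sqNorm_nonneg y) h2 2
    rw [mul_pow, Real.sq_sqrt (mul_nonneg hβ0 (sqNorm_nonneg y)),
      Real.sq_sqrt (sqNorm_nonneg x)] at h3
    have hyx : sqNorm y ≤ β * sqNorm x := by
      nlinarith [sqNorm_nonneg y, mul_nonneg hβ0 (sqNorm_nonneg x)]
    rw [hy, hVx] at hyx
    have hs : Real.sqrt r ≥ 1 := Real.one_le_sqrt.2 (by exact_mod_cast hr)
    have hh : Real.sqrt (1 / 2) ≤ 3 / 4 := Real.sqrt_le_iff.2 ⟨by norm_num, by norm_num⟩
    have hh0 := Real.sqrt_nonneg (1 / 2 : ℝ)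
    have hβle : 2 * β - 1 ≤ 5 / Real.sqrt r := by
      have e2 : 2 * β - 1 = (2 / Real.sqrt r + 4 * Real.sqrt (1 / 2)) / Real.sqrt r := by
        rw [hβ]
        have := Real.sq_sqrt (show (0 : ℝ) ≤ 1 / 2 by norm_num)
        field_simp
        linear_combination (2 * Real.sqrt r ^ 2) * this
      rw [e2]
      refine div_le_div_of_nonneg_right ?_ (Real.sqrt_nonneg _)
      have : 2 / Real.sqrt r ≤ 2 := div_le_self zero_le_two hs
      linarith
    have := mul_le_mul_of_nonneg_right hβle (sqNorm_nonneg x)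
    linarith
  obtain ⟨c₁, h₁⟩ := main T hT hdiag hbound
  obtain ⟨c₂, h₂⟩ := main (-T) hT.neg (fun i => by simp [hdiag]) fun x => by
    simpa [neg_mulVec] using hbound x
  refine ⟨fun i => (c₁ i, c₂ i), fun k x hx => abs_le.2 ⟨?_, ?_⟩⟩
  · have := h₂ k.2 x fun i hi => hx i fun e => hi (by rw [← e])
    simp only [neg_mulVec, dotProduct_neg, Complex.neg_re] at this
    linarith
  · exact h₁ k.1 x fun i hi => hx i fun e => hi (by rw [← e])

/-- **Anderson's paving theorem.** -/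
theorem paving {ε : ℝ} (hε : 0 < ε) : ∃ r : ℕ, 0 < r ∧
    ∀ (n : Type) [Fintype n] [DecidableEq n] (T : Matrix n n ℂ) (C : ℝ), 0 ≤ C →
      (∀ i, T i i = 0) →
      (∀ x y, ‖star y ⬝ᵥ (T *ᵥ x)‖ ≤ C * Real.sqrt (sqNorm x) * Real.sqrt (sqNorm y)) →
      ∃ c : n → Fin r, ∀ k x y, (∀ i, c i ≠ k → x i = 0) → (∀ i, c i ≠ k → y i = 0) →
        ‖star y ⬝ᵥ (T *ᵥ x)‖ ≤ ε * C * Real.sqrt (sqNorm x) * Real.sqrt (sqNorm y) := by
  obtain ⟨m, hm, hm0⟩ : ∃ m : ℕ, (10 / ε) ^ 2 ≤ m ∧ 0 < m :=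
    ⟨⌈(10 / ε) ^ 2⌉₊ + 1, (Nat.le_ceil _).trans (by exact_mod_cast Nat.le_succ _), Nat.succ_pos _⟩
  have hm' : 5 / Real.sqrt m ≤ ε / 2 := by
    have h10 : 10 / ε ≤ Real.sqrt m := Real.le_sqrt_of_sq_le hm
    rw [div_le_iff₀ (Real.sqrt_pos.2 (Nat.cast_pos.2 hm0))]
    have := mul_le_mul_of_nonneg_left h10 hε.le
    rw [mul_div_cancel₀ _ hε.ne'] at this
    linarith
  refine ⟨(m * m) * (m * m), by positivity, fun n _ _ T C hC hd hb => ?_⟩
  rcases eq_or_lt_of_le hC with rfl | hC0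
  · refine ⟨fun _ => ⟨0, by positivity⟩, fun k x y _ _ => ?_⟩
    simpa using hb x y
  obtain ⟨A, hA⟩ : ∃ A : Matrix n n ℂ, A = ((2 * C : ℝ) : ℂ)⁻¹ • (T + Tᴴ) := ⟨_, rfl⟩
  obtain ⟨B, hB⟩ : ∃ B : Matrix n n ℂ,
      B = (((2 * C : ℝ) : ℂ)⁻¹ * -Complex.I) • (T - Tᴴ) := ⟨_, rfl⟩
  have hconj : ∀ x y : n → ℂ, ‖star y ⬝ᵥ (Tᴴ *ᵥ x)‖ ≤
      C * Real.sqrt (sqNorm x) * Real.sqrt (sqNorm y) := fun x y => by
    have e : star y ⬝ᵥ (Tᴴ *ᵥ x) = star (star x ⬝ᵥ (T *ᵥ y)) := (star_form T y x).symm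
    rw [e, norm_star, mul_right_comm]
    exact hb y x
  have h2C : ‖(((2 * C : ℝ) : ℂ))⁻¹‖ = (2 * C)⁻¹ := by
    rw [norm_inv, Complex.norm_real, Real.norm_eq_abs, abs_of_pos (by positivity)]
  have hbound : ∀ (M : Matrix n n ℂ) (a : ℂ), ‖a‖ = (2 * C)⁻¹ →
      (M = a • (T + Tᴴ) ∨ M = a • (T - Tᴴ)) → ∀ x, |(star x ⬝ᵥ (M *ᵥ x)).re| ≤ sqNorm x := by
    intro M a ha hM x
    refine (Complex.abs_re_le_norm _).trans ?_
    have h1 := hb x x
    have h2 := hconj x x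
    rw [mul_assoc, Real.mul_self_sqrt (sqNorm_nonneg x)] at h1 h2
    rcases hM with rfl | rfl <;>
      rw [smul_mulVec, dotProduct_smul, smul_eq_mul, norm_mul, ha,
        inv_mul_le_iff₀ (by positivity)]
    · rw [add_mulVec, dotProduct_add]
      exact (norm_add_le _ _).trans (by linarith)
    · rw [sub_mulVec, dotProduct_sub]
      exact (norm_sub_le _ _).trans (by linarith)
  have hAh : A.IsHermitian := by
    rw [Matrix.IsHermitian, hA, conjTranspose_smul, conjTranspose_add, conjTranspose_conjTranspose,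
      add_comm, Complex.star_def, map_inv₀, Complex.conj_ofReal]
  have hBh : B.IsHermitian := by
    rw [Matrix.IsHermitian, hB, conjTranspose_smul, conjTranspose_sub, conjTranspose_conjTranspose,
      Complex.star_def, map_mul, map_inv₀, Complex.conj_ofReal, map_neg, Complex.conj_I, neg_neg,
      ← neg_sub T Tᴴ, smul_neg, ← neg_smul]
    congr 1
    ring
  obtain ⟨c₁, h₁⟩ := paving_hermitian hAh (fun i => by simp [hA, hd])
    (hbound A _ h2C (Or.inl hA)) hm0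
  obtain ⟨c₂, h₂⟩ := paving_hermitian hBh (fun i => by simp [hB, hd])
    (hbound B _ (by rw [norm_mul, h2C, norm_neg, Complex.norm_I, mul_one]) (Or.inr hB)) hm0
  refine ⟨fun i => finProdFinEquiv (finProdFinEquiv (c₁ i), finProdFinEquiv (c₂ i)),
    fun k x y hx hy => ?_⟩
  obtain ⟨⟨k₁', k₂'⟩, rfl⟩ := finProdFinEquiv.surjective k
  obtain ⟨k₁, rfl⟩ := finProdFinEquiv.surjective k₁'
  obtain ⟨k₂, rfl⟩ := finProdFinEquiv.surjective k₂'
  obtain ⟨S, hS⟩ : ∃ S : n → Prop, S = fun i => c₁ i = k₁ ∧ c₂ i = k₂ := ⟨_, rfl⟩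
  have hmem : ∀ z : n → ℂ, (∀ i, finProdFinEquiv (finProdFinEquiv (c₁ i), finProdFinEquiv (c₂ i)) ≠
      finProdFinEquiv (finProdFinEquiv k₁, finProdFinEquiv k₂) → z i = 0) →
      ∀ i, ¬S i → z i = 0 := fun z hz i hi => hz i (by
    simpa [hS, finProdFinEquiv.injective.eq_iff] using hi)
  have hA' := norm_form_le hAh (S := S) (fun z hz => h₁ k₁ z fun i hi => hz i fun h => hi
    (by rw [hS] at h; exact h : c₁ i = k₁ ∧ c₂ i = k₂).1) (hmem x hx) (hmem y hy)
  have hB' := norm_form_le hBh (S := S) (fun z hz => h₂ k₂ z fun i hi => hz i fun h => hi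
    (by rw [hS] at h; exact h : c₁ i = k₁ ∧ c₂ i = k₂).2) (hmem x hx) (hmem y hy)
  have hT : T = (C : ℂ) • A + ((C : ℂ) * Complex.I) • B := by
    have hC' : (C : ℂ) ≠ 0 := Complex.ofReal_ne_zero.2 hC0.ne'
    refine Matrix.ext fun i j => ?_
    simp [hA, hB]
    field_simp
    linear_combination (T i j - (starRingEnd ℂ) (T j i)) * Complex.I_sq
  rw [hT, add_mulVec, smul_mulVec, smul_mulVec, dotProduct_add, dotProduct_smul, dotProduct_smul,
    smul_eq_mul, smul_eq_mul]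
  refine (norm_add_le _ _).trans ?_
  rw [norm_mul, norm_mul, norm_mul, Complex.norm_I, mul_one, Complex.norm_real, Real.norm_eq_abs,
    abs_of_pos hC0]
  have := mul_le_mul_of_nonneg_left (add_le_add hA' hB') hC0.le
  have h5 := mul_le_mul_of_nonneg_right hm' (mul_nonneg (mul_nonneg hC0.le
    (Real.sqrt_nonneg (sqNorm x))) (Real.sqrt_nonneg (sqNorm y)))
  linarith

end FA.KadisonSinger
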